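/-
S48 (row 43), mountain B, part B2, slice R, leaf IRR-1 (helper25).
Plan: NOTES/plan/W_S48_B.md, "Proof of R-IRR".

**IRR-1** (abstract; the decomposition field has the residue field of the base):
`L/E` finite Galois (ANY Galois group), `V` a valuation ring of `L` of rank one (`harch`),
`D = NEB.H97.decomp E V` its decomposition group.  For every `g ∈ V` fixed by `D` there is `t ∈ E`
with `t ∈ V` and `g - t ∈ 𝔪_V`.

Proof: `a₁ ≡ 1` at `V`, small at the other conjugates (`NEB.H97.exists_approx`), `a = a₁^N` with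
`a g` small at the other conjugates, `b = ∏_{δ ∈ D} δ a` (`D`-invariant, `≡ 1` at `V`),
`t = ∑_{τ ∈ Δ/D} τ (b g)`.  No division by `|D|`.
-/
import Fermat.Agent.NEB.H97_Val

set_option autoImplicit false
set_option linter.unusedSectionVars false
set_option linter.style.haveILetI false
set_option linter.unusedVariables false

namespace Fermat.Agent.S48.B2.R.H25

open Fermat.Agent.NEB

/-- **IRR-1**, the statement. -/
def Stmt_Irr1.{u, v} : Prop :=
  ∀ (E : Type u) (L : Type v) [Field E] [Field L] [Algebra E L] [FiniteDimensional E L]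
    [IsGalois E L] (V : ValuationSubring L),
    (∀ x y : L, V.valuation x < 1 → y ≠ 0 → ∃ N : ℕ, V.valuation x ^ N < V.valuation y) →
    ∀ g : L, V.valuation g ≤ 1 → (∀ δ ∈ H97.decomp E V, δ g = g) →
      ∃ t : E, V.valuation (algebraMap E L t) ≤ 1 ∧ V.valuation (g - algebraMap E L t) < 1

section

variable {E : Type*} {L : Type*} [Field E] [Field L] [Algebra E L] {V : ValuationSubring L}

theorem val_le_one_of_sub_one_lt {x : L} (hx : V.valuation (x - 1) < 1) :
    V.valuation x ≤ 1 := by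
  have h : x = (x - 1) + 1 := by ring
  rw [h]
  refine le_trans (Valuation.map_add _ _ _) ?_
  rw [map_one]
  exact max_le hx.le le_rfl

theorem val_mul_sub_one_lt {x y : L} (hx : V.valuation (x - 1) < 1)
    (hy : V.valuation (y - 1) < 1) : V.valuation (x * y - 1) < 1 := by
  have h : x * y - 1 = x * (y - 1) + (x - 1) := by ring
  rw [h]
  refine lt_of_le_of_lt (Valuation.map_add _ _ _) (max_lt ?_ hx)
  rw [map_mul]
  calc V.valuation x * V.valuation (y - 1) ≤ 1 * V.valuation (y - 1) :=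
        mul_le_mul_left (val_le_one_of_sub_one_lt hx) _
    _ = V.valuation (y - 1) := one_mul _
    _ < 1 := hy

theorem val_pow_sub_one_lt {x : L} (hx : V.valuation (x - 1) < 1) (n : ℕ) :
    V.valuation (x ^ n - 1) < 1 := by
  induction n with
  | zero => simp
  | succ n ih => rw [pow_succ]; exact val_mul_sub_one_lt ih hx

theorem val_prod_sub_one_lt {ι : Type*} (s : Finset ι) (f : ι → L)
    (h : ∀ i ∈ s, V.valuation (f i - 1) < 1) : V.valuation (∏ i ∈ s, f i - 1) < 1 := by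
  classical
  induction s using Finset.induction_on with
  | empty => simp
  | insert i s hi ih =>
    rw [Finset.prod_insert hi]
    exact val_mul_sub_one_lt (h i (Finset.mem_insert_self _ _))
      (ih (fun j hj => h j (Finset.mem_insert_of_mem hj)))

theorem val_prod_le_one {ι : Type*} (s : Finset ι) (f : ι → L)
    (h : ∀ i ∈ s, V.valuation (f i) ≤ 1) : V.valuation (∏ i ∈ s, f i) ≤ 1 := by
  rw [map_prod]
  exact Finset.prod_le_one' h

end

/-- **IRR-1.** -/
theorem irr1 {E : Type*} {L : Type*} [Field E] [Field L] [Algebra E L] [FiniteDimensional E L]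
    [IsGalois E L] (V : ValuationSubring L)
    (harch : ∀ x y : L, V.valuation x < 1 → y ≠ 0 → ∃ N : ℕ, V.valuation x ^ N < V.valuation y)
    (g : L) (hg : V.valuation g ≤ 1) (hfix : ∀ δ ∈ H97.decomp E V, δ g = g) :
    ∃ t : E, V.valuation (algebraMap E L t) ≤ 1 ∧ V.valuation (g - algebraMap E L t) < 1 := by
  classical
  by_cases hg0 : g = 0
  · exact ⟨0, by simp, by simp [hg0]⟩
  haveI : Finite (L ≃ₐ[E] L) := inferInstance
  haveI : Fintype (L ≃ₐ[E] L) := Fintype.ofFinite _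
  set D : Subgroup (L ≃ₐ[E] L) := H97.decomp E V with hD
  have hm0 : Nat.card (L ≃ₐ[E] L) ≠ 0 := Nat.card_pos.ne'
  have hexp : ∀ δ : L ≃ₐ[E] L, δ ^ Nat.card (L ≃ₐ[E] L) = 1 := fun δ => pow_card_eq_one'
  -- the approximating element
  obtain ⟨a₁, ha₁, ha₁'⟩ := H97.exists_approx (E := E) (V := V) harch hm0 hexp (1 : L)
  set T : Finset (L ≃ₐ[E] L) := Finset.univ.filter (fun δ => δ ∉ D) with hT
  have hTmem : ∀ δ, δ ∈ T ↔ δ ∉ D := fun δ => by simp [hT]
  have hx : ∀ δ ∈ T, V.valuation (δ a₁) < 1 := by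
    intro δ hδ
    have := ha₁' δ ((hTmem δ).1 hδ)
    rwa [mul_one] at this
  obtain ⟨N, hN0, hN⟩ := H97.exists_pow_lt harch T a₁ g hg0 hx
  set a : L := a₁ ^ N with ha
  have ha1 : V.valuation (a - 1) < 1 := val_pow_sub_one_lt ha₁ N
  have haD : ∀ δ ∈ D, V.valuation (δ a - 1) < 1 := by
    intro δ hδ
    have h1 : δ a - 1 = δ (a - 1) := by rw [map_sub, map_one]
    rw [h1]
    exact (H97.decomp_lt hδ _).2 ha1
  have haT : ∀ δ : L ≃ₐ[E] L, δ ∉ D → V.valuation (δ a) < 1 := by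
    intro δ hδ
    rw [ha, map_pow, map_pow]
    exact pow_lt_one' (hx δ ((hTmem δ).2 hδ)) hN0.ne'
  have haTg : ∀ δ : L ≃ₐ[E] L, δ ∉ D → V.valuation (δ (a * g)) < 1 := by
    intro δ hδ
    rw [ha, map_mul, map_mul, map_pow, map_pow]
    exact hN δ ((hTmem δ).2 hδ)
  -- the `D`-invariant element
  set Ds : Finset (L ≃ₐ[E] L) := Finset.univ.filter (fun δ => δ ∈ D) with hDs
  have hDsmem : ∀ δ, δ ∈ Ds ↔ δ ∈ D := fun δ => by simp [hDs]
  set b : L := ∏ δ ∈ Ds, δ a with hb
  have hb1 : V.valuation (b - 1) < 1 :=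
    val_prod_sub_one_lt Ds _ (fun δ hδ => haD δ ((hDsmem δ).1 hδ))
  have hbτ : ∀ τ : L ≃ₐ[E] L, τ b = ∏ δ ∈ Ds, (τ * δ) a := by
    intro τ
    rw [hb, map_prod]
    rfl
  have hbD : ∀ τ ∈ D, τ b = b := by
    intro τ hτ
    rw [hbτ τ, hb]
    refine Finset.prod_bij (fun δ _ => τ * δ) ?_ ?_ ?_ ?_
    · intro δ hδ
      exact (hDsmem _).2 (D.mul_mem hτ ((hDsmem δ).1 hδ))
    · intro δ₁ _ δ₂ _ h
      exact mul_left_cancel h
    · intro δ hδ
      refine ⟨τ⁻¹ * δ, (hDsmem _).2 (D.mul_mem (D.inv_mem hτ) ((hDsmem δ).1 hδ)), ?_⟩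
      rw [mul_inv_cancel_left]
    · intro δ _
      rfl
  have hbgD : ∀ τ ∈ D, τ (b * g) = b * g := by
    intro τ hτ
    rw [map_mul, hbD τ hτ, hfix τ hτ]
  have hbgT : ∀ τ : L ≃ₐ[E] L, τ ∉ D → V.valuation (τ (b * g)) < 1 := by
    intro τ hτ
    have h1 : (1 : L ≃ₐ[E] L) ∈ Ds := (hDsmem 1).2 D.one_mem
    have h2 : τ (b * g) = τ (a * g) * ∏ δ ∈ Ds.erase 1, (τ * δ) a := by
      rw [map_mul, hbτ τ, ← Finset.mul_prod_erase Ds _ h1, mul_one, map_mul]
      ring
    rw [h2, map_mul]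
    have h3 : V.valuation (∏ δ ∈ Ds.erase 1, (τ * δ) a) ≤ 1 := by
      refine val_prod_le_one _ _ (fun δ hδ => ?_)
      have hδD : δ ∈ D := (hDsmem δ).1 (Finset.mem_of_mem_erase hδ)
      have hτδ : τ * δ ∉ D := by
        intro h
        apply hτ
        have := D.mul_mem h (D.inv_mem hδD)
        rwa [mul_inv_cancel_right] at this
      exact (haT _ hτδ).le
    calc V.valuation (τ (a * g)) * V.valuation (∏ δ ∈ Ds.erase 1, (τ * δ) a)
        ≤ V.valuation (τ (a * g)) * 1 := mul_le_mul_right h3 _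
      _ = V.valuation (τ (a * g)) := mul_one _
      _ < 1 := haTg τ hτ
  -- the sum over the cosets
  let F : (L ≃ₐ[E] L) ⧸ D → L := Quotient.lift (fun τ : L ≃ₐ[E] L => τ (b * g)) (by
    intro τ₁ τ₂ h
    have h' : τ₁⁻¹ * τ₂ ∈ D := QuotientGroup.leftRel_apply.1 h
    have h1 := hbgD _ h'
    show τ₁ (b * g) = τ₂ (b * g)
    have h2 := congrArg τ₁ h1
    rw [← h2, AlgEquiv.mul_apply]
    exact AlgEquiv.apply_symm_apply τ₁ (τ₂ (b * g)))
  have hFmk : ∀ τ : L ≃ₐ[E] L, F (QuotientGroup.mk τ) = τ (b * g) := fun τ => rfl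
  haveI : Fintype ((L ≃ₐ[E] L) ⧸ D) := Fintype.ofFinite _
  set tL : L := ∑ q : (L ≃ₐ[E] L) ⧸ D, F q with htL
  have hinv : ∀ σ : L ≃ₐ[E] L, σ tL = tL := by
    intro σ
    rw [htL, map_sum]
    have h1 : ∀ q : (L ≃ₐ[E] L) ⧸ D, σ (F q) = F (σ • q) := by
      intro q
      induction q using QuotientGroup.induction_on with
      | H τ =>
        rw [hFmk, MulAction.Quotient.smul_mk, hFmk]
        rfl
    simp_rw [h1]
    exact Equiv.sum_comp (MulAction.toPerm σ : Equiv.Perm ((L ≃ₐ[E] L) ⧸ D)) F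
  have hmem : tL ∈ (⊥ : IntermediateField E L) := (IsGalois.mem_bot_iff_fixed tL).2 hinv
  obtain ⟨t, ht⟩ := IntermediateField.mem_bot.1 hmem
  -- the estimate
  have hsplit : tL = b * g + ∑ q ∈ (Finset.univ.erase (QuotientGroup.mk 1 :
      (L ≃ₐ[E] L) ⧸ D)), F q := by
    rw [htL, ← Finset.add_sum_erase Finset.univ F (Finset.mem_univ (QuotientGroup.mk 1 :
      (L ≃ₐ[E] L) ⧸ D)), hFmk]
    rfl
  have hrest : V.valuation (∑ q ∈ (Finset.univ.erase (QuotientGroup.mk 1 :
      (L ≃ₐ[E] L) ⧸ D)), F q) < 1 := by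
    refine Valuation.map_sum_lt _ one_ne_zero (fun q hq => ?_)
    have hq1 : q ≠ QuotientGroup.mk 1 := Finset.ne_of_mem_erase hq
    induction q using QuotientGroup.induction_on with
    | H τ =>
      rw [hFmk]
      apply hbgT
      intro hτ
      apply hq1
      rw [QuotientGroup.eq]
      exact D.mul_mem (D.inv_mem hτ) D.one_mem
  have hbg : V.valuation (b * g - g) < 1 := by
    have h : b * g - g = (b - 1) * g := by ring
    rw [h, map_mul]
    calc V.valuation (b - 1) * V.valuation g ≤ V.valuation (b - 1) * 1 :=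
          mul_le_mul_right hg _
      _ = V.valuation (b - 1) := mul_one _
      _ < 1 := hb1
  have hfin : V.valuation (g - algebraMap E L t) < 1 := by
    rw [ht, hsplit]
    have h : g - (b * g + ∑ q ∈ (Finset.univ.erase (QuotientGroup.mk 1 :
        (L ≃ₐ[E] L) ⧸ D)), F q) = -(b * g - g) - ∑ q ∈ (Finset.univ.erase (QuotientGroup.mk 1 :
        (L ≃ₐ[E] L) ⧸ D)), F q := by ring
    rw [h]
    refine lt_of_le_of_lt (Valuation.map_sub _ _ _) (max_lt ?_ hrest)
    rw [Valuation.map_neg]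
    exact hbg
  refine ⟨t, ?_, hfin⟩
  have h : algebraMap E L t = g - (g - algebraMap E L t) := by ring
  rw [h]
  exact le_trans (Valuation.map_sub _ _ _) (max_le hg hfin.le)

theorem stmt_Irr1.{u, v} : Stmt_Irr1.{u, v} :=
  fun E L _ _ _ _ _ V harch g hg hfix => irr1 V harch g hg hfix

end Fermat.Agent.S48.B2.R.H25
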