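/-
S48 (row 43), mountain B, part B2, slice R: the IRR assembly, abstract core (helper25).
Plan: NOTES/plan/W_S48_B.md, "Proof of R-IRR" (helper43).

`irr_core`: let `L / φ(E)` be Galois with finite ABELIAN group `ρ(Δ)`, `V` a valuation ring of `L` of
rank one, `Red x y` a reduction relation on `V` (additive, `𝔪_V` reduces to `0`), `c1` an additive
functional on the reductions ("the `q¹`-coefficient"), `Vr` an additive operator on reductions
("`V_r`"), `T` an operator on `L` ("the trace Hecke operator `𝒯_r`") such that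

* `T` commutes with `ρ` and preserves `φ(E)`;
* `red (T f) = Vr (red f) + Wr (red (ρ d₀ f))` whenever `f` and `ρ d₀ f` are integral;
* (IRR-3) if `y` and `Vr y` are both reductions of elements of `E`, then `c1 y = 0`;
* there is `e ∈ L` all of whose conjugates are integral with `c1 (red (ρ d e)) = [ρ d = 1]`.

Then `ρ d₀` preserves `V`.

Proof (helper43): `D` the decomposition group of `V`; if `δ₀ = ρ d₀ ∉ D`, put `S = ∑_{δ ∈ D} δ e`,
`S' = δ₀ S`: both are `D`-fixed (the group is abelian), integral, with `c1 = 1` resp. `0`; `T S` is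
`D`-fixed and integral.  IRR-1 (`irr1`): `S ≡ t₁`, `S' ≡ t₂`, `T S ≡ t₃` with `tᵢ ∈ E`.  Then
`Vr (red t₁ - red t₂) = red (t₃ - T t₂)`, so `c1 (red t₁ - red t₂) = 0` by IRR-3; but it is `1`.
-/
import Fermat.Agent.S48.B2.R.H25_Irr1
import Fermat.Prelude.Def_AlgebraicCurve_Correspondence
import Mathlib.FieldTheory.Galois.IsGaloisGroup

set_option autoImplicit false
set_option linter.unusedSectionVars false
set_option linter.style.haveILetI false
set_option linter.unusedVariables false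

namespace Fermat.Agent.S48.B2.R.H25

open Fermat.Agent.NEB AlgebraicCurve

/-- A group `G` of `K`-automorphisms of `L` with fixed field `φ(E)` is a Galois group of `L / E`
(algebra structure along `φ`).  (Copy of `NEB.H2.isGaloisGroup_along`, to keep the imports of
this file light.) -/
theorem isGaloisGroup_along_h25 {K E L : Type} [Field K] [Field E] [Field L] [Algebra K E]
    [Algebra K L] (φ : E →ₐ[K] L) (G : Subgroup (L ≃ₐ[K] L))
    (h1 : ∀ x : L, (∀ g ∈ G, g x = x) → x ∈ Set.range φ)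
    (h2 : ∀ (g : L ≃ₐ[K] L) (y : E), g ∈ G → g (φ y) = φ y) :
    letI := algebraAlong φ
    IsGaloisGroup G E L := by
  letI := algebraAlong φ
  exact
    { faithful := inferInstance
      commutes := ⟨fun g a x => by
        show (g : L ≃ₐ[K] L) (a • x) = a • (g : L ≃ₐ[K] L) x
        rw [Algebra.smul_def, Algebra.smul_def, map_mul]
        congr 1
        exact h2 _ a g.2⟩
      isInvariant := ⟨fun x hx => by
        obtain ⟨y, hy⟩ := h1 x (fun g hg => hx ⟨g, hg⟩)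
        exact ⟨y, hy⟩⟩ }

open scoped Classical in
/-- **The IRR assembly, abstract core.** -/
theorem irr_core {K E L : Type} [Field K] [Field E] [Field L] [Algebra K E] [Algebra K L]
    (φ : E →ₐ[K] L) {Δ : Type} [CommGroup Δ] [Finite Δ] (ρ : Δ →* (L ≃ₐ[K] L))
    (hfix : ∀ d x, ρ d (φ x) = φ x) (hinv : ∀ x : L, (∀ d, ρ d x = x) → ∃ x₀, φ x₀ = x)
    (V : ValuationSubring L)
    (harch : ∀ x y : L, V.valuation x < 1 → y ≠ 0 → ∃ N : ℕ, V.valuation x ^ N < V.valuation y)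
    {R κ : Type} [AddCommGroup R] [Ring κ] [Nontrivial κ]
    (Red : L → R → Prop)
    (hRed_V : ∀ x y, Red x y → V.valuation x ≤ 1)
    (hRed_lt : ∀ x, V.valuation x < 1 → Red x 0)
    (hRed_add : ∀ x x' y y', Red x y → Red x' y' → Red (x + x') (y + y'))
    (hRed_sub : ∀ x x' y y', Red x y → Red x' y' → Red (x - x') (y - y'))
    (c1 : R →+ κ) (Vr : R →+ R) (Wr : R → R) (T : L → L) (d₀ : Δ)
    (hTρ : ∀ d f, T (ρ d f) = ρ d (T f))
    (hTE : ∀ t : E, ∃ t' : E, T (φ t) = φ t')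
    (hTred : ∀ f y y', Red f y → Red (ρ d₀ f) y' → Red (T f) (Vr y + Wr y'))
    (hirr3 : ∀ (t t' : E) (y : R), Red (φ t) y → Red (φ t') (Vr y) → c1 y = 0)
    (e : L) (he : ∀ d, ∃ y, Red (ρ d e) y ∧ c1 y = if ρ d = 1 then 1 else 0) :
    ∀ x, V.valuation x ≤ 1 → V.valuation (ρ d₀ x) ≤ 1 := by
  letI alg := algebraAlong φ
  haveI : Finite ρ.range := Finite.of_surjective ρ.rangeRestrict ρ.rangeRestrict_surjective
  haveI hGG : IsGaloisGroup ρ.range E L :=
    isGaloisGroup_along_h25 φ ρ.range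
      (fun x hx => by
        obtain ⟨x₀, h⟩ := hinv x (fun d => hx _ ⟨d, rfl⟩)
        exact ⟨x₀, h⟩)
      (by
        rintro g y ⟨d, rfl⟩
        exact hfix d y)
  haveI hfd : FiniteDimensional E L := IsGaloisGroup.finiteDimensional ρ.range E L
  haveI hgal : IsGalois E L := IsGaloisGroup.isGalois ρ.range E L
  have hsurj := (IsGaloisGroup.mulEquivAlgEquiv ρ.range E L).surjective
  -- the dictionary between `Gal(L/E)` and `ρ(Δ)`
  have hδ : ∀ δ : L ≃ₐ[E] L, ∃ d : Δ, ∀ x, δ x = ρ d x := by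
    intro δ
    obtain ⟨⟨_, d, rfl⟩, rfl⟩ := hsurj δ
    exact ⟨d, fun x => IsGaloisGroup.mulEquivAlgEquiv_apply_apply ρ.range E L _ x⟩
  have hd : ∀ d : Δ, ∃ δ : L ≃ₐ[E] L, ∀ x, δ x = ρ d x := fun d =>
    ⟨IsGaloisGroup.mulEquivAlgEquiv ρ.range E L ⟨ρ d, d, rfl⟩,
      fun x => IsGaloisGroup.mulEquivAlgEquiv_apply_apply ρ.range E L _ x⟩
  choose dOf hdOf using hδ
  obtain ⟨δ₀, hδ₀⟩ := hd d₀
  haveI : Fintype (L ≃ₐ[E] L) := Fintype.ofFinite _
  set D : Subgroup (L ≃ₐ[E] L) := H97.decomp E V with hD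
  suffices hmem : δ₀ ∈ D by
    intro x hx
    rw [← hδ₀ x]
    exact ((H97.mem_decomp V).1 hmem x).2 hx
  by_contra hnot
  have hcommΓ : ∀ δ δ' : L ≃ₐ[E] L, δ * δ' = δ' * δ := by
    intro δ δ'
    ext x
    rw [AlgEquiv.mul_apply, AlgEquiv.mul_apply, hdOf δ', hdOf δ, hdOf δ, hdOf δ',
      ← AlgEquiv.mul_apply, ← AlgEquiv.mul_apply, ← map_mul, ← map_mul, mul_comm]
  -- the reductions of the conjugates of `e`
  choose yf hyRed hyc using he
  set Y : (L ≃ₐ[E] L) → R := fun δ => yf (dOf δ) with hYdef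
  have hY : ∀ δ : L ≃ₐ[E] L, Red (δ e) (Y δ) := fun δ => by
    rw [hdOf δ e]
    exact hyRed _
  have hYc : ∀ δ : L ≃ₐ[E] L, c1 (Y δ) = if δ = 1 then 1 else 0 := by
    intro δ
    have h1 : ρ (dOf δ) = 1 ↔ δ = 1 := by
      constructor
      · intro h
        ext x
        rw [hdOf δ x, h]
        rfl
      · intro h
        ext x
        rw [← hdOf δ x, h]
        rfl
    rw [hYdef]
    show c1 (yf (dOf δ)) = _
    rw [hyc]
    by_cases h : δ = 1
    · rw [if_pos h, if_pos (h1.2 h)]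
    · rw [if_neg h, if_neg (fun h' => h (h1.1 h'))]
  set Ds : Finset (L ≃ₐ[E] L) := Finset.univ.filter (fun δ => δ ∈ D) with hDs
  have hDsmem : ∀ δ, δ ∈ Ds ↔ δ ∈ D := fun δ => by simp [hDs]
  have hRed_zero : Red 0 0 := hRed_lt 0 (by simp)
  have hRed_sum : ∀ (s : Finset (L ≃ₐ[E] L)) (f : (L ≃ₐ[E] L) → L) (y : (L ≃ₐ[E] L) → R),
      (∀ i ∈ s, Red (f i) (y i)) → Red (∑ i ∈ s, f i) (∑ i ∈ s, y i) := by
    intro s f y
    induction s using Finset.induction_on with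
    | empty =>
      intro _
      simpa using hRed_zero
    | insert i s hi ih =>
      intro h
      rw [Finset.sum_insert hi, Finset.sum_insert hi]
      exact hRed_add _ _ _ _ (h i (Finset.mem_insert_self _ _))
        (ih (fun j hj => h j (Finset.mem_insert_of_mem hj)))
  -- the elements `S`, `S' = δ₀ S`
  set S : L := ∑ δ ∈ Ds, δ e with hSdef
  set yS : R := ∑ δ ∈ Ds, Y δ with hyS
  have hS : Red S yS := hRed_sum Ds _ _ (fun δ _ => hY δ)
  have hτS : ∀ τ : L ≃ₐ[E] L, τ S = ∑ δ ∈ Ds, (τ * δ) e := by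
    intro τ
    rw [hSdef, map_sum]
    rfl
  set yS' : R := ∑ δ ∈ Ds, Y (δ₀ * δ) with hyS'
  have hS' : Red (δ₀ S) yS' := by
    rw [hτS δ₀]
    exact hRed_sum Ds _ _ (fun δ _ => hY _)
  have hcS : c1 yS = 1 := by
    rw [hyS, map_sum]
    simp only [hYc]
    rw [Finset.sum_ite_eq' Ds (1 : L ≃ₐ[E] L) (fun _ => (1 : κ)),
      if_pos ((hDsmem 1).2 D.one_mem)]
  have hcS' : c1 yS' = 0 := by
    rw [hyS', map_sum]
    refine Finset.sum_eq_zero fun δ hδ => ?_
    rw [hYc, if_neg]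
    intro h
    apply hnot
    have h1 : δ₀ = δ⁻¹ := eq_inv_of_mul_eq_one_left h
    rw [h1]
    exact D.inv_mem ((hDsmem δ).1 hδ)
  have hSfix : ∀ τ ∈ D, τ S = S := by
    intro τ hτ
    rw [hτS τ, hSdef]
    refine Finset.sum_bij (fun δ _ => τ * δ) ?_ ?_ ?_ ?_
    · intro δ hδ
      exact (hDsmem _).2 (D.mul_mem hτ ((hDsmem δ).1 hδ))
    · intro δ₁ _ δ₂ _ h
      exact mul_left_cancel h
    · intro δ hδ
      refine ⟨τ⁻¹ * δ, (hDsmem _).2 (D.mul_mem (D.inv_mem hτ) ((hDsmem δ).1 hδ)), ?_⟩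
      rw [mul_inv_cancel_left]
    · intro δ _
      rfl
  have hS'fix : ∀ τ ∈ D, τ (δ₀ S) = δ₀ S := by
    intro τ hτ
    rw [← AlgEquiv.mul_apply, hcommΓ τ δ₀, AlgEquiv.mul_apply, hSfix τ hτ]
  have hδ₀S : ρ d₀ S = δ₀ S := (hδ₀ S).symm
  have hTS : Red (T S) (Vr yS + Wr yS') := hTred S yS yS' hS (by rw [hδ₀S]; exact hS')
  have hTSfix : ∀ τ ∈ D, τ (T S) = T S := by
    intro τ hτ
    rw [hdOf τ (T S), ← hTρ, ← hdOf τ S, hSfix τ hτ]
  -- IRR-1, three times
  obtain ⟨t1, ht1, ht1'⟩ := irr1 V harch S (hRed_V _ _ hS) hSfix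
  obtain ⟨t2, ht2, ht2'⟩ := irr1 V harch (δ₀ S) (hRed_V _ _ hS') hS'fix
  obtain ⟨t3, ht3, ht3'⟩ := irr1 V harch (T S) (hRed_V _ _ hTS) hTSfix
  have key : ∀ (g : L) (t : E) (y : R), Red g y → V.valuation (g - algebraMap E L t) < 1 →
      Red (φ t) y := by
    intro g t y hg hlt
    have h1 := hRed_sub _ _ _ _ hg (hRed_lt _ hlt)
    have e1 : g - (g - algebraMap E L t) = φ t := by
      have : algebraMap E L t = φ t := rfl
      rw [this]
      ring
    rwa [e1, sub_zero] at h1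
  have r1 := key _ _ _ hS ht1'
  have r2 := key _ _ _ hS' ht2'
  have r3 := key _ _ _ hTS ht3'
  obtain ⟨t2', ht2'eq⟩ := hTE t2
  have r4 : Red (φ t2') (Vr yS' + Wr yS') := by
    rw [← ht2'eq]
    exact hTred (φ t2) yS' yS' r2 (by rw [hfix]; exact r2)
  have r5 : Red (φ (t1 - t2)) (yS - yS') := by
    rw [map_sub]
    exact hRed_sub _ _ _ _ r1 r2
  have r6 : Red (φ (t3 - t2')) (Vr (yS - yS')) := by
    rw [map_sub, map_sub]
    have h1 := hRed_sub _ _ _ _ r3 r4
    have e1 : Vr yS + Wr yS' - (Vr yS' + Wr yS') = Vr yS - Vr yS' := by abel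
    rwa [e1] at h1
  have h0 := hirr3 _ _ _ r5 r6
  rw [map_sub, hcS, hcS', sub_zero] at h0
  exact one_ne_zero h0

end Fermat.Agent.S48.B2.R.H25
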