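import Fermat.Agent.S48.B2.Defs
import Fermat.Agent.NEB.H94_FF
import Fermat.Agent.RED.Core
import Fermat.Agent.RED.H34_IGDefs
import Fermat.Agent.RED.H73_GARedSetting
import Fermat.Agent.RED.H73_GAHaupt

/-!
# S48, mountain B2, slice R (good reduction of `X_H`): interfaces (helper32)

Plan: `NOTES/plan/W_S48_B2R.md`.  Target: `B2.Stmt_TorsUnramH`, `B2.Stmt_TorsESH`.

Route ("TIcore-centred", no reduction map on points):

* `Stmt_TIcoreH` : the Kummer form of torsion injectivity for `F_H(M)` at `A ∣ q`, `q ∤ M n`,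
  `gcd(n, 6) = 1`, (SQ).  Proved at a level `M''` where `UnrCond` holds (`H22.exists_level`,
  `NEB.H34.fh_unr`, `H34.brup`) by the abstract machine of G-RED (`RED.H79.hasDR_of_goodCharts`,
  `RED.H17.ticoreFor_of_hasDR`), then descended to `M` by the norm (`Stmt_Desc`).
* OUT : `Stmt_TIcoreH → B2.Stmt_TorsUnramH`, `Stmt_TIcoreH → B2.Stmt_TorsESH` with helper70's
  series lemmas (`NEB/Geom/H70_KU.lean` : `inKU_inertia`, `inKU_ES` are the patterns).

Definitions and `Prop`-valued statements only.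
-/

set_option autoImplicit false
set_option synthInstance.maxHeartbeats 400000
set_option maxHeartbeats 1000000

noncomputable section

namespace Fermat.Agent.S48.B2.R

open AlgebraicCurve ModularCurve IntermediateField
open Fermat.Agent.NEB Fermat.Agent.NEB.JH Fermat.Agent.RED
open Fermat.Agent.S28.H73 Fermat.Agent.RED.H73 Fermat.Agent.RED.H34

/-- The levels with a tame chart at the residue characteristic `q` (as in `RED.Stmt_DR2`). -/
def Tame (q M : ℕ) : Prop := 5 ≤ q ∨ (q = 3 ∧ 2 ∣ M) ∨ (q = 2 ∧ 3 ∣ M)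

/-- The Gauss valuation ring of `F_H(M)` at `A`. -/
abbrev VH (A : ValuationSubring Kbar) (M c : ℕ) (H : Subgroup (ZMod c)ˣ) :
    ValuationSubring ↥(FHbar M c H) :=
  gaussValSub A (FHbar M c H) (H94.hasScale_FHbar A M c H)

/-- The reduced field `κ_H` of `F_H(M)` at `A`. -/
abbrev kH (A : ValuationSubring Kbar) (M c : ℕ) (H : Subgroup (ZMod c)ˣ) :
    IntermediateField (kV A) (LaurentSeries (kV A)) :=
  redField A (FHbar M c H) (H94.hasScale_FHbar A M c H)

/-- The reduced field `κ₀` of `F₀(M)` at `A`. -/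
abbrev k0 (A : ValuationSubring Kbar) (M : ℕ) :
    IntermediateField (kV A) (LaurentSeries (kV A)) :=
  redField A (modularFunctionFieldBar M) (hasScale_laurentBaseChange A M)

/-! ## The leaves -/

/-- **R-IRR** (helper43's proof; IRR-1 helper25, IRR-2 helper31, IRR-3 helper96, VAL-U helper66;
assembly helper25): the diamond operators preserve the Gauss valuation ring. -/
def Stmt_IrrH : Prop :=
  ∀ (M c : ℕ) (H : Subgroup (ZMod c)ˣ), 2 ≤ c → c ∣ M → M ≠ 0 →
    ∀ q : ℕ, q.Prime → ¬ q ∣ M → ∀ A : ValuationSubring Kbar, A.LiesOverPrime q →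
      ∀ (dd : DiamondData M c H) (d : (ZMod c)ˣ) (f : ↥(FHbar M c H)),
        f ∈ VH A M c H → dd.ρ d f ∈ VH A M c H

/-- **R-DEG** (helper31): `[κ_H : κ₀] = [(ℤ/c)ˣ : ±H]` and `κ_H / κ₀` is separable. -/
def Stmt_RDeg : Prop :=
  ∀ (M c : ℕ) (H : Subgroup (ZMod c)ˣ), 2 ≤ c → c ∣ M → M ≠ 0 →
    ∀ q : ℕ, q.Prime → ¬ q ∣ M → ∀ A : ValuationSubring Kbar, A.LiesOverPrime q →
      (k0 A M).relfinrank (kH A M c H) = (H94.pmSubgroup c H).index ∧
      ∀ y ∈ kH A M c H, IsSeparable ↥(k0 A M) y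

/-- **R-FF** (helper31, DONE `H31.stmt_RFF`): the reduced field is a function field. -/
def Stmt_RFF : Prop :=
  ∀ (M c : ℕ) (H : Subgroup (ZMod c)ˣ), 2 ≤ c → c ∣ M → M ≠ 0 →
    ∀ q : ℕ, q.Prime → ¬ q ∣ M → ∀ A : ValuationSubring Kbar, A.LiesOverPrime q →
      IsFF (kV A) ↥(kH A M c H)

/-- **R-BR** (helper34: `NEB.H34.fh_unr` + `H34.brup`): under `UnrCond` the branch values of a
function of `F₀(M)` on `F_H(M)` are branch values on `F₀(M)`. -/
def Stmt_BRH : Prop :=
  ∀ (M c : ℕ) (H : Subgroup (ZMod c)ˣ), 2 ≤ c → c ∣ M → M ≠ 0 → UnrCond M c H →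
    ∀ (x : ↥(modularFunctionFieldBar M)), Transcendental Kbar x → ∀ ρ : Kbar,
      IsBranchValue (inclBar M c H x) ρ → IsBranchValue x ρ

/-- **CHART** (chart transfer): the five "pre" fields of `RED.H76.goodChart_of` for the chart
`inclBar x` of `F_H(M)` from those of the chart `x` of `F₀(M)` and R-DEG. -/
def Stmt_Chart : Prop :=
  Stmt_RDeg →
  ∀ (M c : ℕ) (H : Subgroup (ZMod c)ˣ), 2 ≤ c → c ∣ M → M ≠ 0 →
    ∀ q : ℕ, q.Prime → ¬ q ∣ M → ∀ A : ValuationSubring Kbar, A.LiesOverPrime q →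
      ∀ (x : ↥(modularFunctionFieldBar M))
        (hx : x ∈ (redSetting A (hasScale_laurentBaseChange A M)).V),
        Transcendental (kV A) ((redSetting A (hasScale_laurentBaseChange A M)).red ⟨x, hx⟩) →
        FiniteDimensional Kbar⟮x⟯ ↥(modularFunctionFieldBar M) →
        Module.finrank (kV A)⟮(redSetting A (hasScale_laurentBaseChange A M)).red ⟨x, hx⟩⟯
            ↥(k0 A M) = Module.finrank Kbar⟮x⟯ ↥(modularFunctionFieldBar M) →
        Algebra.IsSeparable
          (kV A)⟮(redSetting A (hasScale_laurentBaseChange A M)).red ⟨x, hx⟩⟯ ↥(k0 A M) →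
        ∃ hx' : inclBar M c H x ∈ (redSetting A (H94.hasScale_FHbar A M c H)).V,
          Transcendental (kV A)
            ((redSetting A (H94.hasScale_FHbar A M c H)).red ⟨inclBar M c H x, hx'⟩) ∧
          FiniteDimensional Kbar⟮inclBar M c H x⟯ ↥(FHbar M c H) ∧
          Algebra.IsSeparable Kbar⟮inclBar M c H x⟯ ↥(FHbar M c H) ∧
          Module.finrank
              (kV A)⟮(redSetting A (H94.hasScale_FHbar A M c H)).red ⟨inclBar M c H x, hx'⟩⟯
              ↥(kH A M c H) = Module.finrank Kbar⟮inclBar M c H x⟯ ↥(FHbar M c H) ∧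
          Algebra.IsSeparable
            (kV A)⟮(redSetting A (H94.hasScale_FHbar A M c H)).red ⟨inclBar M c H x, hx'⟩⟯
            ↥(kH A M c H)

/-- Chart data of `F₀(M)` at `A`: a chart `x` with `x`, `x⁻¹` Gauss-integral, the five "pre"
fields, and distinct branch values modulo the maximal ideal for `x` and for `x⁻¹`. -/
def ChartData0 (A : ValuationSubring Kbar) (M : ℕ) : Prop :=
  ∃ (x : ↥(modularFunctionFieldBar M))
    (hx : x ∈ (redSetting A (hasScale_laurentBaseChange A M)).V)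
    (_ : x⁻¹ ∈ (redSetting A (hasScale_laurentBaseChange A M)).V),
    ChartPre (redSetting A (hasScale_laurentBaseChange A M)) x hx ∧
    (∀ ρ ρ' : ↥((redSetting A (hasScale_laurentBaseChange A M)).V.comap
        (algebraMap Kbar ↥(modularFunctionFieldBar M))),
      IsBranchValue x (ρ : Kbar) → IsBranchValue x (ρ' : Kbar) →
      (redSetting A (hasScale_laurentBaseChange A M)).resO ρ
        = (redSetting A (hasScale_laurentBaseChange A M)).resO ρ' → ρ = ρ') ∧
    (∀ ρ ρ' : ↥((redSetting A (hasScale_laurentBaseChange A M)).V.comap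
        (algebraMap Kbar ↥(modularFunctionFieldBar M))),
      IsBranchValue x⁻¹ (ρ : Kbar) → IsBranchValue x⁻¹ (ρ' : Kbar) →
      (redSetting A (hasScale_laurentBaseChange A M)).resO ρ
        = (redSetting A (hasScale_laurentBaseChange A M)).resO ρ' → ρ = ρ')

/-- **CHART0** : the chart data of `F₀(M)` at the tame levels (`j` for `q ≥ 5`: `goodChart_pre`,
`branch_distinct_jF`, `branch_distinct_jF_inv`; `h₂`, `h₃` for `q = 3, 2`: the first half of the
proof of `RED.H76.hasDR_of_haupt_int` with the inputs of `RED/H76_DR2.lean`). -/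
def Stmt_Chart0 : Prop :=
  ∀ (M q : ℕ) [NeZero M], q.Prime → ¬ q ∣ M → Tame q M →
    ∀ A : ValuationSubring Kbar, A.LiesOverPrime q → ChartData0 A M

/-- **R-DR** : the Deuring reduction datum for `F_H(M)` at the levels with `UnrCond` and a tame
chart. -/
def Stmt_DRH : Prop :=
  ∀ (M c : ℕ) (H : Subgroup (ZMod c)ˣ), 2 ≤ c → c ∣ M → M ≠ 0 → UnrCond M c H →
    ∀ q : ℕ, q.Prime → ¬ q ∣ M → Tame q M →
      ∀ A : ValuationSubring Kbar, A.LiesOverPrime q →
        HasDR A (H94.hasScale_FHbar A M c H)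

/-- **R-TI** : the Kummer form of torsion injectivity at the levels with `UnrCond` and a tame
chart. -/
def Stmt_TIH : Prop :=
  ∀ (M c : ℕ) (H : Subgroup (ZMod c)ˣ), 2 ≤ c → c ∣ M → M ≠ 0 → UnrCond M c H →
    ∀ q : ℕ, q.Prime → ¬ q ∣ M → Tame q M →
      ∀ A : ValuationSubring Kbar, A.LiesOverPrime q →
        TIcoreFor A (H94.hasScale_FHbar A M c H) q

/-- The conclusion of the Kummer form for one exponent `n`. -/
def TIcoreAt (A : ValuationSubring Kbar) (M c : ℕ) (H : Subgroup (ZMod c)ˣ) (n : ℕ) : Prop :=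
  ∀ f : ↥(VH A M c H), gaussResF' A (H94.hasScale_FHbar A M c H) f = 1 →
    (∀ P : Place Kbar ↥(FHbar M c H), (n : ℤ) ∣ P.ord (f : ↥(FHbar M c H))) →
    ∃ t : ↥(FHbar M c H), t ^ n = (f : ↥(FHbar M c H))

/-- **DESC** (norm descent `M'' → M`): `[F_H(M'') : F_H(M)] = ψ(M'')/ψ(M) = d` is prime to `n`,
so an `n`-th root at level `M''` gives one at level `M`:  `f = (f^a N(t)^b)^n`, `a n + b d = 1`. -/
def Stmt_Desc : Prop :=
  ∀ (M M'' c : ℕ) (H : Subgroup (ZMod c)ˣ), 2 ≤ c → c ∣ M → M ∣ M'' → M'' ≠ 0 →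
    ∀ d n : ℕ, dedekindPsi M'' = dedekindPsi M * d → Nat.Coprime d n →
      ∀ q : ℕ, q.Prime → ¬ q ∣ M'' → ¬ q ∣ n →
        ∀ A : ValuationSubring Kbar, A.LiesOverPrime q →
          TIcoreFor A (H94.hasScale_FHbar A M'' c H) q → TIcoreAt A M c H n

/-- **TIcore-H** : the Kummer form of torsion injectivity for `F_H(M)`, every level `M`. -/
def Stmt_TIcoreH : Prop :=
  ∀ (M c : ℕ) (H : Subgroup (ZMod c)ˣ), 2 ≤ c → c ∣ M → M ≠ 0 →
    ∀ n q : ℕ, q.Prime → ¬ q ∣ M → ¬ q ∣ n → Nat.Coprime n 6 →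
      (∀ r : ℕ, r.Prime → r ∣ n → ¬ r ^ 2 ∣ c) →
      ∀ A : ValuationSubring Kbar, A.LiesOverPrime q → TIcoreAt A M c H n

/-- **OUT-U**. -/
def Stmt_OutU : Prop := Stmt_TIcoreH → Stmt_TorsUnramH

/-- **OUT-ES**. -/
def Stmt_OutES : Prop := Stmt_TIcoreH → Stmt_TorsESH

end Fermat.Agent.S48.B2.R
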