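import Mathlib
import Fermat.Agent.NEB.Defs
import Fermat.Agent.GTor.H96_SL2
import Fermat.Agent.S20.H19_Arith

/-!
# S48 B2, slice R, leaf (1) LEVEL (helper22)

For `c ∣ M`, `n` prime to `6` with no prime `q ∣ n` such that `q² ∣ c`, and a prime `p ∤ M`, there
is a level `M'' = M · c₀ · t · r` (`c₀ = c / gcd(c, n)`, `t ∈ {1, 2, 3}`, `r` a prime with
`r ≡ 11 mod 12`, `r ≡ 1 mod n`) such that

* `UnrCond M'' c H` for every `H ≤ (ℤ/c)ˣ`: `Γ₀(M'')` has no elliptic elements and its parabolic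
  elements have upper left entry `≡ ± 1 mod c`;
* `ψ(M'') = ψ(M) · d` with `d` prime to `n` (`d = [F_H(M'') : F_H(M)]`);
* `p ∤ M''`; `2 ∣ M''` if `p = 3`; `3 ∣ M''` if `p = 2`.
-/

set_option autoImplicit false

open Matrix CongruenceSubgroup
open scoped MatrixGroups

namespace Fermat.Agent.S48.B2.R.H22

/-! ### No elliptic elements -/

/-- In `ZMod r`, `r ≡ 11 mod 12` prime, `x² - t x + 1 = 0` has no solution for `|t| ≤ 1`. -/
theorem no_root_of_mod_twelve {r : ℕ} (hr : r.Prime) (hr12 : r % 12 = 11) (x : ZMod r) (t : ℤ)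
    (ht : |t| ≤ 1) (h : x ^ 2 - (t : ZMod r) * x + 1 = 0) : False := by
  have : Fact r.Prime := ⟨hr⟩
  have ht' : t = -1 ∨ t = 0 ∨ t = 1 := by
    rw [abs_le] at ht
    omega
  have h4 : r % 4 = 3 := by omega
  have h3 : r % 3 = 2 := by omega
  -- `x ^ 12 = 1` and more precisely `x` has order `3`, `4` or `6`
  have hx0 : x ≠ 0 := by
    rintro rfl
    simp at h
  have hcard : Fintype.card (ZMod r)ˣ = r - 1 := by
    rw [ZMod.card_units_eq_totient, Nat.totient_prime hr]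
  have hr2 : 2 < r := by
    rcases hr.eq_two_or_odd with h2 | h2
    · omega
    · have := hr.two_le
      omega
  have h2ne : (2 : ZMod r) ≠ 0 := by
    intro h2
    have : ((2 : ℕ) : ZMod r) = 0 := by exact_mod_cast h2
    rw [ZMod.natCast_eq_zero_iff] at this
    have := Nat.le_of_dvd (by norm_num) this
    omega
  have h3ne : (3 : ZMod r) ≠ 0 := by
    intro h3'
    have : ((3 : ℕ) : ZMod r) = 0 := by exact_mod_cast h3'
    rw [ZMod.natCast_eq_zero_iff] at this
    have := Nat.le_of_dvd (by norm_num) this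
    have : r = 3 := by omega
    omega
  rcases ht' with rfl | rfl | rfl
  · -- `x² + x + 1 = 0`: `x` has order `3`
    have e : x ^ 2 + x + 1 = 0 := by
      have := h
      simp only [Int.cast_neg, Int.cast_one, neg_mul, one_mul, sub_neg_eq_add] at this
      exact this
    have hx3 : x ^ 3 = 1 := by linear_combination (x - 1) * e
    have hx1 : x ≠ 1 := by
      rintro rfl
      apply h3ne
      linear_combination e
    let u : (ZMod r)ˣ := Units.mk0 x hx0
    have hu3 : u ^ 3 = 1 := by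
      apply Units.ext
      simpa [u] using hx3
    have hu1 : u ≠ 1 := by
      intro hu
      apply hx1
      have := congrArg Units.val hu
      simpa [u] using this
    have hord : orderOf u = 3 := orderOf_eq_prime hu3 hu1
    have hdvd : 3 ∣ r - 1 := by
      rw [← hcard, ← hord]
      exact orderOf_dvd_card
    omega
  · -- `x² + 1 = 0`: `-1` is a square
    have e : x ^ 2 = -1 := by
      have := h
      simp only [Int.cast_zero, zero_mul, sub_zero] at this
      linear_combination this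
    have hsq : IsSquare (-1 : ZMod r) := ⟨x, by rw [← e]; ring⟩
    exact (ZMod.exists_sq_eq_neg_one_iff.mp hsq) h4
  · -- `x² - x + 1 = 0`: `-x` has order `3`
    have e : x ^ 2 - x + 1 = 0 := by
      have := h
      simp only [Int.cast_one, one_mul] at this
      exact this
    have hx3 : (-x) ^ 3 = 1 := by linear_combination (-x - 1) * e
    have hx1 : -x ≠ 1 := by
      intro hx
      have hx' : x = -1 := by linear_combination -hx
      rw [hx'] at e
      apply h3ne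
      linear_combination e
    have hnx0 : -x ≠ 0 := neg_ne_zero.mpr hx0
    let u : (ZMod r)ˣ := Units.mk0 (-x) hnx0
    have hu3 : u ^ 3 = 1 := by
      apply Units.ext
      simpa [u] using hx3
    have hu1 : u ≠ 1 := by
      intro hu
      apply hx1
      have := congrArg Units.val hu
      simpa [u] using this
    have hord : orderOf u = 3 := orderOf_eq_prime hu3 hu1
    have hdvd : 3 ∣ r - 1 := by
      rw [← hcard, ← hord]
      exact orderOf_dvd_card
    omega

/-- The determinant relation of an element of `SL(2, ℤ)`. -/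
theorem det_rel (γ : SL(2, ℤ)) : γ 0 0 * γ 1 1 - γ 0 1 * γ 1 0 = 1 := by
  have := γ.det_coe
  rwa [Matrix.det_fin_two] at this

/-- An element of `Γ₀(M)`, `r ∣ M`, `r ≡ 11 mod 12` prime, has trace `|t| ≥ 2`. -/
theorem two_le_abs_trace {r M : ℕ} (hr : r.Prime) (hr12 : r % 12 = 11) (hrM : r ∣ M)
    {γ : SL(2, ℤ)} (hγ : γ ∈ Gamma0 M) : 2 ≤ |γ 0 0 + γ 1 1| := by
  by_contra hlt
  have ht : |γ 0 0 + γ 1 1| ≤ 1 := by omega
  have hc : ((γ 1 0 : ℤ) : ZMod M) = 0 := Gamma0_mem.mp hγ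
  have hcr : ((γ 1 0 : ℤ) : ZMod r) = 0 := by
    rw [ZMod.intCast_zmod_eq_zero_iff_dvd] at hc ⊢
    exact (Int.natCast_dvd_natCast.mpr hrM).trans hc
  have hdet := congrArg (Int.cast : ℤ → ZMod r) (det_rel γ)
  push_cast at hdet
  rw [hcr, mul_zero, sub_zero] at hdet
  refine no_root_of_mod_twelve hr hr12 ((γ 0 0 : ℤ) : ZMod r) (γ 0 0 + γ 1 1) ht ?_
  push_cast
  linear_combination -hdet

/-! ### Parabolic elements -/

/-- If `c = c₀ c₁` with `c₁` squarefree and `c₀² c₁ ∣ x²` then `c ∣ x`. -/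
theorem dvd_of_dvd_sq {c₀ c₁ : ℕ} (hsq : Squarefree c₁) (hcop : Nat.Coprime c₀ c₁) {x : ℤ}
    (h : ((c₀ * (c₀ * c₁) : ℕ) : ℤ) ∣ x ^ 2) : ((c₀ * c₁ : ℕ) : ℤ) ∣ x := by
  have h' : (c₀ * (c₀ * c₁)) ∣ x.natAbs ^ 2 := by
    have := Int.natAbs_dvd_natAbs.mpr h
    rwa [Int.natAbs_natCast, Int.natAbs_pow] at this
  have h0 : c₀ ∣ x.natAbs := by
    have hd : c₀ ^ 2 ∣ c₀ * (c₀ * c₁) := ⟨c₁, by ring⟩
    have : c₀ ^ 2 ∣ x.natAbs ^ 2 := hd.trans h'
    exact (Nat.pow_dvd_pow_iff (by norm_num)).mp this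
  have h1 : c₁ ∣ x.natAbs := by
    have hd : c₁ ∣ c₀ * (c₀ * c₁) := ⟨c₀ * c₀, by ring⟩
    have : c₁ ∣ x.natAbs ^ 2 := hd.trans h'
    exact (hsq.dvd_pow_iff_dvd (by norm_num)).mp this
  have := hcop.mul_dvd_of_dvd_of_dvd h0 h1
  exact Int.natCast_dvd.mpr this

/-- **UnrCond at the level `M''`.** -/
theorem unrCond_of_level {M'' c₀ c₁ r : ℕ} (hr : r.Prime) (hr12 : r % 12 = 11) (hrM : r ∣ M'')
    (hsq : Squarefree c₁) (hcop : Nat.Coprime c₀ c₁) (hdvd : c₀ * (c₀ * c₁) ∣ M'')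
    (H : Subgroup (ZMod (c₀ * c₁))ˣ) : Fermat.Agent.NEB.UnrCond M'' (c₀ * c₁) H := by
  rintro ⟨γ, hγ⟩ hcase
  show ((γ 0 0 : ℤ) : ZMod (c₀ * c₁)) ∈ Fermat.Agent.NEB.cosetSet (c₀ * c₁) H 1
  have hmem : ∀ x : ZMod (c₀ * c₁), x = 1 ∨ x = -1 →
      x ∈ Fermat.Agent.NEB.cosetSet (c₀ * c₁) H 1 := by
    intro x hx
    refine ⟨1, H.one_mem, ?_⟩
    simpa using hx
  apply hmem
  have htr : (γ 0 0 + γ 1 1) ^ 2 = 4 := by
    rcases hcase with hfin | hpar
    · have hfin' : IsOfFinOrder γ := by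
        have := (Submonoid.isOfFinOrder_coe (H := (Gamma0 M'').toSubmonoid)
          (x := ⟨γ, hγ⟩)).mpr hfin
        simpa using this
      obtain ⟨m, hm, hpow⟩ := isOfFinOrder_iff_pow_eq_one.mp hfin'
      have h2 := two_le_abs_trace hr hr12 hrM hγ
      have h2' : 2 ≤ |(γ : Matrix (Fin 2) (Fin 2) ℤ).trace| := by
        rw [Matrix.trace_fin_two]
        exact h2
      rcases Fermat.Agent.GTor.H96.eq_one_or_neg_one_of_pow_eq_one γ h2' hm hpow with h1 | h1
      · rw [h1]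
        simp
      · rw [h1]
        simp
    · exact hpar
  have hc : ((γ 1 0 : ℤ) : ZMod M'') = 0 := Gamma0_mem.mp hγ
  have hcd : (M'' : ℤ) ∣ γ 1 0 := (ZMod.intCast_zmod_eq_zero_iff_dvd _ _).mp hc
  have hdet := det_rel γ
  have ht : γ 0 0 + γ 1 1 = 2 ∨ γ 0 0 + γ 1 1 = -2 := by
    have : (γ 0 0 + γ 1 1 - 2) * (γ 0 0 + γ 1 1 + 2) = 0 := by linear_combination htr
    rcases mul_eq_zero.mp this with h | h
    · left; linarith
    · right; linarith
  rcases ht with ht | ht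
  · left
    have hsqd : (M'' : ℤ) ∣ (γ 0 0 - 1) ^ 2 := by
      have e : (γ 0 0 - 1) ^ 2 = -(γ 0 1 * γ 1 0) := by
        have hd : γ 1 1 = 2 - γ 0 0 := by linarith
        rw [hd] at hdet
        linear_combination -hdet
      rw [e]
      exact (dvd_mul_of_dvd_right hcd _).neg_right
    have := dvd_of_dvd_sq hsq hcop ((Int.natCast_dvd_natCast.mpr hdvd).trans hsqd)
    have h0 := (ZMod.intCast_zmod_eq_zero_iff_dvd _ _).mpr this
    push_cast at h0
    linear_combination h0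
  · right
    have hsqd : (M'' : ℤ) ∣ (γ 0 0 + 1) ^ 2 := by
      have e : (γ 0 0 + 1) ^ 2 = -(γ 0 1 * γ 1 0) := by
        have hd : γ 1 1 = -2 - γ 0 0 := by linarith
        rw [hd] at hdet
        linear_combination -hdet
      rw [e]
      exact (dvd_mul_of_dvd_right hcd _).neg_right
    have := dvd_of_dvd_sq hsq hcop ((Int.natCast_dvd_natCast.mpr hdvd).trans hsqd)
    have h0 := (ZMod.intCast_zmod_eq_zero_iff_dvd _ _).mpr this
    push_cast at h0
    linear_combination h0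


/-! ### The prime `r` -/

/-- Dirichlet: a large prime `r ≡ 11 mod 12`, `r ≡ 1 mod n` (`n` prime to `6`). -/
theorem exists_prime_r {n : ℕ} (hn : Nat.Coprime n 6) (B : ℕ) :
    ∃ r : ℕ, B < r ∧ r.Prime ∧ r % 12 = 11 ∧ r % n = 1 % n := by
  have hn0 : n ≠ 0 := by
    rintro rfl
    simp at hn
  have h12 : Nat.Coprime 12 n := by
    have h2 : Nat.Coprime n 2 := hn.coprime_dvd_right (by norm_num)
    have h3 : Nat.Coprime n 3 := hn.coprime_dvd_right (by norm_num)
    have h4 : Nat.Coprime n 4 := by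
      have : Nat.Coprime n (2 ^ 2) := Nat.Coprime.pow_right 2 h2
      simpa using this
    have : Nat.Coprime n (4 * 3) := Nat.Coprime.mul_right h4 h3
    exact this.symm
  obtain ⟨k, hk12, hkn⟩ := Nat.chineseRemainder h12 11 1
  have : NeZero (12 * n) := ⟨by positivity⟩
  have hkcop : Nat.Coprime k (12 * n) := by
    apply Nat.Coprime.mul_right
    · have h := hk12.gcd_eq
      rw [Nat.Coprime, h]
      norm_num
    · have h := hkn.gcd_eq
      rw [Nat.Coprime, h]
      simp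
  have hunit : IsUnit ((k : ℕ) : ZMod (12 * n)) := (ZMod.isUnit_iff_coprime k (12 * n)).mpr hkcop
  obtain ⟨r, hrB, hr, hrk⟩ := Nat.forall_exists_prime_gt_and_eq_mod hunit B
  refine ⟨r, hrB, hr, ?_, ?_⟩
  · have h1 : r ≡ k [MOD 12 * n] := (ZMod.natCast_eq_natCast_iff r k (12 * n)).mp hrk
    have h2 : r ≡ k [MOD 12] := h1.of_mul_right n
    have h3 := h2.trans hk12
    exact h3
  · have h1 : r ≡ k [MOD 12 * n] := (ZMod.natCast_eq_natCast_iff r k (12 * n)).mp hrk
    have h2 : r ≡ k [MOD n] := h1.of_mul_left 12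
    exact h2.trans hkn

/-! ### The index -/

open Fermat.Agent.S20.H19 in
/-- `ψ(M q) = q ψ(M)` for a prime `q ∣ M`. -/
theorem dedekindPsi_mul_prime_of_dvd {M q : ℕ} (hM : M ≠ 0) (hq : q.Prime) (hqM : q ∣ M) :
    ModularCurve.dedekindPsi (M * q) = ModularCurve.dedekindPsi M * q := by
  obtain ⟨k, m, hqm, hMeq⟩ := Nat.exists_eq_pow_mul_and_not_dvd hM q hq.ne_one
  have hk : 0 < k := by
    rcases Nat.eq_zero_or_pos k with h | h
    · exfalso
      rw [h, pow_zero, one_mul] at hMeq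
      rw [hMeq] at hqM
      exact hqm hqM
    · exact h
  have hcop : ∀ j : ℕ, Nat.Coprime (q ^ j) m := fun j =>
    Nat.Coprime.pow_left j ((Nat.Prime.coprime_iff_not_dvd hq).mpr hqm)
  obtain ⟨j, rfl⟩ : ∃ j, k = j + 1 := ⟨k - 1, by omega⟩
  have e1 : M * q = q ^ (j + 2) * m := by
    rw [hMeq]
    ring
  have h1 : ModularCurve.dedekindPsi (q ^ (j + 1)) = q ^ (j + 1) + q ^ j := by
    have := dedekindPsi_prime_pow hq (n := j + 1) (Nat.succ_pos j)
    simpa using this
  have h2 : ModularCurve.dedekindPsi (q ^ (j + 2)) = q ^ (j + 2) + q ^ (j + 1) := by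
    have := dedekindPsi_prime_pow hq (n := j + 2) (Nat.succ_pos (j + 1))
    simpa using this
  rw [e1, dedekindPsi_mul (hcop (j + 2)), hMeq, dedekindPsi_mul (hcop (j + 1)), h1, h2]
  ring

/-- `ψ(M a) = a ψ(M)` if every prime factor of `a` divides `M`. -/
theorem dedekindPsi_mul_of_primes_dvd {M : ℕ} (hM : M ≠ 0) (a : ℕ) (ha : a ≠ 0) :
    (∀ q : ℕ, q.Prime → q ∣ a → q ∣ M) →
      ModularCurve.dedekindPsi (M * a) = ModularCurve.dedekindPsi M * a := by
  induction a using Nat.strong_induction_on generalizing M with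
  | _ a ih =>
    intro h
    by_cases ha1 : a = 1
    · rw [ha1, mul_one, mul_one]
    · have hq := Nat.minFac_prime ha1
      obtain ⟨b, hb⟩ := Nat.minFac_dvd a
      have hb0 : b ≠ 0 := by
        rintro rfl
        rw [mul_zero] at hb
        exact ha hb
      have hba : b < a := by
        have h2 := hq.two_le
        have hbpos : 0 < b := Nat.pos_of_ne_zero hb0
        calc b < a.minFac * b := by nlinarith
          _ = a := hb.symm
      have hqM : a.minFac ∣ M := h _ hq (Nat.minFac_dvd a)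
      have hMq : M * a.minFac ≠ 0 := mul_ne_zero hM hq.ne_zero
      have hb' : ∀ q : ℕ, q.Prime → q ∣ b → q ∣ M * a.minFac := by
        intro q hqp hqb
        have : q ∣ a := by
          rw [hb]
          exact Dvd.dvd.mul_left hqb _
        exact Dvd.dvd.mul_right (h q hqp this) _
      have e : M * a = M * a.minFac * b := by
        conv_lhs => rw [hb]
        ring
      rw [e, ih b hba hMq hb0 hb', dedekindPsi_mul_prime_of_dvd hM hq hqM]
      conv_rhs => rw [hb]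
      ring

open Fermat.Agent.S20.H19 in
/-- `ψ(M q) = (q + 1) ψ(M)` for a prime `q ∤ M`. -/
theorem dedekindPsi_mul_prime_of_not_dvd {M q : ℕ} (hq : q.Prime) (hqM : ¬ q ∣ M) :
    ModularCurve.dedekindPsi (M * q) = ModularCurve.dedekindPsi M * (q + 1) := by
  have hcop : Nat.Coprime M q := ((Nat.Prime.coprime_iff_not_dvd hq).mpr hqM).symm
  have h1 := dedekindPsi_prime_pow hq (n := 1) one_pos
  simp only [pow_one, Nat.sub_self, pow_zero] at h1
  rw [dedekindPsi_mul hcop, h1]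


/-! ### The level -/

/-- Under (SQ), `c = c₀ c₁` with `c₀` prime to `n` and `c₁` squarefree. -/
theorem exists_c0_c1 {c n : ℕ} (hSQ : ∀ q : ℕ, q.Prime → q ∣ n → ¬ q ^ 2 ∣ c) :
    ∃ c₀ c₁ : ℕ, c = c₀ * c₁ ∧ Squarefree c₁ ∧ Nat.Coprime c₀ c₁ ∧ Nat.Coprime c₀ n := by
  have hc : c = c / Nat.gcd c n * Nat.gcd c n := (Nat.div_mul_cancel (Nat.gcd_dvd_left c n)).symm
  have hcopn : Nat.Coprime (c / Nat.gcd c n) n := by
    apply Nat.coprime_of_dvd
    intro q hq hq0 hqn
    have hqc : q ∣ c := hq0.trans (Nat.div_dvd_of_dvd (Nat.gcd_dvd_left c n))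
    have hq1 : q ∣ Nat.gcd c n := Nat.dvd_gcd hqc hqn
    apply hSQ q hq hqn
    rw [hc, pow_two]
    exact Nat.mul_dvd_mul hq0 hq1
  refine ⟨c / Nat.gcd c n, Nat.gcd c n, hc, ?_, ?_, hcopn⟩
  · rw [Nat.squarefree_iff_prime_squarefree]
    intro q hq hqq
    have hq2 : q ∣ q * q := Dvd.intro _ rfl
    have hqn : q ∣ n := hq2.trans (hqq.trans (Nat.gcd_dvd_right c n))
    apply hSQ q hq hqn
    rw [pow_two]
    exact hqq.trans (Nat.gcd_dvd_left c n)
  · exact hcopn.coprime_dvd_right (Nat.gcd_dvd_right c n)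

/-- **Leaf (1) LEVEL.** -/
theorem exists_level (M c n p : ℕ) (hM : M ≠ 0) (hcM : c ∣ M) (hn : Nat.Coprime n 6)
    (hSQ : ∀ q : ℕ, q.Prime → q ∣ n → ¬ q ^ 2 ∣ c) (hp : p.Prime) (hpM : ¬ p ∣ M) :
    ∃ M'' d : ℕ, M ∣ M'' ∧ M'' ≠ 0 ∧ ¬ p ∣ M'' ∧ (p = 3 → 2 ∣ M'') ∧ (p = 2 → 3 ∣ M'') ∧
      (∀ H : Subgroup (ZMod c)ˣ, Fermat.Agent.NEB.UnrCond M'' c H) ∧
      ModularCurve.dedekindPsi M'' = ModularCurve.dedekindPsi M * d ∧ Nat.Coprime d n := by
  obtain ⟨c₀, c₁, rfl, hsq, hcop, hcopn⟩ := exists_c0_c1 hSQ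
  have hc₀M : c₀ ∣ M := (Dvd.intro _ rfl).trans hcM
  have hc₀ : c₀ ≠ 0 := ne_zero_of_dvd_ne_zero hM hc₀M
  have hMc : M * c₀ ≠ 0 := mul_ne_zero hM hc₀
  have hn2 : Nat.Coprime n 2 := hn.coprime_dvd_right (by norm_num)
  have hn3 : Nat.Coprime n 3 := hn.coprime_dvd_right (by norm_num)
  have hn4 : Nat.Coprime n 4 := by
    have : Nat.Coprime n (2 ^ 2) := Nat.Coprime.pow_right 2 hn2
    simpa using this
  have hψ0 : ModularCurve.dedekindPsi (M * c₀) = ModularCurve.dedekindPsi M * c₀ :=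
    dedekindPsi_mul_of_primes_dvd hM c₀ hc₀ (fun q _ hq => hq.trans hc₀M)
  have hprime_dvd : ∀ q : ℕ, q.Prime → q ∣ M * c₀ → q ∣ M := by
    intro q hq h
    rcases (Nat.Prime.dvd_mul hq).mp h with h | h
    · exact h
    · exact h.trans hc₀M
  -- the tame factor
  obtain ⟨t, τ, ht0, hpt, ht3, ht2, hψt, hτ⟩ : ∃ t τ : ℕ, t ≠ 0 ∧ ¬ p ∣ t ∧
      (p = 3 → 2 ∣ M * c₀ * t) ∧ (p = 2 → 3 ∣ M * c₀ * t) ∧
      ModularCurve.dedekindPsi (M * c₀ * t) = ModularCurve.dedekindPsi (M * c₀) * τ ∧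
      Nat.Coprime τ n := by
    by_cases hA : p = 3 ∧ ¬ 2 ∣ M
    · obtain ⟨hp3, h2M⟩ := hA
      refine ⟨2, 3, by norm_num, ?_, fun _ => Dvd.intro_left _ rfl, ?_, ?_, hn3.symm⟩
      · rw [hp3]
        norm_num
      · intro h
        omega
      · exact dedekindPsi_mul_prime_of_not_dvd Nat.prime_two
          (fun h => h2M (hprime_dvd 2 Nat.prime_two h))
    · by_cases hB : p = 2 ∧ ¬ 3 ∣ M
      · obtain ⟨hp2, h3M⟩ := hB
        refine ⟨3, 4, by norm_num, ?_, ?_, fun _ => Dvd.intro_left _ rfl, ?_, hn4.symm⟩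
        · rw [hp2]
          norm_num
        · intro h
          omega
        · exact dedekindPsi_mul_prime_of_not_dvd Nat.prime_three
            (fun h => h3M (hprime_dvd 3 Nat.prime_three h))
      · refine ⟨1, 1, one_ne_zero, ?_, ?_, ?_, by rw [mul_one, mul_one],
          Nat.coprime_one_left n⟩
        · intro h
          exact hp.one_lt.ne' (Nat.dvd_one.mp h)
        · intro hp3
          rw [mul_one]
          have : 2 ∣ M := by
            by_contra h
            exact hA ⟨hp3, h⟩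
          exact Dvd.dvd.mul_right this _
        · intro hp2
          rw [mul_one]
          have : 3 ∣ M := by
            by_contra h
            exact hB ⟨hp2, h⟩
          exact Dvd.dvd.mul_right this _
  have hX : M * c₀ * t ≠ 0 := mul_ne_zero hMc ht0
  -- the prime `r`
  obtain ⟨r, hrB, hr, hr12, hrn⟩ := exists_prime_r hn (M * c₀ * t * p)
  have hXpos : 0 < M * c₀ * t := Nat.pos_of_ne_zero hX
  have hrX : M * c₀ * t < r := by
    have : M * c₀ * t ≤ M * c₀ * t * p := Nat.le_mul_of_pos_right _ hp.pos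
    omega
  have hrp : p < r := by
    have : p ≤ M * c₀ * t * p := Nat.le_mul_of_pos_left _ hXpos
    omega
  have hrX' : ¬ r ∣ M * c₀ * t := fun h => by
    have := Nat.le_of_dvd hXpos h
    omega
  refine ⟨M * c₀ * t * r, c₀ * τ * (r + 1), ?_, mul_ne_zero hX hr.ne_zero, ?_, ?_, ?_, ?_, ?_, ?_⟩
  · exact ⟨c₀ * t * r, by ring⟩
  · intro h
    rcases (Nat.Prime.dvd_mul hp).mp h with h | h
    · rcases (Nat.Prime.dvd_mul hp).mp h with h | h
      · exact hpM (hprime_dvd p hp h)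
      · exact hpt h
    · have := (Nat.prime_dvd_prime_iff_eq hp hr).mp h
      omega
  · intro h
    exact Dvd.dvd.mul_right (ht3 h) _
  · intro h
    exact Dvd.dvd.mul_right (ht2 h) _
  · intro H
    refine unrCond_of_level hr hr12 (Dvd.intro_left _ rfl) hsq hcop ?_ H
    obtain ⟨k, hk⟩ := hcM
    exact ⟨k * t * r, by rw [hk]; ring⟩
  · rw [dedekindPsi_mul_prime_of_not_dvd hr hrX', hψt, hψ0]
    ring
  · apply Nat.Coprime.mul_left (Nat.Coprime.mul_left hcopn hτ)
    have h1 : r + 1 ≡ 1 + 1 [MOD n] := by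
      have : r ≡ 1 [MOD n] := hrn
      exact this.add_right 1
    have h2 := h1.gcd_eq
    rw [Nat.Coprime, h2]
    exact hn2.symm

end Fermat.Agent.S48.B2.R.H22
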