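import Fermat.Agent.S48.B2.R.H22_OutU
import Fermat.Agent.NEB.H14_JHData

/-!
# S48 B2, slice R, leaf OUT-ES (helper22): `Stmt_TIcoreH → Stmt_TorsESH`

The Eichler–Shimura relation on `J_H[n]` at `q ∤ M n`: for a Kummer representation `(n, f)` of
`x`, the class `ρ(q) σ² x - T^H_q σ x + q x` has the Kummer function
`ρ(q) σ² f · (T^H_q (σ f))⁻¹ · f^q`, which is a constant times a Gauss unit reducing to `1`
(helper70's `isRedOneC_ES` with `coe_THfn`); `eq_zero_of_kumRep` (the class form of `TIcoreAt`)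
concludes.

* `heckeDataOf` : a `HeckeData` with prescribed `dd`, `hβ`;
* `kumRep_ES` : the Kummer function of the Eichler–Shimura class, any exponent `n`;
* `stmt_OutES : Stmt_OutES`.
-/

set_option autoImplicit false
set_option synthInstance.maxHeartbeats 400000
set_option maxHeartbeats 1000000

noncomputable section

namespace Fermat.Agent.S48.B2.R.H22

open AlgebraicCurve ModularCurve IntermediateField
open Fermat.Agent.NEB Fermat.Agent.NEB.JH Fermat.Agent.RED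
open Fermat.Agent.S28.H73 Fermat.Agent.RED.H73 Fermat.Agent.RED.H34
open Fermat.Agent.NEB.Geom.H70

/-- The data of the rules of `J_H` at the levels `M`, `M q`, with prescribed diamond data and
`BetaOK`. -/
def heckeDataOf (M c q : ℕ) [NeZero M] [NeZero q] (H : Subgroup (ZMod c)ˣ) (h2 : 2 ≤ c)
    (hc : c ∣ M) (dd : DiamondData M c H) (hβ : BetaOK M c q H) : HeckeData M c q H :=
  haveI : NeZero (M * q) := neZero_mul M q
  { isFF := isFF_JH M c H h2 hc
    isFF' := isFF_JH (M * q) c H h2 (hc.trans (dvd_mul_right M q))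
    dd := dd
    dd' := diamondData (M * q) c H h2 (hc.trans (dvd_mul_right M q))
    hβ := hβ
    alphaGal := Fermat.Agent.NEB.H94.stmt_FH_alphaGal M c q H _ _
    betaGal := Fermat.Agent.NEB.H84.stmt_FH_betaGal M c q H h2 hc (NeZero.ne M) _ _ _ }

/-- **The Kummer function of the Eichler–Shimura class** (any exponent): for a Frobenius `φ` at
`P ∣ q`, `q ∤ M`, and `u` the class of `q`. -/
theorem kumRep_ES {M c q : ℕ} [NeZero M] [NeZero q] {H : Subgroup (ZMod c)ˣ}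
    (hd : HeckeData M c q H) (hc2 : 2 ≤ c) (hc : c ∣ M) (hq : q.Prime) (hqM : ¬ q ∣ M)
    (u : (ZMod c)ˣ) (hu : (u : ZMod c) = (q : ZMod c)) {P : ValuationSubring Kbar}
    (hP : P.LiesOverPrime q) {φ : Fermat.Agent.NEB.Geom.GalQ} (hφ : P.IsFrobeniusAt φ q)
    {n : ℤ} {x : JH M c H} {f : ↥(FHbar M c H)} (hf : KumRep n x f) :
    ∃ g : ↥(FHbar M c H),
      KumRep n (hd.dd.ρ u • (φ • φ • x) - JH.TH hd.hβ (φ • x) + q • x) g ∧
        Fermat.Agent.NEB.H70.IsRedOneC P (g : LaurentSeries Kbar) := by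
  obtain ⟨ζ, hζ⟩ := exists_primRoot_Kbar q
  have : Fact q.Prime := ⟨hq⟩
  have : CharP (Fermat.Agent.S28.H73.kV P) q := charP_kV_of_liesOverPrime P hq hP
  set F₀ := FHQ M c H with hF₀
  refine ⟨hd.dd.ρ u (arithmeticRingAut F₀ φ (arithmeticRingAut F₀ φ f))
      * (THfn hd.hβ (arithmeticRingAut F₀ φ f))⁻¹ * f ^ q,
    ((((hf.galois φ).galois φ).diamond hd.dd u).sub ((hf.galois φ).TH hd)).add (hf.nsmul q), ?_⟩
  have hne : ∀ e : (ZMod c)ˣ, hd.dd.ρ e f ≠ 0 := fun e => (map_ne_zero _).2 hf.ne_zero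
  have key := Fermat.Agent.NEB.H70.isRedOneC_ES hζ φ.toRingEquiv
    (Fermat.Agent.RED.H33.mem_iff_of_mem_decompositionSubgroup P hφ.mem_decompositionSubgroup)
    (fun a => Fermat.Agent.RED.H33.autkHom_frobenius P hφ a)
    (scalable_FHbar P hf.ne_zero) (scalable_FHbar P (hne u))
  have e1 : hd.dd.ρ u (arithmeticRingAut F₀ φ (arithmeticRingAut F₀ φ f))
      = arithmeticRingAut F₀ φ (arithmeticRingAut F₀ φ (hd.dd.ρ u f)) := by
    rw [hd.dd.gal u φ, hd.dd.gal u φ]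
  have e2 : hd.dd.ρ u (arithmeticRingAut F₀ φ f) = arithmeticRingAut F₀ φ (hd.dd.ρ u f) := by
    rw [hd.dd.gal u φ]
  rw [e1]
  show Fermat.Agent.NEB.H70.IsRedOneC P
    (((arithmeticRingAut F₀ φ (arithmeticRingAut F₀ φ (hd.dd.ρ u f)) : ↥(FHbar M c H)) :
        LaurentSeries Kbar)
      * ((THfn hd.hβ (arithmeticRingAut F₀ φ f) : ↥(FHbar M c H)) : LaurentSeries Kbar)⁻¹
      * ((f : ↥(FHbar M c H)) : LaurentSeries Kbar) ^ q)
  rw [Fermat.Agent.NEB.H70.coe_THfn hd hc2 hc hq hqM u hu, e2]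
  exact key

/-- **OUT-ES.** -/
theorem stmt_OutES : Stmt_OutES := by
  intro hTI M c H hc2 hcM hM n q _ hq hqM hqn hn6 hSQ hβ dd qu hqu A hA σ hσ x hx
  have hn : n ≠ 0 := by
    rintro rfl
    simp at hn6
  have : NeZero M := ⟨hM⟩
  obtain ⟨f, hf⟩ := exists_kumRep_of_nsmul hx
  obtain ⟨g, h1, h2⟩ :=
    kumRep_ES (heckeDataOf M c q H hc2 hcM dd hβ) hc2 hcM hq hqM qu hqu hA hσ hf
  exact eq_zero_of_kumRep hn (hTI M c H hc2 hcM hM n q hq hqM hqn hn6 hSQ A hA) h1 h2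

end Fermat.Agent.S48.B2.R.H22
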