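import Fermat.Agent.S48.B2.R.Defs
import Fermat.Agent.NEB.Geom.H70_KU

/-!
# S48 B2, slice R, leaf OUT-U (helper22): `Stmt_TIcoreH → Stmt_TorsUnramH`

* `eq_zero_of_kumRep` : class form of `TIcoreAt`: a class `x = [D]` with `n D = div g`, `g` a
  constant times a Gauss unit reducing to `1`, is zero (reusable for OUT-ES);
* `stmt_OutU : Stmt_OutU`.
-/

set_option autoImplicit false
set_option synthInstance.maxHeartbeats 400000
set_option maxHeartbeats 1000000

noncomputable section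

namespace Fermat.Agent.S48.B2.R.H22

open AlgebraicCurve ModularCurve IntermediateField
open Fermat.Agent.NEB Fermat.Agent.NEB.JH Fermat.Agent.RED
open Fermat.Agent.S28.H73 Fermat.Agent.RED.H73 Fermat.Agent.RED.H34
open Fermat.Agent.NEB.Geom.H70

/-- **Class form of `TIcoreAt`**: a class with a Kummer function of exponent `n ≠ 0` which is a
constant times a Gauss unit reducing to `1` is zero. -/
theorem eq_zero_of_kumRep {A : ValuationSubring Kbar} {M c : ℕ} {H : Subgroup (ZMod c)ˣ} {n : ℕ}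
    (hn : n ≠ 0) (hTI : TIcoreAt A M c H n) {x : JH M c H} {g : ↥(FHbar M c H)}
    (hg : KumRep (n : ℤ) x g)
    (hred : Fermat.Agent.NEB.H70.IsRedOneC A (g : LaurentSeries Kbar)) : x = 0 := by
  obtain ⟨hg0, D, rfl, hD⟩ := hg
  obtain ⟨a, ha, hred⟩ := hred
  have hsc := H94.hasScale_FHbar A M c H
  have hcoe : ((algebraMap Kbar ↥(FHbar M c H) a * g : ↥(FHbar M c H)) : LaurentSeries Kbar)
      = HahnSeries.C a * (g : LaurentSeries Kbar) := by
    show ((algebraMap Kbar ↥(FHbar M c H) a : ↥(FHbar M c H)) : LaurentSeries Kbar)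
      * (g : LaurentSeries Kbar) = _
    rw [coe_algebraMap_F]
  have hmem : algebraMap Kbar ↥(FHbar M c H) a * g ∈ gaussValSub A (FHbar M c H) hsc := by
    rw [mem_gaussValSub_iff, hcoe]
    exact hred.mem
  have hres : gaussResF' A hsc ⟨_, hmem⟩ = 1 := by
    apply Subtype.ext
    show gaussResF A hsc ⟨_, hmem⟩ = 1
    rw [gaussResF_apply]
    have e : (⟨((⟨algebraMap Kbar ↥(FHbar M c H) a * g, hmem⟩ :
          ↥(gaussValSub A (FHbar M c H) hsc)) : ↥(FHbar M c H)), hmem⟩ : gaussRingV A)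
        = ⟨HahnSeries.C a * (g : LaurentSeries Kbar), hred.mem⟩ := Subtype.ext hcoe
    rw [e]
    exact hred.eq _
  have hdiv : ∀ Q : Place Kbar ↥(FHbar M c H),
      (n : ℤ) ∣ Q.ord (algebraMap Kbar ↥(FHbar M c H) a * g) := by
    intro Q
    rw [Fermat.Agent.RED.H17.ord_algebraMap_mul Q ha g, ← hD Q]
    exact dvd_mul_right _ _
  obtain ⟨t, ht⟩ := hTI ⟨_, hmem⟩ hres hdiv
  have ht' : t ^ n = algebraMap Kbar ↥(FHbar M c H) a * g := ht
  have ht0 : t ≠ 0 := by
    rintro rfl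
    rw [zero_pow hn] at ht'
    exact (mul_ne_zero ((map_ne_zero _).2 ha) hg0) ht'.symm
  have hn' : (n : ℤ) ≠ 0 := by exact_mod_cast hn
  have hDt : ∀ Q : Place Kbar ↥(FHbar M c H),
      (D : Divisor Kbar ↥(FHbar M c H)) Q = Q.ord t := by
    intro Q
    have h1 : Q.ord (t ^ n) = (n : ℤ) * Q.ord t := by
      rw [← zpow_natCast, Q.ord_zpow]
    rw [ht', Fermat.Agent.RED.H17.ord_algebraMap_mul Q ha g, ← hD Q] at h1
    exact mul_left_cancel₀ hn' h1
  refine (QuotientAddGroup.eq_zero_iff _).2 ?_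
  exact ⟨t, ht0, hDt⟩

/-- A class killed by `n` has a Kummer representation of exponent `n`. -/
theorem exists_kumRep_of_nsmul {M c : ℕ} {H : Subgroup (ZMod c)ˣ} {n : ℕ} {x : JH M c H}
    (hx : n • x = 0) : ∃ f : ↥(FHbar M c H), KumRep (n : ℤ) x f := by
  have h : (n : ℤ) • x = 0 := by
    rw [natCast_zsmul]
    exact hx
  exact exists_kumRep h

/-- Inertia moves an `n`-torsion class by a class in the kernel of reduction (any `n`). -/
theorem kumRep_inertia {M c : ℕ} {H : Subgroup (ZMod c)ˣ} {n : ℕ} {P : ValuationSubring Kbar}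
    {σ : Fermat.Agent.NEB.Geom.GalQ} (hσ : σ ∈ P.inertiaSubgroupIn ℚ) {x : JH M c H}
    {f : ↥(FHbar M c H)} (hf : KumRep (n : ℤ) x f) :
    KumRep (n : ℤ) (σ • x - x) (arithmeticRingAut (FHQ M c H) σ f * f⁻¹) ∧
      Fermat.Agent.NEB.H70.IsRedOneC P
        ((arithmeticRingAut (FHQ M c H) σ f * f⁻¹ : ↥(FHbar M c H)) : LaurentSeries Kbar) := by
  refine ⟨(hf.galois σ).sub hf, ?_⟩
  exact Fermat.Agent.NEB.H70.isRedOneC_inertia
    (Fermat.Agent.BAD.H91.inertialOn_of_mem_inertia P hσ) (scalable_FHbar P hf.ne_zero)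

/-- **OUT-U.** -/
theorem stmt_OutU : Stmt_OutU := by
  intro hTI M c H hc2 hcM hM n q hq hqM hqn hn6 hSQ P hP σ hσ x hx
  have hn : n ≠ 0 := by
    rintro rfl
    simp at hn6
  obtain ⟨f, hf⟩ := exists_kumRep_of_nsmul hx
  obtain ⟨h1, h2⟩ := kumRep_inertia hσ hf
  have h0 : σ • x - x = 0 :=
    eq_zero_of_kumRep hn (hTI M c H hc2 hcM hM n q hq hqM hqn hn6 hSQ P hP) h1 h2
  exact sub_eq_zero.mp h0

end Fermat.Agent.S48.B2.R.H22
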