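/-
S48 (row 43), mountain B, part B2, slice R, inputs of the IRR assembly (helper25).
Plan: NOTES/plan/W_S48_B.md, "Proof of R-IRR".

Series level facts on the Gauss reduction `RedTo O x y` (`x ∈ C((q))` lies in the Gauss ring of `O`
and reduces to `y ∈ k((q))`):

* `redTo_zero`, `redTo_add`, `redTo_neg`, `redTo_sub`, `redTo_sum`;
* `sum_twistBy_pow` : `∑_{b < ℓ} s(ζ^b q) = ℓ · (U_ℓ s)(q^ℓ)`, `ζ` a primitive `ℓ`-th root of unity;
* `redTo_smul_descend` : **reduction commutes with `ℓ · U_ℓ`** (`U_ℓ = H44.descend ℓ`), for EVERY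
  element of the Gauss ring (not only for series in `q^ℓ`), in any residue characteristic;
* `redTo_of_val_lt` : `v(g - t) < 1` in the Gauss valuation ring of `F` ⇒ `t` and `g` have the
  same reduction.

The concrete leaf on the generators `e_{aH}` of `F_H`:

* `eisQuot_coeff_one` : the `q¹`-coefficient of `e_S` is `[1 ∈ S]`;
* `one_mem_cosetSet_iff` : `1 ∈ ±aH ↔ a ∈ H ∨ -a ∈ H`;
* `redTo_genBar` : `e_{aH}` is Gauss-integral and the `q¹`-coefficient of its reduction is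
  `1` if `a ∈ ±H` and `0` otherwise.
-/
import Fermat.Agent.NEB.H70_RedQ
import Fermat.Agent.NEB.H94_FF

set_option autoImplicit false
set_option linter.unusedSectionVars false
set_option linter.style.haveILetI false
set_option linter.unusedVariables false

noncomputable section

open ModularCurve Fermat.Agent.S28 Fermat.Agent.S28.H73 Fermat.Agent.RED.H73 Fermat.Agent.GTor
open Fermat.Agent.NEB Fermat.Agent.NEB.H70

namespace Fermat.Agent.S48.B2.R.H25

/-! ## 1. `RedTo` is additive -/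

section Add

variable {C : Type} [Field C] {O : ValuationSubring C}

theorem redTo_zero : RedTo O (0 : LaurentSeries C) 0 :=
  ⟨(gaussRingV O).zero_mem, map_zero (gaussRedV O)⟩

theorem redTo_add {x x' : LaurentSeries C} {y y' : LaurentSeries (kV O)} (h : RedTo O x y)
    (h' : RedTo O x' y') : RedTo O (x + x') (y + y') := by
  obtain ⟨hx, rfl⟩ := h
  obtain ⟨hx', rfl⟩ := h'
  refine ⟨(gaussRingV O).add_mem hx hx', ?_⟩
  have e : (⟨x + x', (gaussRingV O).add_mem hx hx'⟩ : gaussRingV O)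
      = (⟨x, hx⟩ : gaussRingV O) + ⟨x', hx'⟩ := Subtype.ext rfl
  rw [e, map_add]

theorem redTo_neg {x : LaurentSeries C} {y : LaurentSeries (kV O)} (h : RedTo O x y) :
    RedTo O (-x) (-y) := by
  obtain ⟨hx, rfl⟩ := h
  have hm : -x ∈ gaussRingV O := (gaussRingV O).toSubring.neg_mem hx
  refine ⟨hm, ?_⟩
  have e : (⟨-x, hm⟩ : gaussRingV O) = -(⟨x, hx⟩ : gaussRingV O) := Subtype.ext rfl
  rw [e, map_neg]

theorem redTo_sub {x x' : LaurentSeries C} {y y' : LaurentSeries (kV O)} (h : RedTo O x y)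
    (h' : RedTo O x' y') : RedTo O (x - x') (y - y') := by
  rw [sub_eq_add_neg, sub_eq_add_neg]
  exact redTo_add h (redTo_neg h')

theorem redTo_sum {ι : Type*} (s : Finset ι) (x : ι → LaurentSeries C)
    (y : ι → LaurentSeries (kV O)) (h : ∀ i ∈ s, RedTo O (x i) (y i)) :
    RedTo O (∑ i ∈ s, x i) (∑ i ∈ s, y i) := by
  classical
  induction s using Finset.induction_on with
  | empty => simpa using redTo_zero
  | insert i s hi ih =>
    rw [Finset.sum_insert hi, Finset.sum_insert hi]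
    exact redTo_add (h i (Finset.mem_insert_self _ _))
      (ih (fun j hj => h j (Finset.mem_insert_of_mem hj)))

end Add

/-! ## 2. The sum of the twists -/

section SumTwist

theorem coeff_sum_twistBy {K : Type*} [CommRing K] (ℓ : ℕ) (ζ : Kˣ) (s : LaurentSeries K)
    (m : ℤ) :
    (∑ b ∈ Finset.range ℓ, H44.twistBy (ζ ^ b) s).coeff m
      = (∑ b ∈ Finset.range ℓ, (((ζ ^ m : Kˣ) : K)) ^ b) * s.coeff m := by
  rw [HahnSeries.coeff_sum, Finset.sum_mul]
  refine Finset.sum_congr rfl fun b _ => ?_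
  rw [H44.twistBy_coeff]
  congr 1
  rw [← Units.val_pow_eq_pow_val, ← zpow_natCast (ζ ^ m), ← zpow_mul, ← zpow_natCast ζ,
    ← zpow_mul, mul_comm]

/-- `∑_{b < ℓ} s(ζ^b q)` is a series in `q^ℓ`. -/
theorem isSupp_sum_twistBy {K : Type*} [Field K] {ℓ : ℕ} [NeZero ℓ] {ζ : Kˣ}
    (hζ : IsPrimitiveRoot ζ ℓ) (s : LaurentSeries K) :
    H44.IsSupp ℓ (∑ b ∈ Finset.range ℓ, H44.twistBy (ζ ^ b) s) := by
  intro m hm
  rw [coeff_sum_twistBy]
  have h1 : ζ ^ m ≠ 1 := fun h => hm ((hζ.zpow_eq_one_iff_dvd m).mp h)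
  have h2 : ((ζ ^ m : Kˣ) : K) ≠ 1 := fun h => h1 (Units.ext h)
  have h3 : ((ζ ^ m : Kˣ) : K) ^ ℓ = 1 := by
    rw [← Units.val_pow_eq_pow_val, ← zpow_natCast (ζ ^ m), ← zpow_mul, mul_comm, zpow_mul,
      zpow_natCast, hζ.pow_eq_one, one_zpow, Units.val_one]
  have h4 := geom_sum_mul ((ζ ^ m : Kˣ) : K) ℓ
  rw [h3, sub_self] at h4
  have h5 : ∑ i ∈ Finset.range ℓ, ((ζ ^ m : Kˣ) : K) ^ i = 0 := by
    rcases mul_eq_zero.mp h4 with h | h
    · exact h
    · exact absurd (sub_eq_zero.mp h) h2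
  rw [h5, zero_mul]

/-- `U_ℓ (∑_{b < ℓ} s(ζ^b q)) = ℓ · U_ℓ s` if `ζ^ℓ = 1`. -/
theorem descend_sum_twistBy {K : Type*} [CommRing K] {ℓ : ℕ} [NeZero ℓ] {ζ : Kˣ}
    (hζ : ζ ^ ℓ = 1) (s : LaurentSeries K) :
    H44.descend ℓ (∑ b ∈ Finset.range ℓ, H44.twistBy (ζ ^ b) s) = (ℓ : K) • H44.descend ℓ s := by
  ext m
  rw [H44.descend_coeff, coeff_sum_twistBy, HahnSeries.coeff_smul, H44.descend_coeff,
    smul_eq_mul]
  have h1 : ζ ^ ((ℓ : ℤ) * m) = 1 := by rw [zpow_mul, zpow_natCast, hζ, one_zpow]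
  rw [h1]
  simp

/-- `∑_{b < ℓ} s(ζ^b q) = ℓ · (U_ℓ s)(q^ℓ)`. -/
theorem sum_twistBy_pow {K : Type*} [Field K] {ℓ : ℕ} [NeZero ℓ] {ζ : Kˣ}
    (hζ : IsPrimitiveRoot ζ ℓ) (s : LaurentSeries K) :
    ∑ b ∈ Finset.range ℓ, H44.twistBy (ζ ^ b) s
      = qExpand K ℓ ((ℓ : K) • H44.descend ℓ s) := by
  rw [← descend_sum_twistBy hζ.pow_eq_one, H44.qExpand_descend (isSupp_sum_twistBy hζ s)]

end SumTwist

/-! ## 3. Reduction commutes with `ℓ · U_ℓ` -/

section Descend

variable {C : Type} [Field C] {O : ValuationSubring C}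

/-- **Reduction commutes with `ℓ · U_ℓ`** on the whole Gauss ring. -/
theorem redTo_smul_descend {ℓ : ℕ} [NeZero ℓ] {ζ₀ : Cˣ} (hζ : IsPrimitiveRoot ζ₀ ℓ)
    {x : LaurentSeries C} {y : LaurentSeries (kV O)} (h : RedTo O x y) :
    RedTo O ((ℓ : C) • H44.descend ℓ x) ((ℓ : kV O) • H44.descend ℓ y) := by
  have hℓ0 : ℓ ≠ 0 := NeZero.ne ℓ
  have hpow : (ζ₀ : C) ^ ℓ = 1 := by
    rw [← Units.val_pow_eq_pow_val, hζ.pow_eq_one, Units.val_one]
  have hpow' : ((ζ₀⁻¹ : Cˣ) : C) ^ ℓ = 1 := by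
    rw [← Units.val_pow_eq_pow_val, inv_pow, hζ.pow_eq_one, inv_one, Units.val_one]
  have mem_of_pow : ∀ z : C, z ^ ℓ = 1 → z ∈ O := by
    intro z hz
    rcases O.mem_or_inv_mem z with hm | hm
    · exact hm
    · have hz0 : z ≠ 0 := by
        rintro rfl
        rw [zero_pow hℓ0] at hz
        exact zero_ne_one hz
      have h1 : z * z ^ (ℓ - 1) = 1 := by
        rw [← pow_succ', Nat.sub_add_cancel (Nat.pos_of_ne_zero hℓ0), hz]
      have h2 : z = z⁻¹ ^ (ℓ - 1) := by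
        rw [inv_pow]
        exact eq_inv_of_mul_eq_one_left h1
      rw [h2]
      exact pow_mem hm _
  set u : (↥O)ˣ := unitO ζ₀ (mem_of_pow _ hpow) (mem_of_pow _ hpow') with hu
  have hmap : Units.map ((O.subtype : ↥O →+* C) : ↥O →* C) u = ζ₀ := map_unitO _ _ _
  have huℓ : u ^ ℓ = 1 := by
    apply Units.ext
    apply Subtype.ext
    show (((u ^ ℓ : (↥O)ˣ) : ↥O) : C) = 1
    rw [Units.val_pow_eq_pow_val]
    exact hpow
  have hrℓ : resUnit u ^ ℓ = 1 := by
    show Units.map ((resV O : ↥O →+* kV O) : ↥O →* kV O) u ^ ℓ = 1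
    rw [← map_pow, huℓ, map_one]
  have hP : RedTo O (∑ b ∈ Finset.range ℓ, H44.twistBy (ζ₀ ^ b) x)
      (∑ b ∈ Finset.range ℓ, H44.twistBy (resUnit u ^ b) y) := by
    refine redTo_sum _ _ _ fun b _ => ?_
    have h1 := RedTo.twist (u ^ b) h
    have e1 : Units.map ((O.subtype : ↥O →+* C) : ↥O →* C) (u ^ b) = ζ₀ ^ b := by
      rw [map_pow, hmap]
    have e2 : resUnit (u ^ b) = resUnit u ^ b := by
      show Units.map ((resV O : ↥O →+* kV O) : ↥O →* kV O) (u ^ b) = _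
      rw [map_pow]
      rfl
    rwa [e1, e2] at h1
  have h2 := RedTo.desc hζ hP (isSupp_sum_twistBy hζ x)
  rwa [descend_sum_twistBy hζ.pow_eq_one, descend_sum_twistBy hrℓ] at h2

/-- `v(g - t) < 1` in the Gauss valuation ring: `t` has the reduction of `g`. -/
theorem redTo_of_val_lt {F : IntermediateField C (LaurentSeries C)} (h : HasScale O F)
    {g t : ↥F} {y : LaurentSeries (kV O)} (hg : RedTo O (g : LaurentSeries C) y)
    (hlt : (gaussValSub O F h).valuation (g - t) < 1) : RedTo O (t : LaurentSeries C) y := by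
  have h1 : g - t ∈ gaussValSub O F h :=
    ((gaussValSub O F h).valuation_le_one_iff _).mp hlt.le
  have h2 : (⟨g - t, h1⟩ : ↥(gaussValSub O F h)) ∈
      IsLocalRing.maximalIdeal ↥(gaussValSub O F h) :=
    ((gaussValSub O F h).valuation_lt_one_iff _).mpr hlt
  rw [← gaussResF_eq_zero_iff O h] at h2
  have h3 : RedTo O ((g - t : ↥F) : LaurentSeries C) 0 := ⟨h1, h2⟩
  have h4 := redTo_sub hg h3
  have e : (g : LaurentSeries C) - ((g - t : ↥F) : LaurentSeries C) = (t : LaurentSeries C) := by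
    push_cast
    ring
  rwa [e, sub_zero] at h4

/-- Membership in the Gauss valuation ring and `RedTo`. -/
theorem redTo_gaussResF {F : IntermediateField C (LaurentSeries C)} (h : HasScale O F)
    (x : ↥F) (hx : x ∈ gaussValSub O F h) :
    RedTo O (x : LaurentSeries C) (gaussResF O h ⟨x, hx⟩) := ⟨hx, rfl⟩

/-- The reduced field consists of the reductions of the Gauss-integral elements. -/
theorem mem_redField_of_redTo {F : IntermediateField C (LaurentSeries C)} (h : HasScale O F)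
    {x : LaurentSeries C} (hxF : x ∈ F) {y : LaurentSeries (kV O)} (hx : RedTo O x y) :
    y ∈ redField O F h := by
  obtain ⟨hm, rfl⟩ := hx
  exact ⟨⟨⟨x, hxF⟩, hm⟩, rfl⟩

end Descend

/-! ## 4. The generators `e_{aH}` -/

section Gen

open scoped Classical in
theorem eisCoeff_zero' (c : ℕ) (S : Set (ZMod c)) : eisCoeff c S 0 = 0 := by
  simp [eisCoeff]

open scoped Classical in
theorem eisCoeff_one' (c : ℕ) (S : Set (ZMod c)) :
    eisCoeff c S 1 = if (1 : ZMod c) ∈ S then 1 else 0 := by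
  simp [eisCoeff]

open scoped Classical in
/-- The `q¹`-coefficient of `e_S` is `[1 ∈ S]`. -/
theorem eisQuot_coeff_one (c : ℕ) (S : Set (ZMod c)) :
    PowerSeries.coeff 1 (eisQuot c S) = if (1 : ZMod c) ∈ S then 1 else 0 := by
  unfold eisQuot eisNum
  rw [PowerSeries.coeff_mul]
  have h : (Finset.HasAntidiagonal.antidiagonal (1 : ℕ) : Finset (ℕ × ℕ)) = {(0, 1), (1, 0)} := by
    decide
  rw [h, Finset.sum_insert (by decide), Finset.sum_singleton]
  simp only [PowerSeries.coeff_mk, eisCoeff_zero', eisCoeff_one', zero_mul, zero_add]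
  rw [PowerSeries.coeff_zero_eq_constantCoeff_apply, PowerSeries.constantCoeff_invOfUnit]
  simp

/-- `1 ∈ ±aH ↔ a ∈ ±H`. -/
theorem one_mem_cosetSet_iff (c : ℕ) (H : Subgroup (ZMod c)ˣ) (a : (ZMod c)ˣ) :
    (1 : ZMod c) ∈ cosetSet c H a ↔ (a ∈ H ∨ -a ∈ H) := by
  constructor
  · rintro ⟨h, hh, h1 | h1⟩
    · left
      have e : a * h = 1 := Units.ext h1.symm
      have : a = h⁻¹ := eq_inv_of_mul_eq_one_left e
      rw [this]
      exact H.inv_mem hh
    · right
      have e : (-a) * h = 1 := by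
        apply Units.ext
        rw [neg_mul, Units.val_neg, ← h1, Units.val_one]
      have : -a = h⁻¹ := eq_inv_of_mul_eq_one_left e
      rw [this]
      exact H.inv_mem hh
  · rintro (h | h)
    · refine ⟨a⁻¹, H.inv_mem h, Or.inl ?_⟩
      rw [mul_inv_cancel, Units.val_one]
    · refine ⟨(-a)⁻¹, H.inv_mem h, Or.inr ?_⟩
      have e : a * (-a)⁻¹ = -1 := by
        rw [inv_neg, mul_neg, mul_inv_cancel]
      rw [e, Units.val_neg, neg_neg, Units.val_one]

open scoped Classical in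
/-- **The generators of `F_H` are Gauss-integral**, and the `q¹`-coefficient of the reduction of
`e_{aH}` is `1` if `a ∈ ±H` and `0` otherwise. -/
theorem redTo_genBar (A : ValuationSubring Kbar) (M c : ℕ) (H : Subgroup (ZMod c)ˣ)
    (a : (ZMod c)ˣ) :
    ∃ y : LaurentSeries (kV A),
      RedTo A ((genBar M c H a : ↥(FHbar M c H)) : LaurentSeries Kbar) y ∧
      y.coeff 1 = if (a ∈ H ∨ -a ∈ H) then 1 else 0 := by
  have hcoe : ((genBar M c H a : ↥(FHbar M c H)) : LaurentSeries Kbar)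
      = iotaV A (coeffMap (Int.castRingHom ↥A)
          (HahnSeries.ofPowerSeries ℤ ℤ (eisQuot c (cosetSet c H a)))) := by
    show coeffEmb Kbar (eisGen c (cosetSet c H a)) = _
    unfold eisGen
    rw [Fermat.Agent.NEB.H94.coeffEmb_ofPowerSeries_int]
    ext k
    rw [coeffMap_coeff, iotaV_coeff, coeffMap_coeff]
    simp
  refine ⟨redV A (coeffMap (Int.castRingHom ↥A)
    (HahnSeries.ofPowerSeries ℤ ℤ (eisQuot c (cosetSet c H a)))), ?_, ?_⟩
  · rw [hcoe]
    exact ⟨iotaV_mem_gaussRingV A _, gaussRedV_iotaV A _⟩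
  · rw [redV_coeff, coeffMap_coeff]
    have h1 : (HahnSeries.ofPowerSeries ℤ ℤ (eisQuot c (cosetSet c H a))).coeff 1
        = PowerSeries.coeff 1 (eisQuot c (cosetSet c H a)) := by
      have := HahnSeries.ofPowerSeries_apply_coeff (Γ := ℤ) (eisQuot c (cosetSet c H a)) 1
      simpa using this
    rw [h1, eisQuot_coeff_one]
    by_cases hmem : (1 : ZMod c) ∈ cosetSet c H a
    · rw [if_pos hmem, if_pos ((one_mem_cosetSet_iff c H a).mp hmem)]
      simp
    · rw [if_neg hmem, if_neg (fun h => hmem ((one_mem_cosetSet_iff c H a).mpr h))]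
      simp

end Gen

end Fermat.Agent.S48.B2.R.H25
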