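import Fermat.Agent.NEB.H70_NormQ

/-!
# S48 B2, slice R, leaf IRR-2 (helper31): the trace Hecke operator on functions

For a prime `ℓ ∤ M`, `2 ≤ c`, `c ∣ M`, `H ≤ (ℤ/c)ˣ` and `hd : HeckeData M c ℓ H` the **trace
Hecke operator**

  `𝒯_ℓ f := Tr_{F_H(Mℓ) / α F_H(M)} (β f)`   (`traceT hd.hβ f`, a `ℚ̄`-linear endomorphism of `F_H(M)`)

satisfies

* `coe_traceT`   : `𝒯_ℓ f = V_ℓ f + ℓ · U_ℓ (⟨ℓ⟩ f)` as Laurent series in `q`, where
                   `V_ℓ = qExpand ℚ̄ ℓ` (`f(q) ↦ f(q^ℓ)`) and `U_ℓ = H44.descend ℓ`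
                   (`∑ a_n q^n ↦ ∑ a_{ℓ n} q^n`), `⟨ℓ⟩ = hd.dd.ρ u`, `u = ℓ mod c`;
* `coeff_traceT` : the same coefficientwise;
* `traceT_rho`   : `𝒯_ℓ (⟨d⟩ f) = ⟨d⟩ (𝒯_ℓ f)`;
* `traceT_incl`  : `𝒯_ℓ` maps `F₀(M)` into `F₀(M)`.

The exact statement of the leaf is `Stmt_IRR2`, proved by `stmt_IRR2`.

Method: trace = sum of the `ℓ + 1` conjugates `sigmaT` of helper70 (`NEB/H70_NormQ.lean`), through
the abstract `trace_eq_sum_of_injective` (Dedekind independence, as for the norm in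
`RED/ES/H95_NormEmb.lean`), and `∑_{b < ℓ} s(ζ^b q^{1/ℓ}) = ℓ · (U_ℓ s)(q)`.
-/

set_option autoImplicit false
set_option linter.unusedSectionVars false
set_option linter.style.haveILetI false

open ModularCurve

noncomputable section

namespace Fermat.Agent.S48.B2.R.H31

open Fermat.Agent.NEB Fermat.Agent.NEB.H14 Fermat.Agent.NEB.JH Fermat.Agent.NEB.H84
  Fermat.Agent.NEB.H70 Fermat.Agent.GTor AlgebraicCurve

/-! ## 1. Trace through distinct embeddings -/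

section Abstract

open Module

/-- **Trace through distinct embeddings**: if `F / K` is finite of degree `n` and `σ i`
(`i : ι`, `card ι = n`) are pairwise distinct `K`-embeddings of `F` into a field `L`, then
`Tr_{F/K} y = ∑ i, σ i y` in `L`. -/
theorem trace_eq_sum_of_injective {K F L : Type*} [Field K] [Field F] [Field L] [Algebra K F]
    [Algebra K L] [FiniteDimensional K F] {ι : Type*} [Fintype ι]
    (σ : ι → (F →ₐ[K] L)) (hσ : Function.Injective σ)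
    (hcard : Fintype.card ι = finrank K F) (y : F) :
    algebraMap K L (Algebra.trace K F y) = ∑ i, σ i y := by
  classical
  let b := Module.finBasis K F
  have e : ι ≃ Fin (finrank K F) := Fintype.equivOfCardEq (by rw [hcard, Fintype.card_fin])
  let σ' : Fin (finrank K F) → (F →ₐ[K] L) := fun i => σ (e.symm i)
  have hσ' : Function.Injective σ' := hσ.comp e.symm.injective
  have hS := Fermat.Agent.RED.H95.isUnit_embMatrix b σ' hσ'
  have hrel := Fermat.Agent.RED.H95.embMatrix_mul_leftMulMatrix b σ' y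
  obtain ⟨S, hSu⟩ := hS
  have hA : (Algebra.leftMulMatrix b y).map (algebraMap K L)
      = (S⁻¹ : (Matrix _ _ L)ˣ).1 * Matrix.diagonal (fun i => σ' i y) * S.1 := by
    rw [mul_assoc, hSu, ← hrel, ← hSu, ← mul_assoc, Units.inv_mul, one_mul]
  rw [Algebra.trace_eq_matrix_trace b y, AddMonoidHom.map_trace, hA, Matrix.trace_units_conj',
    Matrix.trace_diagonal]
  exact Fintype.sum_equiv e.symm _ _ (fun i => rfl)

variable {K₀ F F' : Type} [Field K₀] [Field F] [Field F'] [Algebra K₀ F] [Algebra K₀ F']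

/-- The trace along `φ`. -/
def traceFn (φ : F →ₐ[K₀] F') (x : F') : F :=
  letI := algebraAlong φ
  Algebra.trace F F' x

theorem traceFn_add (φ : F →ₐ[K₀] F') (x y : F') :
    traceFn φ (x + y) = traceFn φ x + traceFn φ y := by
  letI := algebraAlong φ
  show Algebra.trace F F' (x + y) = Algebra.trace F F' x + Algebra.trace F F' y
  exact map_add _ x y

theorem traceFn_mul_left (φ : F →ₐ[K₀] F') (a : F) (x : F') :
    traceFn φ (φ a * x) = a * traceFn φ x := by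
  letI := algebraAlong φ
  show Algebra.trace F F' (φ a * x) = a * Algebra.trace F F' x
  have h : φ a * x = a • x := (Algebra.smul_def a x).symm
  rw [h, map_smul, smul_eq_mul]

theorem traceFn_smul (φ : F →ₐ[K₀] F') (a : K₀) (x : F') :
    traceFn φ (a • x) = a • traceFn φ x := by
  rw [Algebra.smul_def, Algebra.smul_def, ← φ.commutes a, traceFn_mul_left]

/-- The trace commutes with compatible automorphisms. -/
theorem traceFn_algEquiv (φ : F →ₐ[K₀] F') (g : F ≃ₐ[K₀] F) (g' : F' ≃ₐ[K₀] F')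
    (h : ∀ x, g' (φ x) = φ (g x)) (z : F') : g (traceFn φ z) = traceFn φ (g' z) := by
  letI := algebraAlong φ
  have h1 := Algebra.trace_eq_of_equiv_equiv (A₁ := F) (B₁ := F') (A₂ := F) (B₂ := F')
    (g : F ≃+* F) (g' : F' ≃+* F') (by
      ext x
      exact (h x).symm) z
  show g (Algebra.trace F F' z) = Algebra.trace F F' (g' z)
  rw [h1]
  exact (g : F ≃+* F).apply_symm_apply _

/-- The trace along `φ` is the sum of the conjugates. -/
theorem trace_via_emb {L : Type} [Field L] (φ : F →ₐ[K₀] F') (hfin : FiniteAlong K₀ φ)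
    (ψ : F →+* L) {ι : Type} [Fintype ι] (σ : ι → (F' →+* L))
    (hσφ : ∀ i x, σ i (φ x) = ψ x) (hinj : Function.Injective σ)
    (hcard : Fintype.card ι = finrankAlong K₀ φ) (y : F') :
    ψ (traceFn φ y) = ∑ i, σ i y := by
  letI := algebraAlong φ
  letI : Algebra F L := ψ.toAlgebra
  haveI : FiniteDimensional F F' := hfin
  let σ' : ι → (F' →ₐ[F] L) := fun i => { σ i with commutes' := fun x => hσφ i x }
  have hinj' : Function.Injective σ' := by
    intro i j h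
    apply hinj
    ext z
    exact congrArg (fun f : F' →ₐ[F] L => f z) h
  exact trace_eq_sum_of_injective σ' hinj' hcard y

end Abstract

/-! ## 2. The sum of the twists -/

section Series

variable (ℓ : ℕ) [NeZero ℓ]

/-- `∑_{b < ℓ} s(ζ^b t) = ℓ · ∑_n s_{ℓ n} t^{ℓ n}`. -/
theorem sum_twistBy_expUnit (s : LaurentSeries ℂ) :
    ∑ b : Fin ℓ, H44.twistBy (expUnit (((b : ℕ) : ℝ) / ℓ)) s
      = (ℓ : ℂ) • qExpand ℂ ℓ (H44.descend ℓ s) := by
  ext m
  rw [HahnSeries.coeff_sum, HahnSeries.coeff_smul, smul_eq_mul]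
  simp only [H44.twistBy_coeff, expUnit_div]
  set ζ : ℂˣ := expUnit (1 / (ℓ : ℝ)) with hζ
  have hprim : IsPrimitiveRoot ζ ℓ := isPrimitiveRoot_expUnit ℓ
  have hsum : ∑ b : Fin ℓ, ((((ζ ^ (b : ℕ)) ^ m : ℂˣ)) : ℂ) * s.coeff m
      = (∑ b ∈ Finset.range ℓ, (((ζ ^ m : ℂˣ) : ℂ)) ^ b) * s.coeff m := by
    rw [Finset.sum_mul, ← Fin.sum_univ_eq_sum_range (fun b => (((ζ ^ m : ℂˣ) : ℂ)) ^ b * s.coeff m)]
    refine Finset.sum_congr rfl fun b _ => ?_
    congr 1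
    rw [← Units.val_pow_eq_pow_val, ← zpow_natCast (ζ ^ m), ← zpow_mul, ← zpow_natCast ζ,
      ← zpow_mul, mul_comm]
  rw [hsum]
  by_cases hm : (ℓ : ℤ) ∣ m
  · have h1 : ζ ^ m = 1 := (hprim.zpow_eq_one_iff_dvd m).mpr hm
    obtain ⟨k, rfl⟩ := hm
    rw [h1, qExpand_coeff_mul, H44.descend_coeff]
    simp
  · have h1 : ζ ^ m ≠ 1 := fun h => hm ((hprim.zpow_eq_one_iff_dvd m).mp h)
    have h2 : ((ζ ^ m : ℂˣ) : ℂ) ≠ 1 := fun h => h1 (Units.ext h)
    have h3 : ((ζ ^ m : ℂˣ) : ℂ) ^ ℓ = 1 := by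
      rw [← Units.val_pow_eq_pow_val, ← zpow_natCast (ζ ^ m), ← zpow_mul, mul_comm, zpow_mul,
        zpow_natCast, hprim.pow_eq_one, one_zpow, Units.val_one]
    have h4 := geom_sum_mul ((ζ ^ m : ℂˣ) : ℂ) ℓ
    rw [h3, sub_self] at h4
    have h5 : ∑ i ∈ Finset.range ℓ, ((ζ ^ m : ℂˣ) : ℂ) ^ i = 0 := by
      rcases mul_eq_zero.mp h4 with h | h
      · exact h
      · exact absurd (sub_eq_zero.mp h) h2
    rw [h5, zero_mul, qExpand_coeff_of_not_dvd ℓ _ hm, mul_zero]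

theorem coeffMap_smul_jh {R S : Type*} [CommRing R] [CommRing S] (f : R →+* S) (a : R)
    (x : LaurentSeries R) : coeffMap f (a • x) = f a • coeffMap f x := by
  ext n
  simp only [coeffMap_coeff, HahnSeries.coeff_smul, smul_eq_mul, map_mul]

theorem qExpand_smul_jh {R : Type*} [CommRing R] (a : R) (x : LaurentSeries R) :
    qExpand R ℓ (a • x) = a • qExpand R ℓ x := by
  ext k
  by_cases hk : (ℓ : ℤ) ∣ k
  · obtain ⟨m, rfl⟩ := hk
    rw [HahnSeries.coeff_smul, qExpand_coeff_mul, qExpand_coeff_mul, HahnSeries.coeff_smul]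
  · rw [HahnSeries.coeff_smul, qExpand_coeff_of_not_dvd ℓ _ hk, qExpand_coeff_of_not_dvd ℓ _ hk,
      smul_zero]

end Series

/-! ## 3. The trace Hecke operator -/

section TraceT

variable {M c ℓ : ℕ} [NeZero M] [NeZero ℓ] {H : Subgroup (ZMod c)ˣ}

/-- **The trace Hecke operator** `𝒯_ℓ f = Tr_α (β f)` on `F_H(M)`, as a `ℚ̄`-linear map. -/
def traceT (hβ : BetaOK M c ℓ H) : ↥(FHbar M c H) →ₗ[Kbar] ↥(FHbar M c H) where
  toFun f := traceFn (alphaH M c ℓ H) (betaBar hβ f)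
  map_add' x y := by rw [map_add, traceFn_add]
  map_smul' a x := by
    rw [Algebra.smul_def, map_mul, AlgHom.commutes, ← Algebra.smul_def, traceFn_smul]
    rfl

theorem traceT_apply (hβ : BetaOK M c ℓ H) (f : ↥(FHbar M c H)) :
    traceT hβ f = traceFn (alphaH M c ℓ H) (betaBar hβ f) := rfl

/-- **The `q`-expansion of the trace Hecke operator**, `ℓ ∤ M` prime:
`𝒯_ℓ f = f(q^ℓ) + ℓ · U_ℓ (⟨ℓ⟩ f)`. -/
theorem coe_traceT (hd : HeckeData M c ℓ H) (hc2 : 2 ≤ c) (hc : c ∣ M) (hℓ : ℓ.Prime)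
    (hℓM : ¬ ℓ ∣ M) (u : (ZMod c)ˣ) (hu : (u : ZMod c) = (ℓ : ZMod c)) (f : ↥(FHbar M c H)) :
    ((traceT hd.hβ f : ↥(FHbar M c H)) : LaurentSeries Kbar)
      = qExpand Kbar ℓ (f : LaurentSeries Kbar)
        + (ℓ : Kbar) • H44.descend ℓ ((hd.dd.ρ u f : ↥(FHbar M c H)) : LaurentSeries Kbar) := by
  obtain ⟨s, q, hdet⟩ := exists_bezout' hℓ hℓM
  have key := trace_via_emb (alphaH M c ℓ H) (finiteAlong_hom hd.isFF hd.isFF' _)
    ((qExpand ℂ ℓ).comp (iotaHom M c H iotaC)) (sigmaT H iotaC hc2 hc s q hdet hℓ)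
    (fun i x => sigmaT_alpha H iotaC hc2 hc s q hdet hℓ i x)
    (sigmaT_injective H iotaC hc2 hc s q hdet hℓ hd.hβ)
    (by rw [Fintype.card_option, Fintype.card_fin]
        exact (Fermat.Agent.NEB.H29.finrankAlong_alphaH hd hℓ hℓM).symm)
    (betaBar hd.hβ f)
  rw [Fintype.sum_option, sigmaT_none_beta] at key
  simp only [sigmaT_some_beta H iotaC hc2 hc s q hdet hℓ hd.hβ u hu] at key
  rw [sum_twistBy_expUnit, ← qExpand_smul_jh, ← map_add] at key
  have key2 := qExpand_injective (R := ℂ) ℓ key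
  apply coeffMap_inj iotaC
  rw [map_add, coeffMap_qExpand_jh, coeffMap_smul_jh, Fermat.Agent.NEB.H70.coeffMap_descend,
    diamondData_unique H iotaC hc2 hc hd.dd u f, map_natCast]
  exact key2

/-- Coefficientwise form of `coe_traceT`. -/
theorem coeff_traceT (hd : HeckeData M c ℓ H) (hc2 : 2 ≤ c) (hc : c ∣ M) (hℓ : ℓ.Prime)
    (hℓM : ¬ ℓ ∣ M) (u : (ZMod c)ˣ) (hu : (u : ZMod c) = (ℓ : ZMod c)) (f : ↥(FHbar M c H))
    (m : ℤ) :
    ((traceT hd.hβ f : ↥(FHbar M c H)) : LaurentSeries Kbar).coeff m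
      = (qExpand Kbar ℓ (f : LaurentSeries Kbar)).coeff m
        + (ℓ : Kbar) * ((hd.dd.ρ u f : ↥(FHbar M c H)) : LaurentSeries Kbar).coeff ((ℓ : ℤ) * m) := by
  rw [coe_traceT hd hc2 hc hℓ hℓM u hu f, HahnSeries.coeff_add, HahnSeries.coeff_smul,
    H44.descend_coeff, smul_eq_mul]

/-- `𝒯_ℓ` commutes with the diamond operators. -/
theorem traceT_rho (hd : HeckeData M c ℓ H) (d : (ZMod c)ˣ) (f : ↥(FHbar M c H)) :
    traceT hd.hβ (hd.dd.ρ d f) = hd.dd.ρ d (traceT hd.hβ f) := by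
  rw [traceT_apply, traceT_apply, ← hd.betaGal d f]
  exact (traceFn_algEquiv (alphaH M c ℓ H) (hd.dd.ρ d) (hd.dd'.ρ d) (hd.alphaGal d) _).symm

/-- `𝒯_ℓ` maps `F₀(M)` into `F₀(M)`. -/
theorem traceT_incl (hd : HeckeData M c ℓ H) (x : ↥(modularFunctionFieldBar M)) :
    ∃ x₀ : ↥(modularFunctionFieldBar M), inclBar M c H x₀ = traceT hd.hβ (inclBar M c H x) := by
  refine hd.dd.fixed _ fun d => ?_
  rw [← traceT_rho, hd.dd.fix]

end TraceT

/-! ## 4. The statement of the leaf -/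

/-- **IRR-2**: the trace Hecke operator `𝒯_ℓ` on `F_H(M)`, `ℓ ∤ M` prime: its `q`-expansion is
`V_ℓ f + ℓ · U_ℓ (⟨ℓ⟩ f)`, it commutes with the diamond operators and preserves `F₀(M)`. -/
def Stmt_IRR2 : Prop :=
  ∀ (M c ℓ : ℕ) [NeZero M] [NeZero ℓ] (H : Subgroup (ZMod c)ˣ) (hd : HeckeData M c ℓ H),
    2 ≤ c → c ∣ M → ℓ.Prime → ¬ ℓ ∣ M →
    ∃ T : ↥(FHbar M c H) →ₗ[Kbar] ↥(FHbar M c H),
      (∀ (u : (ZMod c)ˣ), (u : ZMod c) = (ℓ : ZMod c) → ∀ f : ↥(FHbar M c H),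
        ((T f : ↥(FHbar M c H)) : LaurentSeries Kbar)
          = qExpand Kbar ℓ (f : LaurentSeries Kbar)
            + (ℓ : Kbar) • H44.descend ℓ ((hd.dd.ρ u f : ↥(FHbar M c H)) : LaurentSeries Kbar)) ∧
      (∀ (d : (ZMod c)ˣ) (f : ↥(FHbar M c H)), T (hd.dd.ρ d f) = hd.dd.ρ d (T f)) ∧
      (∀ x : ↥(modularFunctionFieldBar M),
        ∃ x₀ : ↥(modularFunctionFieldBar M), inclBar M c H x₀ = T (inclBar M c H x))

theorem stmt_IRR2 : Stmt_IRR2 := by
  intro M c ℓ _ _ H hd hc2 hc hℓ hℓM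
  exact ⟨traceT hd.hβ, fun u hu f => coe_traceT hd hc2 hc hℓ hℓM u hu f,
    fun d f => traceT_rho hd d f, fun x => traceT_incl hd x⟩

end Fermat.Agent.S48.B2.R.H31
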