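/-
S48 (row 43), mountain B, part B2, slice R: **R-IRR**, the IRR assembly (helper25).
Plan: NOTES/plan/W_S48_B.md, "Proof of R-IRR" (helper43).

`stmt_RIRR : Stmt_RIRR`, UNCONDITIONAL (`stmt_RIRR_of : H96.Stmt_Irr3 → Stmt_RIRR`):

* `Stmt_RIRR` (**R-IRR**) : for `p ∤ M` and `A | p`, the Gauss valuation ring of `F_H(M)` is stable
  under the diamond operators `ρ(d)` (= irreducibility of `X_H` mod `p`);
* `H96.Stmt_Irr3` (**IRR-3**, helper96) : if `w` and `V_r w = w(q^r)` both lie in the reduced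
  field `κ₀(M)` of `F₀(M)`, `r ∤ pM` prime, then `w` is constant.

Inputs: the abstract core `irr_core` (with IRR-1 = `irr1`), IRR-2 (helper31: `H31.traceT`,
`coe_traceT`, `traceT_rho`, `traceT_incl`), Dirichlet's theorem on primes in arithmetic
progressions (Mathlib), the generators `redTo_genBar`, and `redTo_smul_descend`.
-/
import Fermat.Agent.S48.B2.R.H25_RedOps
import Fermat.Agent.S48.B2.R.H25_IrrCore
import Fermat.Agent.S48.B2.R.H31_Trace
import Fermat.Agent.S48.B2.R.H96_Irr3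
import Fermat.Agent.NEB.H14_JHData
import Fermat.Agent.NEB.H84_ResVal
import Mathlib.NumberTheory.LSeries.PrimesInAP

set_option autoImplicit false
set_option linter.unusedSectionVars false
set_option linter.style.haveILetI false
set_option linter.unusedVariables false

noncomputable section

open ModularCurve AlgebraicCurve Fermat.Agent.S28 Fermat.Agent.S28.H73 Fermat.Agent.RED.H73
  Fermat.Agent.GTor
open Fermat.Agent.NEB Fermat.Agent.NEB.JH Fermat.Agent.NEB.H70

namespace Fermat.Agent.S48.B2.R.H25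

/-- **R-IRR**: the Gauss valuation ring of `F_H(M)` at `A | p`, `p ∤ M`, is stable under the
diamond operators. -/
def Stmt_RIRR : Prop :=
  ∀ (M c : ℕ) [NeZero M] (H : Subgroup (ZMod c)ˣ), 2 ≤ c → c ∣ M →
    ∀ p : ℕ, p.Prime → ¬ p ∣ M → ∀ A : ValuationSubring Kbar, A.LiesOverPrime p →
      ∀ (dd : DiamondData M c H) (d : (ZMod c)ˣ) (x : ↥(FHbar M c H)),
        x ∈ gaussValSub A (FHbar M c H) (Fermat.Agent.NEB.H94.hasScale_FHbar A M c H) →
        dd.ρ d x ∈ gaussValSub A (FHbar M c H) (Fermat.Agent.NEB.H94.hasScale_FHbar A M c H)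

/-- The `q¹`-coefficient. -/
def coeffOne (k : Type) [Field k] : LaurentSeries k →+ k where
  toFun y := y.coeff 1
  map_zero' := by simp
  map_add' _ _ := by simp

@[simp] theorem coeffOne_apply {k : Type} [Field k] (y : LaurentSeries k) :
    coeffOne k y = y.coeff 1 := rfl

/-- `ℚ̄` contains a primitive `r`-th root of unity (as a unit). -/
theorem exists_primRootUnit_Kbar {r : ℕ} (hr0 : r ≠ 0) : ∃ ζ : Kbarˣ, IsPrimitiveRoot ζ r := by
  haveI : NeZero (r : ℚ) := ⟨by exact_mod_cast hr0⟩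
  haveI : HasEnoughRootsOfUnity (AlgebraicClosure ℚ) r :=
    AlgebraicClosure.hasEnoughRootsOfUnity ℚ r
  obtain ⟨z, hz⟩ := HasEnoughRootsOfUnity.exists_primitiveRoot (AlgebraicClosure ℚ) r
  have hz0 : z ≠ 0 := hz.ne_zero hr0
  exact ⟨Units.mk0 z hz0, IsPrimitiveRoot.coe_units_iff.mp (by simpa using hz)⟩

set_option maxHeartbeats 1000000 in
set_option synthInstance.maxHeartbeats 200000 in
/-- **The IRR assembly**: IRR-3 implies R-IRR. -/
theorem stmt_RIRR_of (h3 : Fermat.Agent.S48.B2.R.H96.Stmt_Irr3) : Stmt_RIRR := by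
  classical
  intro M c _ H hc2 hc p hp hpM A hA dd d₀ x hx
  haveI : NeZero c := ⟨by omega⟩
  -- Dirichlet: a prime `r ∤ pM` in the class of `d₀`
  obtain ⟨r, hrgt, hr, hrd⟩ := Nat.forall_exists_prime_gt_and_eq_mod (q := c)
    (a := ((d₀ : (ZMod c)ˣ) : ZMod c)) d₀.isUnit (p * M)
  haveI : NeZero r := ⟨hr.ne_zero⟩
  have hM0 : 0 < M := Nat.pos_of_ne_zero (NeZero.ne M)
  have hrpM : ¬ r ∣ p * M := fun h =>
    absurd (Nat.le_of_dvd (Nat.mul_pos hp.pos hM0) h) (not_le.2 hrgt)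
  have hrM : ¬ r ∣ M := fun h => hrpM (Dvd.dvd.mul_left h p)
  let hd : HeckeData M c r H := heckeData M c r H hc2 hc
  set hL := Fermat.Agent.NEB.H94.hasScale_FHbar A M c H with hhL
  set V := gaussValSub A (FHbar M c H) hL with hV
  have harch : ∀ x y : ↥(FHbar M c H), V.valuation x < 1 → y ≠ 0 →
      ∃ N : ℕ, V.valuation x ^ N < V.valuation y := by
    intro x y hx hy
    obtain ⟨n, hn⟩ := Fermat.Agent.NEB.H84.isArch_gaussValSub A hL hp hA x y hx hy
    exact ⟨n, by rwa [map_pow] at hn⟩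
  obtain ⟨ζ, hζ⟩ := exists_primRootUnit_Kbar hr.ne_zero
  have hRedV : ∀ (x : ↥(FHbar M c H)) (y : LaurentSeries (kV A)),
      RedTo A (x : LaurentSeries Kbar) y → V.valuation x ≤ 1 := by
    intro x y h
    rw [V.valuation_le_one_iff]
    exact h.mem
  have hRedlt : ∀ x : ↥(FHbar M c H), V.valuation x < 1 →
      RedTo A (x : LaurentSeries Kbar) 0 := by
    intro x hlt
    have h1 : x ∈ V := (V.valuation_le_one_iff _).mp hlt.le
    have h2 : (⟨x, h1⟩ : ↥V) ∈ IsLocalRing.maximalIdeal ↥V :=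
      (V.valuation_lt_one_iff _).mpr hlt
    rw [← gaussResF_eq_zero_iff A hL] at h2
    exact ⟨h1, h2⟩
  have hTred : ∀ (f : ↥(FHbar M c H)) (y y' : LaurentSeries (kV A)),
      RedTo A (f : LaurentSeries Kbar) y →
      RedTo A ((hd.dd.ρ d₀ f : ↥(FHbar M c H)) : LaurentSeries Kbar) y' →
      RedTo A ((Fermat.Agent.S48.B2.R.H31.traceT hd.hβ f : ↥(FHbar M c H)) : LaurentSeries Kbar)
        (qExpand (kV A) r y + (r : kV A) • H44.descend r y') := by
    intro f y y' h h'
    rw [Fermat.Agent.S48.B2.R.H31.coe_traceT hd hc2 hc hr hrM d₀ hrd.symm f]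
    exact redTo_add (h.qExp r) (redTo_smul_descend hζ h')
  have hirr3 : ∀ (t t' : ↥(modularFunctionFieldBar M)) (y : LaurentSeries (kV A)),
      RedTo A ((inclBar M c H t : ↥(FHbar M c H)) : LaurentSeries Kbar) y →
      RedTo A ((inclBar M c H t' : ↥(FHbar M c H)) : LaurentSeries Kbar) (qExpand (kV A) r y) →
      coeffOne (kV A) y = 0 := by
    intro t t' y h1 h2
    rw [coe_inclBar] at h1 h2
    have m1 := mem_redField_of_redTo (hasScale_laurentBaseChange A M) t.2 h1
    have m2 := mem_redField_of_redTo (hasScale_laurentBaseChange A M) t'.2 h2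
    obtain ⟨a, rfl⟩ := h3 M p r hp hr hpM hrpM A hA y m1 m2
    simp
  have he : ∀ d : (ZMod c)ˣ, ∃ y : LaurentSeries (kV A),
      RedTo A ((hd.dd.ρ d (genBar M c H 1) : ↥(FHbar M c H)) : LaurentSeries Kbar) y ∧
      coeffOne (kV A) y = if hd.dd.ρ d = 1 then 1 else 0 := by
    intro d
    rw [hd.dd.gen d 1, one_mul]
    obtain ⟨y, hy, hc1⟩ := redTo_genBar A M c H d
    refine ⟨y, hy, ?_⟩
    rw [coeffOne_apply, hc1]
    by_cases h : d ∈ H ∨ -d ∈ H
    · rw [if_pos h, if_pos ((hd.dd.ker d).2 h)]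
    · rw [if_neg h, if_neg (fun h' => h ((hd.dd.ker d).1 h'))]
  have key := irr_core (inclBar M c H) hd.dd.ρ hd.dd.fix hd.dd.fixed V harch
    (R := LaurentSeries (kV A)) (κ := kV A)
    (fun x y => RedTo A (x : LaurentSeries Kbar) y) hRedV hRedlt
    (fun x x' y y' h h' => redTo_add h h')
    (fun x x' y y' h h' => redTo_sub h h')
    (coeffOne (kV A))
    ((qExpand (kV A) r : LaurentSeries (kV A) →+* LaurentSeries (kV A)) :
      LaurentSeries (kV A) →+ LaurentSeries (kV A))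
    (fun y => (r : kV A) • H44.descend r y)
    (fun f => Fermat.Agent.S48.B2.R.H31.traceT hd.hβ f) d₀
    (fun d f => Fermat.Agent.S48.B2.R.H31.traceT_rho hd d f)
    (fun t => by
      obtain ⟨t', ht'⟩ := Fermat.Agent.S48.B2.R.H31.traceT_incl hd t
      exact ⟨t', ht'.symm⟩)
    hTred hirr3 (genBar M c H 1) he
  have hfin := key x ((V.valuation_le_one_iff x).2 hx)
  rw [diamondData_rho_eq dd hd.dd d₀ x]
  exact (V.valuation_le_one_iff _).1 hfin

/-- **R-IRR**, unconditionally. -/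
theorem stmt_RIRR : Stmt_RIRR := stmt_RIRR_of Fermat.Agent.S48.B2.R.H96.stmt_Irr3

end Fermat.Agent.S48.B2.R.H25
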