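/-
S48 (row 43), mountain B, part B2, slice R: **R-IRR** in the form of `R/Defs.lean` (helper25).
`stmt_IrrH : R.Stmt_IrrH`, UNCONDITIONAL: for `q ∤ M` and `A | q` the diamond operators preserve the
Gauss valuation ring of `F_H(M)`.
-/
import Fermat.Agent.S48.B2.R.Defs
import Fermat.Agent.S48.B2.R.H25_IrrAsm

set_option autoImplicit false

namespace Fermat.Agent.S48.B2.R.H25

/-- **R-IRR**, unconditionally, in the form of `R/Defs.lean`. -/
theorem stmt_IrrH : Fermat.Agent.S48.B2.R.Stmt_IrrH := by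
  intro M c H hc2 hc hM q hq hqM A hA dd d f hf
  haveI : NeZero M := ⟨hM⟩
  exact stmt_RIRR M c H hc2 hc q hq hqM A hA dd d f hf

end Fermat.Agent.S48.B2.R.H25
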