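import Fermat.Agent.NEB.H94_FF
import Fermat.Agent.NEB.H84_Ker
import Fermat.Agent.RED.H73_GAHauptInt

/-!
# S48 B2, slice R (helper31): the reduction of the generators `e_{±aH}` of `F_H(M)`

For every valuation ring `A` of `ℚ̄` (any residue characteristic):

* `genBar_mem_gaussValSub` : `e_{±aH}` lies in the Gauss valuation ring of `F_H(M)`;
* `gaussResF_genBar`       : its reduction is the integral series `e_{±aH}` mod `A`;
* `coeff_zero_red_genBar`  : the constant term of the reduction is `0`;
* `coeff_one_red_genBar`   : the `q¹`-coefficient of the reduction is `1` if `a ∈ ±H`, else `0`;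
* `one_mem_cosetSet_iff`   : `1 ∈ ±aH ↔ a ∈ H ∨ -a ∈ H`.
-/

set_option autoImplicit false
set_option linter.unusedSectionVars false
set_option linter.style.haveILetI false
set_option synthInstance.maxHeartbeats 400000
set_option maxHeartbeats 1000000

open ModularCurve AlgebraicCurve IntermediateField

noncomputable section

namespace Fermat.Agent.S48.B2.R.H31

open Fermat.Agent.NEB Fermat.Agent.RED Fermat.Agent.RED.H73 Fermat.Agent.S28.H73

section Coeff

variable {c : ℕ}

theorem eisCoeff_zero_jh (S : Set (ZMod c)) : eisCoeff c S 0 = 0 := by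
  classical
  rw [eisCoeff]
  simp

theorem coeff_zero_eisQuot (S : Set (ZMod c)) : PowerSeries.coeff 0 (eisQuot c S) = 0 := by
  rw [eisQuot, PowerSeries.coeff_zero_eq_constantCoeff, map_mul]
  have : PowerSeries.constantCoeff (eisNum c S) = 0 := by
    rw [← PowerSeries.coeff_zero_eq_constantCoeff_apply, eisNum, PowerSeries.coeff_mk,
      eisCoeff_zero_jh]
  rw [this, zero_mul]

open scoped Classical in
theorem coeff_one_eisQuot (S : Set (ZMod c)) :
    PowerSeries.coeff 1 (eisQuot c S) = if (1 : ZMod c) ∈ S then 1 else 0 := by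
  rw [eisQuot, PowerSeries.coeff_mul, Finset.Nat.antidiagonal_succ]
  simp only [Finset.Nat.antidiagonal_zero, Finset.map_singleton, Function.Embedding.coe_prodMap,
    Function.Embedding.coeFn_mk, Prod.map_apply, Nat.succ_eq_add_one, zero_add,
    Function.Embedding.refl_apply, Finset.sum_cons, Finset.sum_singleton]
  have h0 : PowerSeries.coeff 0 (eisNum c S) = 0 := by
    rw [eisNum, PowerSeries.coeff_mk, eisCoeff_zero_jh]
  have h1 : PowerSeries.coeff 1 (eisNum c S) = if (1 : ZMod c) ∈ S then 1 else 0 := by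
    rw [eisNum, PowerSeries.coeff_mk, Fermat.Agent.NEB.H84.eisCoeff_one]
  have h2 : PowerSeries.coeff 0 (eisenstein4.invOfUnit 1) = 1 := by
    rw [PowerSeries.coeff_zero_eq_constantCoeff_apply, PowerSeries.constantCoeff_invOfUnit]
    simp
  rw [h0, h1, h2, zero_mul, zero_add, mul_one]

theorem one_mem_cosetSet_iff (H : Subgroup (ZMod c)ˣ) (a : (ZMod c)ˣ) :
    (1 : ZMod c) ∈ cosetSet c H a ↔ (a ∈ H ∨ -a ∈ H) := by
  constructor
  · rintro ⟨h, hh, h1 | h1⟩
    · left
      have e : a * h = 1 := Units.ext h1.symm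
      have : a = h⁻¹ := eq_inv_of_mul_eq_one_left e
      rw [this]
      exact H.inv_mem hh
    · right
      have e : -a * h = 1 := by
        apply Units.ext
        rw [neg_mul, Units.val_neg, Units.val_one]
        exact h1.symm
      have : -a = h⁻¹ := eq_inv_of_mul_eq_one_left e
      rw [this]
      exact H.inv_mem hh
  · rintro (ha | ha)
    · refine ⟨a⁻¹, H.inv_mem ha, Or.inl ?_⟩
      rw [mul_inv_cancel, Units.val_one]
    · refine ⟨(-a)⁻¹, H.inv_mem ha, Or.inr ?_⟩
      rw [inv_neg, mul_neg, mul_inv_cancel, Units.val_neg, Units.val_one, neg_neg]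

end Coeff

section Red

variable (M c : ℕ) (H : Subgroup (ZMod c)ˣ) (A : ValuationSubring Kbar)

theorem coe_genBar_eq (a : (ZMod c)ˣ) :
    ((genBar M c H a : ↥(FHbar M c H)) : LaurentSeries Kbar)
      = coeffMap (Int.castRingHom Kbar)
          (HahnSeries.ofPowerSeries ℤ ℤ (eisQuot c (cosetSet c H a))) :=
  Fermat.Agent.NEB.H94.coeffEmb_ofPowerSeries_int _

/-- The generators are Gauss-integral. -/
theorem genBar_mem_gaussValSub (a : (ZMod c)ˣ) :
    genBar M c H a ∈ gaussValSub A (FHbar M c H) (Fermat.Agent.NEB.H94.hasScale_FHbar A M c H) := by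
  show ((genBar M c H a : ↥(FHbar M c H)) : LaurentSeries Kbar) ∈ gaussRingV A
  rw [coe_genBar_eq]
  exact (coeffMap_int_mem_gaussRingV A _).1

/-- The reduction of a generator is the same integral series, mod `A`. -/
theorem gaussResF_genBar (a : (ZMod c)ˣ) :
    gaussResF A (Fermat.Agent.NEB.H94.hasScale_FHbar A M c H)
        ⟨genBar M c H a, genBar_mem_gaussValSub M c H A a⟩
      = coeffMap (Int.castRingHom (kV A))
          (HahnSeries.ofPowerSeries ℤ ℤ (eisQuot c (cosetSet c H a))) := by
  rw [gaussResF_apply]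
  obtain ⟨hx, hred⟩ := coeffMap_int_mem_gaussRingV A
    (HahnSeries.ofPowerSeries ℤ ℤ (eisQuot c (cosetSet c H a)))
  rw [← hred]
  congr 1
  exact Subtype.ext (coe_genBar_eq M c H a)

theorem coeff_zero_red_genBar (a : (ZMod c)ˣ) :
    (gaussResF A (Fermat.Agent.NEB.H94.hasScale_FHbar A M c H)
        ⟨genBar M c H a, genBar_mem_gaussValSub M c H A a⟩).coeff 0 = 0 := by
  rw [gaussResF_genBar, coeffMap_coeff]
  have h := HahnSeries.ofPowerSeries_apply_coeff (Γ := ℤ) (R := ℤ)
    (eisQuot c (cosetSet c H a)) 0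
  rw [Nat.cast_zero] at h
  rw [h, coeff_zero_eisQuot, map_zero]

open scoped Classical in
/-- The `q¹`-coefficient of the reduction of `e_{±aH}` is `1` if `a ∈ ±H` and `0` otherwise. -/
theorem coeff_one_red_genBar (a : (ZMod c)ˣ) :
    (gaussResF A (Fermat.Agent.NEB.H94.hasScale_FHbar A M c H)
        ⟨genBar M c H a, genBar_mem_gaussValSub M c H A a⟩).coeff 1
      = if (a ∈ H ∨ -a ∈ H) then 1 else 0 := by
  rw [gaussResF_genBar, coeffMap_coeff]
  have h := HahnSeries.ofPowerSeries_apply_coeff (Γ := ℤ) (R := ℤ)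
    (eisQuot c (cosetSet c H a)) 1
  rw [Nat.cast_one] at h
  rw [h, coeff_one_eisQuot]
  by_cases ha : (a ∈ H ∨ -a ∈ H)
  · rw [if_pos ha, if_pos ((one_mem_cosetSet_iff H a).mpr ha)]
    simp
  · rw [if_neg ha, if_neg (fun h1 => ha ((one_mem_cosetSet_iff H a).mp h1))]
    simp

end Red

end Fermat.Agent.S48.B2.R.H31
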