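import Fermat.Agent.S48.B2.R.H31_RFF
import Fermat.Agent.S48.B2.R.H31_GenCoeff
import Fermat.Agent.NEB.H14_JHDefs

/-!
# S48 B2, slice R, leaf R-DEG (helper31): the residue degree of the Gauss valuation of `F_H(M)`

Hypothesis **IRR** (`IrrAt M c H dd A`): the Gauss valuation ring `V_H` of `F_H(M)` at `A` is stable
under the diamond operators `dd.ρ d`.

Exact statement of the leaf (`Stmt_RDeg`, proved by `stmt_RDeg`): for `2 ≤ c`, `c ∣ M`, `M ≠ 0`,
`A` a valuation ring of `ℚ̄`, `dd : DiamondData M c H` with `IrrAt M c H dd A`: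

* `[κ_H : κ_0] = [(ℤ/c)ˣ : ±H] = [F_H(M) : F₀(M)]`   (`κ` = `redField`);
* `κ_H / κ_0` is Galois (in particular separable), for the algebra structure along the inclusion.

Proof: the diamond operators act on `κ_H` (`resAction`), trivially on `κ_0`; the action of
`(ℤ/c)ˣ / ±H` is faithful because the reductions of the generators `e_{±aH}` have `q¹`-coefficient
`[a ∈ ±H]` (`H31_GenCoeff`); so `|Δ| ≤ |Aut(κ_H/κ_0)| ≤ [κ_H : κ_0] ≤ [F_H : F₀] = |Δ|`
(the last inequality is `f ≤ n`, `H31_RFF`).
-/

set_option autoImplicit false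
set_option linter.unusedSectionVars false
set_option linter.style.haveILetI false
set_option synthInstance.maxHeartbeats 400000
set_option maxHeartbeats 1000000

open ModularCurve AlgebraicCurve IntermediateField

noncomputable section

namespace Fermat.Agent.S48.B2.R.H31

open Fermat.Agent.NEB Fermat.Agent.NEB.JH Fermat.Agent.RED Fermat.Agent.RED.H73
  Fermat.Agent.S28.H73

/-! ## 1. Abstract: the action on the residue field -/

section Abstract

variable {K0 L κ : Type*} [Field K0] [Field L] [Algebra K0 L] [Field κ]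
  (V : ValuationSubring L) (red : ↥V →+* κ)
  {G : Type*} [Group G] (ρ : G →* (L ≃ₐ[K0] L))
  (hV : ∀ g (x : L), x ∈ V → ρ g x ∈ V)

/-- The restriction of `ρ g` to the stable valuation ring `V`. -/
def resV (g : G) : ↥V →+* ↥V where
  toFun x := ⟨ρ g x, hV g x x.2⟩
  map_one' := Subtype.ext (map_one (ρ g))
  map_mul' x y := Subtype.ext (map_mul (ρ g) (x : L) (y : L))
  map_zero' := Subtype.ext (map_zero (ρ g))
  map_add' x y := Subtype.ext (map_add (ρ g) (x : L) (y : L))

theorem coe_resV (g : G) (x : ↥V) : ((resV V ρ hV g x : ↥V) : L) = ρ g x := rfl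

theorem resV_one (x : ↥V) : resV V ρ hV 1 x = x := by
  apply Subtype.ext
  rw [coe_resV, map_one]
  rfl

theorem resV_mul (g g' : G) (x : ↥V) :
    resV V ρ hV (g * g') x = resV V ρ hV g (resV V ρ hV g' x) := by
  apply Subtype.ext
  rw [coe_resV, coe_resV, coe_resV, map_mul]
  rfl

theorem resV_inv (g : G) (x : ↥V) : resV V ρ hV g⁻¹ (resV V ρ hV g x) = x := by
  rw [← resV_mul, inv_mul_cancel, resV_one]

variable (hsurj : Function.Surjective red) (hker : ∀ x : ↥V, red x = 0 ↔ ¬ IsUnit x)

include hker in
theorem red_resV_eq_zero (g : G) (x : ↥V) (hx : red x = 0) : red (resV V ρ hV g x) = 0 := by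
  rw [hker] at hx ⊢
  intro hu
  apply hx
  have := hu.map (resV V ρ hV g⁻¹)
  rwa [resV_inv] at this

/-- The endomorphism of the residue field induced by `ρ g`. -/
def resHom (g : G) : κ →+* κ :=
  RingHom.liftOfRightInverse red (Function.surjInv hsurj) (Function.rightInverse_surjInv hsurj)
    ⟨red.comp (resV V ρ hV g), fun x hx => by
      rw [RingHom.mem_ker] at hx ⊢
      exact red_resV_eq_zero V red ρ hV hker g x hx⟩

theorem resHom_red (g : G) (x : ↥V) :
    resHom V red ρ hV hsurj hker g (red x) = red (resV V ρ hV g x) :=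
  RingHom.liftOfRightInverse_comp_apply _ _ _ _ x

theorem resHom_comp_inv (g : G) :
    (resHom V red ρ hV hsurj hker g).comp (resHom V red ρ hV hsurj hker g⁻¹) = RingHom.id κ := by
  ext y
  obtain ⟨x, rfl⟩ := hsurj y
  rw [RingHom.comp_apply, resHom_red, resHom_red, RingHom.id_apply]
  have := resV_inv V ρ hV g⁻¹ x
  rw [inv_inv] at this
  rw [this]

/-- The automorphism of the residue field induced by `ρ g`. -/
def resAut (g : G) : κ ≃+* κ :=
  RingEquiv.ofRingHom (resHom V red ρ hV hsurj hker g) (resHom V red ρ hV hsurj hker g⁻¹)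
    (resHom_comp_inv V red ρ hV hsurj hker g)
    (by
      have := resHom_comp_inv V red ρ hV hsurj hker g⁻¹
      rwa [inv_inv] at this)

theorem resAut_red (g : G) (x : ↥V) :
    resAut V red ρ hV hsurj hker g (red x) = red (resV V ρ hV g x) :=
  resHom_red V red ρ hV hsurj hker g x

/-- **The action on the residue field** of a group acting on a field and stabilising a valuation
ring. -/
def resAction : G →* (κ ≃+* κ) where
  toFun := resAut V red ρ hV hsurj hker
  map_one' := by
    ext y
    obtain ⟨x, rfl⟩ := hsurj y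
    rw [resAut_red, resV_one]
    rfl
  map_mul' g g' := by
    ext y
    obtain ⟨x, rfl⟩ := hsurj y
    rw [resAut_red, resV_mul]
    show _ = resAut V red ρ hV hsurj hker g (resAut V red ρ hV hsurj hker g' (red x))
    rw [resAut_red, resAut_red]

theorem resAction_red (g : G) (x : ↥V) :
    resAction V red ρ hV hsurj hker g (red x) = red (resV V ρ hV g x) :=
  resAut_red V red ρ hV hsurj hker g x

end Abstract

/-! ## 2. Abstract: counting -/

section Count

/-- If a group acts on `K` by `k₀`-automorphisms through a quotient of order `≥ n ≥ [K : k₀]`, then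
`[K : k₀] = n` and `K / k₀` is Galois. -/
theorem galois_of_ringAction {k0 K : Type*} [Field k0] [Field K] [Algebra k0 K]
    [FiniteDimensional k0 K] {G : Type*} [Group G] (r : G →* (K ≃+* K))
    (hfix : ∀ g (a : k0), r g (algebraMap k0 K a) = algebraMap k0 K a)
    (n : ℕ) (hn : Module.finrank k0 K ≤ n) (hidx : n ≤ r.ker.index) :
    Module.finrank k0 K = n ∧ IsGalois k0 K := by
  let r' : G →* (K ≃ₐ[k0] K) :=
    { toFun := fun g => AlgEquiv.ofRingEquiv (f := r g) (hfix g)
      map_one' := by
        ext y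
        show r 1 y = y
        rw [map_one]
        rfl
      map_mul' := fun g g' => by
        ext y
        show r (g * g') y = r g (r g' y)
        rw [map_mul]
        rfl }
  have hker : r'.ker = r.ker := by
    ext g
    rw [MonoidHom.mem_ker, MonoidHom.mem_ker]
    constructor
    · intro h
      ext y
      exact congrArg (fun f : K ≃ₐ[k0] K => f y) h
    · intro h
      ext y
      exact congrArg (fun f : K ≃+* K => f y) h
  have h1 : r.ker.index = Nat.card r'.range := by
    rw [← hker]
    exact Subgroup.index_ker r'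
  have h2 : Nat.card r'.range ≤ Nat.card (K ≃ₐ[k0] K) := Subgroup.card_le_card_group r'.range
  have h3 : Nat.card (K ≃ₐ[k0] K) ≤ Module.finrank k0 K := by
    rw [Nat.card_eq_fintype_card]
    exact AlgEquiv.card_le
  have h4 : Module.finrank k0 K = n := by omega
  refine ⟨h4, IsGalois.of_card_aut_eq_finrank k0 K ?_⟩
  omega

end Count

/-! ## 3. The field `F_H(M)` -/

section FH

variable (M c : ℕ) (H : Subgroup (ZMod c)ˣ) (A : ValuationSubring Kbar)

/-- **IRR**: the Gauss valuation ring of `F_H(M)` at `A` is stable under the diamond operators. -/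
def IrrAt (dd : DiamondData M c H) : Prop :=
  ∀ (d : (ZMod c)ˣ) (f : ↥(FHbar M c H)),
    f ∈ gaussValSub A (FHbar M c H) (Fermat.Agent.NEB.H94.hasScale_FHbar A M c H) →
      dd.ρ d f ∈ gaussValSub A (FHbar M c H) (Fermat.Agent.NEB.H94.hasScale_FHbar A M c H)

variable {M c H A}

theorem gaussResF'_eq_zero_iff (x : ↥(gaussValSub A (FHbar M c H)
    (Fermat.Agent.NEB.H94.hasScale_FHbar A M c H))) :
    gaussResF' A (Fermat.Agent.NEB.H94.hasScale_FHbar A M c H) x = 0 ↔ ¬ IsUnit x := by
  rw [isUnit_iff_gaussResF_ne_zero A (Fermat.Agent.NEB.H94.hasScale_FHbar A M c H), not_not]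
  constructor
  · intro h0
    exact congrArg Subtype.val h0
  · intro h0
    exact Subtype.ext h0

/-- The diamond operators on the residue field `κ_H` of the Gauss valuation. -/
def diamondRed (dd : DiamondData M c H) (hirr : IrrAt M c H A dd) :
    (ZMod c)ˣ →* (↥(redField A (FHbar M c H) (Fermat.Agent.NEB.H94.hasScale_FHbar A M c H))
      ≃+* ↥(redField A (FHbar M c H) (Fermat.Agent.NEB.H94.hasScale_FHbar A M c H))) :=
  resAction (gaussValSub A (FHbar M c H) (Fermat.Agent.NEB.H94.hasScale_FHbar A M c H))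
    (gaussResF' A (Fermat.Agent.NEB.H94.hasScale_FHbar A M c H)) dd.ρ hirr
    (gaussResF'_surjective A _) gaussResF'_eq_zero_iff

/-- `⟨d⟩~ (red x) = red (⟨d⟩ x)`. -/
theorem diamondRed_red (dd : DiamondData M c H) (hirr : IrrAt M c H A dd) (d : (ZMod c)ˣ)
    (x : ↥(gaussValSub A (FHbar M c H) (Fermat.Agent.NEB.H94.hasScale_FHbar A M c H))) :
    diamondRed dd hirr d (gaussResF' A _ x) = gaussResF' A _ ⟨dd.ρ d x, hirr d x x.2⟩ :=
  resAction_red _ _ _ _ _ _ d x

theorem coe_gaussResF'_jh {C : Type} [Field C] (O : ValuationSubring C)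
    {F : IntermediateField C (LaurentSeries C)} (h : HasScale O F) (x : ↥(gaussValSub O F h)) :
    ((gaussResF' O h x : ↥(redField O F h)) : LaurentSeries (kV O)) = gaussResF O h x := rfl

theorem inclBar_mem_gaussValSub (x : ↥(modularFunctionFieldBar M))
    (hx : x ∈ gaussValSub A (modularFunctionFieldBar M) (hasScale_laurentBaseChange A M)) :
    inclBar M c H x ∈ gaussValSub A (FHbar M c H)
      (Fermat.Agent.NEB.H94.hasScale_FHbar A M c H) := by
  rw [mem_gaussValSub_iff, coe_inclBar]
  exact (mem_gaussValSub_iff A _ x).1 hx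

/-- Reduction is compatible with the inclusion `F₀(M) ⊆ F_H(M)`. -/
theorem incl_gaussResF' (x : ↥(gaussValSub A (modularFunctionFieldBar M)
    (hasScale_laurentBaseChange A M))) :
    IntermediateField.inclusion
      (H51.redField_mono A (bar_le_FHbar M c H) (hasScale_laurentBaseChange A M)
        (Fermat.Agent.NEB.H94.hasScale_FHbar A M c H))
        (gaussResF' A (hasScale_laurentBaseChange A M) x)
      = gaussResF' A (Fermat.Agent.NEB.H94.hasScale_FHbar A M c H)
          ⟨inclBar M c H (x : ↥(modularFunctionFieldBar M)),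
            inclBar_mem_gaussValSub (x : ↥(modularFunctionFieldBar M)) x.2⟩ := by
  apply Subtype.ext
  rw [IntermediateField.coe_inclusion, coe_gaussResF'_jh, coe_gaussResF'_jh, gaussResF_apply,
    gaussResF_apply]
  exact congrArg (gaussRedV A) (Subtype.ext (coe_inclBar M c H _).symm)

/-- The diamond operators on `κ_H` fix `κ_0`. -/
theorem diamondRed_incl (dd : DiamondData M c H) (hirr : IrrAt M c H A dd) (d : (ZMod c)ˣ)
    (y : ↥(redField A (modularFunctionFieldBar M) (hasScale_laurentBaseChange A M))) :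
    diamondRed dd hirr d (IntermediateField.inclusion
      (H51.redField_mono A (bar_le_FHbar M c H) (hasScale_laurentBaseChange A M)
        (Fermat.Agent.NEB.H94.hasScale_FHbar A M c H)) y)
      = IntermediateField.inclusion
      (H51.redField_mono A (bar_le_FHbar M c H) (hasScale_laurentBaseChange A M)
        (Fermat.Agent.NEB.H94.hasScale_FHbar A M c H)) y := by
  obtain ⟨x, rfl⟩ := gaussResF'_surjective A (hasScale_laurentBaseChange A M) y
  rw [incl_gaussResF', diamondRed_red]
  exact congrArg (gaussResF' A (Fermat.Agent.NEB.H94.hasScale_FHbar A M c H))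
    (Subtype.ext (dd.fix d (x : ↥(modularFunctionFieldBar M))))

/-- The action of the diamond operators on `κ_H` is faithful modulo `±H`. -/
theorem diamondRed_ker_le (dd : DiamondData M c H) (hirr : IrrAt M c H A dd) :
    (diamondRed dd hirr).ker ≤ Fermat.Agent.NEB.H94.pmSubgroup c H := by
  classical
  intro d hd
  rw [MonoidHom.mem_ker] at hd
  have h1 := congrArg (fun f : (↥(redField A (FHbar M c H)
      (Fermat.Agent.NEB.H94.hasScale_FHbar A M c H)) ≃+* _) =>
      f (gaussResF' A _ ⟨genBar M c H 1, genBar_mem_gaussValSub M c H A 1⟩)) hd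
  simp only [diamondRed_red] at h1
  have h2 := congrArg (fun y : ↥(redField A (FHbar M c H)
      (Fermat.Agent.NEB.H94.hasScale_FHbar A M c H)) =>
      ((y : LaurentSeries (kV A))).coeff 1) h1
  have e1 : (⟨dd.ρ d (genBar M c H 1), hirr d _ (genBar_mem_gaussValSub M c H A 1)⟩ :
      ↥(gaussValSub A (FHbar M c H) (Fermat.Agent.NEB.H94.hasScale_FHbar A M c H)))
      = ⟨genBar M c H d, genBar_mem_gaussValSub M c H A d⟩ := by
    apply Subtype.ext
    show dd.ρ d (genBar M c H 1) = genBar M c H d
    rw [dd.gen, one_mul]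
  rw [e1] at h2
  have h3 := coeff_one_red_genBar M c H A d
  have h4 := coeff_one_red_genBar M c H A 1
  rw [if_pos (Or.inl H.one_mem)] at h4
  have h5 : (gaussResF A (Fermat.Agent.NEB.H94.hasScale_FHbar A M c H)
        ⟨genBar M c H d, genBar_mem_gaussValSub M c H A d⟩).coeff 1 = 1 := by
    rw [← h4]
    exact h2
  rw [h3] at h5
  by_contra hcon
  rw [if_neg (fun h => hcon (Fermat.Agent.NEB.H94.mem_pmSubgroup.mpr h))] at h5
  exact zero_ne_one h5

/-- **R-DEG**: under IRR, `[κ_H : κ_0] = [(ℤ/c)ˣ : ±H] = [F_H : F₀]` and `κ_H/κ_0` is Galois. -/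
theorem rdeg (hc2 : 2 ≤ c) (hc : c ∣ M) (hM : M ≠ 0) (dd : DiamondData M c H)
    (hirr : IrrAt M c H A dd) :
    (redField A (modularFunctionFieldBar M) (hasScale_laurentBaseChange A M)).relfinrank
        (redField A (FHbar M c H) (Fermat.Agent.NEB.H94.hasScale_FHbar A M c H))
      = (Fermat.Agent.NEB.H94.pmSubgroup c H).index ∧
    (redField A (modularFunctionFieldBar M) (hasScale_laurentBaseChange A M)).relfinrank
        (redField A (FHbar M c H) (Fermat.Agent.NEB.H94.hasScale_FHbar A M c H))
      = (modularFunctionFieldBar M).relfinrank (FHbar M c H) ∧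
    (letI := algebraAlong (IntermediateField.inclusion
      (H51.redField_mono A (bar_le_FHbar M c H) (hasScale_laurentBaseChange A M)
        (Fermat.Agent.NEB.H94.hasScale_FHbar A M c H)))
     IsGalois ↥(redField A (modularFunctionFieldBar M) (hasScale_laurentBaseChange A M))
      ↥(redField A (FHbar M c H) (Fermat.Agent.NEB.H94.hasScale_FHbar A M c H))) := by
  letI a2 := algebraAlong (IntermediateField.inclusion
      (H51.redField_mono A (bar_le_FHbar M c H) (hasScale_laurentBaseChange A M)
        (Fermat.Agent.NEB.H94.hasScale_FHbar A M c H)))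
  obtain ⟨hfin, hle⟩ := relfinrank_red_FH_le M c H hc2 hc hM A
  haveI : FiniteDimensional
      ↥(redField A (modularFunctionFieldBar M) (hasScale_laurentBaseChange A M))
      ↥(redField A (FHbar M c H) (Fermat.Agent.NEB.H94.hasScale_FHbar A M c H)) := hfin
  haveI : NeZero c := ⟨by omega⟩
  have hidx : (Fermat.Agent.NEB.H94.pmSubgroup c H).index ≤ (diamondRed dd hirr).ker.index := by
    have h1 := Subgroup.index_dvd_of_le (diamondRed_ker_le dd hirr)
    exact Nat.le_of_dvd (Nat.pos_of_ne_zero Subgroup.index_ne_zero_of_finite) h1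
  have hn : Module.finrank
      ↥(redField A (modularFunctionFieldBar M) (hasScale_laurentBaseChange A M))
      ↥(redField A (FHbar M c H) (Fermat.Agent.NEB.H94.hasScale_FHbar A M c H))
      ≤ (Fermat.Agent.NEB.H94.pmSubgroup c H).index := by
    rw [H51.finrank_along_inclusion]
    exact hle
  obtain ⟨h1, h2⟩ := galois_of_ringAction (diamondRed dd hirr)
    (fun d a => diamondRed_incl dd hirr d a) _ hn hidx
  rw [H51.finrank_along_inclusion] at h1
  refine ⟨h1, ?_, h2⟩
  rw [h1, ← H51.finrank_along_inclusion (bar_le_FHbar M c H)]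
  exact (Fermat.Agent.NEB.H94.finrankAlong_inclBar M c H hc2 hc hM
    (Fermat.Agent.NEB.H84.stmt_FH_gal M c H)).symm

end FH

/-! ## 4. The statement of the leaf -/

/-- **R-DEG**. -/
def Stmt_RDeg : Prop :=
  ∀ (M c : ℕ) (H : Subgroup (ZMod c)ˣ), 2 ≤ c → c ∣ M → M ≠ 0 →
    ∀ (A : ValuationSubring Kbar) (dd : DiamondData M c H), IrrAt M c H A dd →
    (redField A (modularFunctionFieldBar M) (hasScale_laurentBaseChange A M)).relfinrank
        (redField A (FHbar M c H) (Fermat.Agent.NEB.H94.hasScale_FHbar A M c H))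
      = (modularFunctionFieldBar M).relfinrank (FHbar M c H) ∧
    (letI := algebraAlong (IntermediateField.inclusion
      (H51.redField_mono A (bar_le_FHbar M c H) (hasScale_laurentBaseChange A M)
        (Fermat.Agent.NEB.H94.hasScale_FHbar A M c H)))
     IsGalois ↥(redField A (modularFunctionFieldBar M) (hasScale_laurentBaseChange A M))
      ↥(redField A (FHbar M c H) (Fermat.Agent.NEB.H94.hasScale_FHbar A M c H)))

theorem stmt_RDeg : Stmt_RDeg := by
  intro M c H hc2 hc hM A dd hirr
  obtain ⟨-, h2, h3⟩ := rdeg hc2 hc hM dd hirr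
  exact ⟨h2, h3⟩

end Fermat.Agent.S48.B2.R.H31
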