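import Fermat.Agent.S48.B2.R.Defs
import Fermat.Agent.S48.B2.R.H25_IrrH
import Fermat.Agent.S48.B2.R.H31_RDeg

/-!
# S48 B2, slice R (helper31): R-FF and R-DEG in the form of `R/Defs.lean`

* `stmt_RFF_defs  : R.Stmt_RFF`  (unconditional);
* `stmt_RDeg_defs : R.Stmt_RDeg` (unconditional: IRR is helper25's `H25.stmt_IrrH`):
  `[κ_H : κ_0] = [(ℤ/c)ˣ : ±H]` and every element of `κ_H` is separable over `κ_0`.
-/

set_option autoImplicit false
set_option linter.unusedSectionVars false
set_option linter.style.haveILetI false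
set_option synthInstance.maxHeartbeats 400000
set_option maxHeartbeats 1000000

open ModularCurve AlgebraicCurve IntermediateField

noncomputable section

namespace Fermat.Agent.S48.B2.R.H31

open Fermat.Agent.NEB Fermat.Agent.NEB.JH Fermat.Agent.RED Fermat.Agent.RED.H73
  Fermat.Agent.S28.H73

/-- **R-FF**, in the form of `R/Defs.lean`. -/
theorem stmt_RFF_defs : Fermat.Agent.S48.B2.R.Stmt_RFF :=
  fun M c H hc2 hc hM q hq hqM A hA => stmt_RFF M c H hc2 hc hM q hq hqM A hA

/-- Separability along an inclusion of intermediate fields, elementwise in the ambient field. -/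
theorem isSeparable_of_along {k E : Type*} [Field k] [Field E] [Algebra k E]
    {κ κ' : IntermediateField k E} (hκ : κ ≤ κ')
    (hsep : letI := algebraAlong (IntermediateField.inclusion hκ)
      Algebra.IsSeparable ↥κ ↥κ') (y : E) (hy : y ∈ κ') : IsSeparable ↥κ y := by
  letI := algebraAlong (IntermediateField.inclusion hκ)
  have h1 : IsSeparable ↥κ (⟨y, hy⟩ : ↥κ') := Algebra.IsSeparable.isSeparable ↥κ _
  let ψ : ↥κ' →ₐ[↥κ] E :=
    { κ'.val.toRingHom with
      commutes' := fun a => rfl }
  have h2 := minpoly.algHom_eq ψ ψ.injective (⟨y, hy⟩ : ↥κ')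
  have h3 : ψ (⟨y, hy⟩ : ↥κ') = y := rfl
  rw [h3] at h2
  unfold IsSeparable at h1 ⊢
  rw [h2]
  exact h1

/-- **R-DEG**, in the form of `R/Defs.lean`, unconditionally. -/
theorem stmt_RDeg_defs : Fermat.Agent.S48.B2.R.Stmt_RDeg := by
  intro M c H hc2 hc hM q hq hqM A hA
  haveI : NeZero M := ⟨hM⟩
  have dd : DiamondData M c H := Fermat.Agent.NEB.JH.diamondData M c H hc2 hc
  have hirr : IrrAt M c H A dd := fun d f hf =>
    Fermat.Agent.S48.B2.R.H25.stmt_IrrH M c H hc2 hc hM q hq hqM A hA dd d f hf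
  obtain ⟨h1, -, h3⟩ := rdeg hc2 hc hM dd hirr
  refine ⟨h1, fun y hy => ?_⟩
  refine isSeparable_of_along (H51.redField_mono A (bar_le_FHbar M c H)
    (hasScale_laurentBaseChange A M) (Fermat.Agent.NEB.H94.hasScale_FHbar A M c H)) ?_ y hy
  letI := algebraAlong (IntermediateField.inclusion
      (H51.redField_mono A (bar_le_FHbar M c H) (hasScale_laurentBaseChange A M)
        (Fermat.Agent.NEB.H94.hasScale_FHbar A M c H)))
  haveI := h3
  infer_instance

end Fermat.Agent.S48.B2.R.H31
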