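import Fermat.Agent.NEB.H94_FF
import Fermat.Agent.NEB.H84_Fix
import Fermat.Agent.BAD.H82_FrGauss
import Fermat.Agent.RED.H51_NDFinal
import Fermat.Agent.RED.H73_GAFinal

/-!
# S48 B2, slice R, leaf R-FF (helper31): the residue field of the Gauss valuation of `F_H(M)`
is a function field of one variable

Exact statement of the leaf (`Stmt_RFF`, proved by `stmt_RFF`): for `2 ≤ c`, `c ∣ M`, `M ≠ 0`,
a prime `p ∤ M` and a valuation ring `A` of `ℚ̄` over `p`,

  `IsFF (kV A) (redField A (FHbar M c H) (hasScale_FHbar A M c H))`,

together with the inequality `f ≤ n` (`relfinrank_red_FH_le`):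

  `[κ_H : κ_0] ≤ [F_H(M) : F₀(M)]`, `κ_H/κ_0` finite.

Generic part (`finiteAlong_redField`): for fields of series `F ≤ F'` over any valued field
`(C, O)` with the scaling property and `F'/F` finite, the residue field of the Gauss valuation
of `F'` is finite over the one of `F`, of degree `≤ [F' : F]`.
-/

set_option autoImplicit false
set_option linter.unusedSectionVars false
set_option linter.style.haveILetI false
set_option synthInstance.maxHeartbeats 400000
set_option maxHeartbeats 1000000

open ModularCurve AlgebraicCurve IntermediateField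

noncomputable section

namespace Fermat.Agent.S48.B2.R.H31

open Fermat.Agent.NEB Fermat.Agent.RED Fermat.Agent.RED.H73 Fermat.Agent.S28.H73

/-! ## 1. Generic: `f ≤ n` for the Gauss valuation -/

section Generic

variable {C : Type} [Field C] (O : ValuationSubring C)
variable {F F' : IntermediateField C (LaurentSeries C)} (hle : F ≤ F')
variable (h : HasScale O F) (h' : HasScale O F')

/-- A finite family of elements of `F~'`, linearly independent over `F~`, has at most `[F' : F]`
elements. -/
theorem card_le_of_linearIndependent_red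
    (hfin : FiniteAlong C (IntermediateField.inclusion hle))
    (s : Finset ↥(redField O F' h'))
    (hs : letI := algebraAlong (IntermediateField.inclusion (H51.redField_mono O hle h h'))
      LinearIndependent ↥(redField O F h) (fun i : s => (i : ↥(redField O F' h')))) :
    s.card ≤ F.relfinrank F' := by
  classical
  letI a1 := algebraAlong (IntermediateField.inclusion hle)
  letI a2 := algebraAlong (IntermediateField.inclusion (H51.redField_mono O hle h h'))
  haveI : Module.Finite ↥F ↥F' := hfin
  -- lifts
  have hex : ∀ i : s, ∃ x : ↥(gaussValSub O F' h'),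
      gaussResF O h' x = ((i : ↥(redField O F' h')) : LaurentSeries (kV O)) :=
    fun i => (i : ↥(redField O F' h')).2
  choose u hu using hex
  let E : Subfield ↥F' := F.toSubfield.comap (algebraMap ↥F' (LaurentSeries C))
  have hE : ∀ (α : ↥F') (_ : α ∈ E) (hV : α ∈ gaussValSub O F' h'),
      gaussResF O h' ⟨α, hV⟩ ∈ (redField O F h).toSubfield := by
    intro α hα hV
    exact ⟨⟨⟨(α : LaurentSeries C), hα⟩, hV⟩, rfl⟩
  have hli1 : LinearIndependent ↥(redField O F h).toSubfield
      (fun i => gaussResF O h' (u i)) := by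
    rw [Fintype.linearIndependent_iff] at hs ⊢
    intro g hg i
    have h1 := hs (fun i => (⟨((g i : ↥(redField O F h).toSubfield) : LaurentSeries (kV O)),
      (g i).2⟩ : ↥(redField O F h))) (by
        apply Subtype.ext
        have h2 : ((∑ i : s, (⟨((g i : ↥(redField O F h).toSubfield) : LaurentSeries (kV O)),
            (g i).2⟩ : ↥(redField O F h)) • ((i : ↥(redField O F' h'))) : ↥(redField O F' h'))
              : LaurentSeries (kV O))
            = ∑ i : s, ((g i : ↥(redField O F h).toSubfield) : LaurentSeries (kV O))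
                * gaussResF O h' (u i) := by
          rw [← IntermediateField.coe_val, map_sum]
          refine Finset.sum_congr rfl fun i _ => ?_
          rw [hu i]
          rfl
        rw [h2]
        exact hg) i
    exact Subtype.ext (congrArg Subtype.val h1)
  have hli2 := Fermat.Agent.BAD.H82.linearIndependent_of_red E (gaussValSub O F' h')
    (gaussResF O h') (redField O F h).toSubfield hE u hli1
  have hli3 : LinearIndependent ↥F (fun i => ((u i : ↥(gaussValSub O F' h')) : ↥F')) := by
    rw [Fintype.linearIndependent_iff] at hli2 ⊢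
    intro g hg i
    have h1 := hli2 (fun i => (⟨IntermediateField.inclusion hle (g i), (g i).2⟩ : ↥E)) hg i
    apply Subtype.ext
    exact congrArg (fun z : ↥E => ((z : ↥F') : LaurentSeries C)) h1
  have h4 := hli3.fintype_card_le_finrank
  rw [Fintype.card_coe] at h4
  rwa [H51.finrank_along_inclusion hle] at h4

/-- **`f ≤ n` for the Gauss valuation**: if `F'/F` is finite, then `F~'/F~` is finite and
`[F~' : F~] ≤ [F' : F]`. -/
theorem finiteAlong_redField (hfin : FiniteAlong C (IntermediateField.inclusion hle)) :
    FiniteAlong (kV O) (IntermediateField.inclusion (H51.redField_mono O hle h h')) ∧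
      (redField O F h).relfinrank (redField O F' h') ≤ F.relfinrank F' := by
  letI a2 := algebraAlong (IntermediateField.inclusion (H51.redField_mono O hle h h'))
  have hrank : Module.rank ↥(redField O F h) ↥(redField O F' h')
      ≤ ((F.relfinrank F' : ℕ) : Cardinal) :=
    rank_le fun s hs => card_le_of_linearIndependent_red O hle h h' hfin s hs
  have hfinκ : Module.Finite ↥(redField O F h) ↥(redField O F' h') :=
    Module.rank_lt_aleph0_iff.mp (lt_of_le_of_lt hrank (Cardinal.natCast_lt_aleph0))
  refine ⟨hfinκ, ?_⟩
  rw [← H51.finrank_along_inclusion (H51.redField_mono O hle h h')]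
  exact Module.finrank_le_of_rank_le hrank

/-- If `F'/F` is finite and `F~` is a function field of one variable, so is `F~'`. -/
theorem isFF_redField_of_le (hfin : FiniteAlong C (IntermediateField.inclusion hle))
    (hFF : IsFF (kV O) ↥(redField O F h)) : IsFF (kV O) ↥(redField O F' h') :=
  Fermat.Agent.NEB.H94.isFF_of_finiteAlong hFF
    (IntermediateField.inclusion (H51.redField_mono O hle h h'))
    (finiteAlong_redField O hle h h' hfin).1

end Generic

/-! ## 2. The field `F_H(M)` -/

section FH

variable (M c : ℕ) (H : Subgroup (ZMod c)ˣ)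

/-- `[κ_H : κ_0] ≤ [F_H(M) : F₀(M)] = [(ℤ/c)ˣ : ±H]`, and `κ_H/κ_0` is finite. -/
theorem relfinrank_red_FH_le (hc2 : 2 ≤ c) (hc : c ∣ M) (hM : M ≠ 0)
    (A : ValuationSubring Kbar) :
    FiniteAlong (kV A) (IntermediateField.inclusion
      (H51.redField_mono A (bar_le_FHbar M c H) (hasScale_laurentBaseChange A M)
        (Fermat.Agent.NEB.H94.hasScale_FHbar A M c H))) ∧
    (redField A (modularFunctionFieldBar M) (hasScale_laurentBaseChange A M)).relfinrank
        (redField A (FHbar M c H) (Fermat.Agent.NEB.H94.hasScale_FHbar A M c H))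
      ≤ (Fermat.Agent.NEB.H94.pmSubgroup c H).index := by
  have hfin : FiniteAlong Kbar (IntermediateField.inclusion (bar_le_FHbar M c H)) :=
    Fermat.Agent.NEB.H94.finiteAlong_inclBar M c H hc2 hc hM
      (Fermat.Agent.NEB.H84.stmt_FH_gal M c H)
  have h1 := finiteAlong_redField A (bar_le_FHbar M c H) (hasScale_laurentBaseChange A M)
    (Fermat.Agent.NEB.H94.hasScale_FHbar A M c H) hfin
  refine ⟨h1.1, h1.2.trans (le_of_eq ?_)⟩
  rw [← H51.finrank_along_inclusion (bar_le_FHbar M c H)]
  exact Fermat.Agent.NEB.H94.finrankAlong_inclBar M c H hc2 hc hM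
    (Fermat.Agent.NEB.H84.stmt_FH_gal M c H)

/-- **R-FF**: the residue field of the Gauss valuation of `F_H(M)` at `A | p`, `p ∤ M`, is a
function field of one variable over the residue field of `A`. -/
theorem isFF_red_FH [NeZero M] (hc2 : 2 ≤ c) (hc : c ∣ M) {p : ℕ} (hp : p.Prime)
    (hpM : ¬ p ∣ M) (A : ValuationSubring Kbar) (hA : A.LiesOverPrime p) :
    IsFF (kV A) ↥(redField A (FHbar M c H) (Fermat.Agent.NEB.H94.hasScale_FHbar A M c H)) :=
  isFF_redField_of_le A (bar_le_FHbar M c H) (hasScale_laurentBaseChange A M)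
    (Fermat.Agent.NEB.H94.hasScale_FHbar A M c H)
    (Fermat.Agent.NEB.H94.finiteAlong_inclBar M c H hc2 hc (NeZero.ne M)
      (Fermat.Agent.NEB.H84.stmt_FH_gal M c H))
    (isFF_redField_bar M p hp hpM A hA)

end FH

/-! ## 3. The statement of the leaf -/

/-- **R-FF**. -/
def Stmt_RFF : Prop :=
  ∀ (M c : ℕ) (H : Subgroup (ZMod c)ˣ), 2 ≤ c → c ∣ M → M ≠ 0 →
    ∀ p : ℕ, p.Prime → ¬ p ∣ M → ∀ A : ValuationSubring Kbar, A.LiesOverPrime p →
      IsFF (kV A) ↥(redField A (FHbar M c H) (Fermat.Agent.NEB.H94.hasScale_FHbar A M c H))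

theorem stmt_RFF : Stmt_RFF := by
  intro M c H hc2 hc hM p hp hpM A hA
  haveI : NeZero M := ⟨hM⟩
  exact isFF_red_FH M c H hc2 hc hp hpM A hA

end Fermat.Agent.S48.B2.R.H31
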