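import Fermat.Agent.S48.B2.R.H34_Brup
import Fermat.Agent.NEB.H34_Unr
import Fermat.Agent.NEB.H84_Fix
import Fermat.Agent.RED.H76_IGModj

/-!
# S48, B2, slice R, leaf R-BR for the chart `j` (helper34)

Under `NEB.UnrCond M c H` the branch values of `j` (and of `1/j`) on `F_H(M) · ℚ̄` are those on
`F₀(M) · ℚ̄`: `0` and `1728` (resp. `0`, `1/1728`).

* `finite_adjoin_map` : `F'` is finite over `K(φ x)` if `F'/φ F` and `F / K(x)` are finite.
* `isBranchValue_map_jF` : a branch value of `φ j` on ANY unramified finite extension of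
  `F₀(M) · ℚ̄` is `0` or `1728`; `isBranchValue_map_jF_inv`.
* `isBranchValue_jFH`, `isBranchValue_jFH_inv` : the case `F' = F_H(M)`.
-/

set_option autoImplicit false
set_option linter.style.haveILetI false
set_option synthInstance.maxHeartbeats 400000
set_option maxHeartbeats 1000000

noncomputable section

open AlgebraicCurve IntermediateField

namespace Fermat.Agent.S48.B2.R.H34

open Fermat.Agent.RED.H34 Fermat.Agent.RED.H51 Fermat.Agent.RED.H76
open Fermat.Agent.S24 (Kbar FN)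
open ModularCurve

section Generic

variable {K F F' : Type} [Field K] [Field F] [Field F'] [Algebra K F] [Algebra K F']

/-- Finiteness over `K(φ x)`. -/
theorem finite_adjoin_map (φ : F →ₐ[K] F') (hφ : FiniteAlong K φ) (x : F)
    [hfin : Module.Finite ↥K⟮x⟯ F] : Module.Finite ↥K⟮φ x⟯ F' := by
  letI := algebraAlong φ
  haveI := isScalarTower_along φ
  haveI : Module.Finite F F' := hφ
  letI : Algebra ↥K⟮x⟯ F' := ((algebraMap F F').comp (algebraMap ↥K⟮x⟯ F)).toAlgebra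
  haveI : IsScalarTower ↥K⟮x⟯ F F' := IsScalarTower.of_algebraMap_eq fun _ => rfl
  haveI : Module.Finite ↥K⟮x⟯ F' := Module.Finite.trans F F'
  have hmem : ∀ y : ↥K⟮x⟯, φ (y : F) ∈ K⟮φ x⟯ := by
    intro y
    have h1 : (K⟮x⟯).map φ = K⟮φ x⟯ := by
      rw [IntermediateField.adjoin_map, Set.image_singleton]
    rw [← h1]
    exact ⟨(y : F), y.2, rfl⟩
  let e : ↥K⟮x⟯ →+* ↥K⟮φ x⟯ :=
    { toFun := fun y => ⟨φ (y : F), hmem y⟩
      map_one' := Subtype.ext (by simp)
      map_mul' := fun a b => Subtype.ext (by simp)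
      map_zero' := Subtype.ext (by simp)
      map_add' := fun a b => Subtype.ext (by simp) }
  letI : Algebra ↥K⟮x⟯ ↥K⟮φ x⟯ := e.toAlgebra
  haveI : IsScalarTower ↥K⟮x⟯ ↥K⟮φ x⟯ F' := IsScalarTower.of_algebraMap_eq fun _ => rfl
  exact Module.Finite.of_restrictScalars_finite ↥K⟮x⟯ ↥K⟮φ x⟯ F'

theorem isIntegral_of_finiteAlong (φ : F →ₐ[K] F') (hφ : FiniteAlong K φ) :
    φ.toRingHom.IsIntegral := by
  letI := algebraAlong φ
  haveI : Module.Finite F F' := hφ
  intro y
  exact IsIntegral.of_finite F y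

end Generic

section Modular

variable (N : ℕ) [NeZero N] {F' : Type} [Field F'] [Algebra Kbar F']

/-- The branch values of `j` on an unramified finite extension of `F₀(N) · ℚ̄`. -/
theorem isBranchValue_map_jF (φ : ↥(modularFunctionFieldBar N) →ₐ[Kbar] F')
    (hφ : FiniteAlong Kbar φ)
    (hunr : ∀ w : Place Kbar F', ∃ t : ↥(modularFunctionFieldBar N), w.ord (φ t) = 1)
    {ρ : Kbar} (h : IsBranchValue (φ (Fermat.Agent.RED.H73.jF (L := Kbar) N)) ρ) :
    ρ = 0 ∨ ρ = 1728 := by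
  haveI := finiteDimensional_jF N
  haveI : FiniteDimensional ↥Kbar⟮φ (Fermat.Agent.RED.H73.jF (L := Kbar) N)⟯ F' :=
    finite_adjoin_map φ hφ _
  exact isBranchValue_jF N
    (brup φ (isIntegral_of_finiteAlong φ hφ) hunr _ (transcendental_jF N) ρ h)

/-- The branch values of `1/j` on an unramified finite extension of `F₀(N) · ℚ̄`. -/
theorem isBranchValue_map_jF_inv (φ : ↥(modularFunctionFieldBar N) →ₐ[Kbar] F')
    (hφ : FiniteAlong Kbar φ)
    (hunr : ∀ w : Place Kbar F', ∃ t : ↥(modularFunctionFieldBar N), w.ord (φ t) = 1)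
    {ρ : Kbar} (h : IsBranchValue (φ (Fermat.Agent.RED.H73.jF (L := Kbar) N))⁻¹ ρ) :
    ρ = 0 ∨ ρ = (1728 : Kbar)⁻¹ := by
  haveI := finiteDimensional_jF N
  haveI := finiteDimensional_adjoin_simple_inv (K := Kbar) (Fermat.Agent.RED.H73.jF (L := Kbar) N)
  haveI : FiniteDimensional ↥Kbar⟮φ (Fermat.Agent.RED.H73.jF (L := Kbar) N)⁻¹⟯ F' :=
    finite_adjoin_map φ hφ _
  rw [← map_inv₀] at h
  exact isBranchValue_jF_inv N
    (brup φ (isIntegral_of_finiteAlong φ hφ) hunr _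
      (transcendental_inv (transcendental_jF N)) ρ h)

end Modular

section FH

open Fermat.Agent.NEB (UnrCond inclBar)

variable (M c : ℕ) [NeZero M] (H : Subgroup (ZMod c)ˣ)

/-- **R-BR, chart `j`**: under `UnrCond`, the branch values of `j` on `F_H(M) · ℚ̄` are among
`0`, `1728`. -/
theorem isBranchValue_jFH (hc2 : 2 ≤ c) (hcM : c ∣ M) (hU : UnrCond M c H) {ρ : Kbar}
    (h : IsBranchValue (inclBar M c H (Fermat.Agent.RED.H73.jF (L := Kbar) M)) ρ) :
    ρ = 0 ∨ ρ = 1728 :=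
  isBranchValue_map_jF M (inclBar M c H)
    (Fermat.Agent.NEB.H94.finiteAlong_inclBar M c H hc2 hcM (NeZero.ne M)
      (Fermat.Agent.NEB.H84.stmt_FH_gal M c H))
    (Fermat.Agent.NEB.H34.fh_unr c M H hc2 hcM (NeZero.ne M) hU) h

/-- **R-BR, chart `1/j`**. -/
theorem isBranchValue_jFH_inv (hc2 : 2 ≤ c) (hcM : c ∣ M) (hU : UnrCond M c H) {ρ : Kbar}
    (h : IsBranchValue (inclBar M c H (Fermat.Agent.RED.H73.jF (L := Kbar) M))⁻¹ ρ) :
    ρ = 0 ∨ ρ = (1728 : Kbar)⁻¹ :=
  isBranchValue_map_jF_inv M (inclBar M c H)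
    (Fermat.Agent.NEB.H94.finiteAlong_inclBar M c H hc2 hcM (NeZero.ne M)
      (Fermat.Agent.NEB.H84.stmt_FH_gal M c H))
    (Fermat.Agent.NEB.H34.fh_unr c M H hc2 hcM (NeZero.ne M) hU) h

end FH

end Fermat.Agent.S48.B2.R.H34
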