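import Fermat.Agent.S48.B2.R.Defs
import Fermat.Agent.S48.B2.R.H34_BranchH

/-!
# S48, B2, slice R, leaf R-BR (helper34): `stmt_BRH : Stmt_BRH`

Under `UnrCond` the branch values of a function of `F₀(M)` on `F_H(M)` are branch values on
`F₀(M)` (`NEB.H34.fh_unr` + `H34.brup`).
-/

set_option autoImplicit false
set_option linter.style.haveILetI false
set_option synthInstance.maxHeartbeats 400000
set_option maxHeartbeats 1000000

noncomputable section

open AlgebraicCurve IntermediateField ModularCurve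

namespace Fermat.Agent.S48.B2.R.H34

open Fermat.Agent.RED.H34 Fermat.Agent.RED.H76

/-- **R-BR**. -/
theorem stmt_BRH : Fermat.Agent.S48.B2.R.Stmt_BRH := by
  intro M c H hc2 hcM hM hU x hx ρ h
  haveI : NeZero M := ⟨hM⟩
  have hfinφ := Fermat.Agent.NEB.H94.finiteAlong_inclBar M c H hc2 hcM hM
    (Fermat.Agent.NEB.H84.stmt_FH_gal M c H)
  haveI := finiteDimensional_jF M
  haveI : FiniteDimensional ↥(Fermat.Agent.S24.Kbar)⟮x⟯ ↥(modularFunctionFieldBar M) :=
    Fermat.Agent.S24.ff_finite_of_transcendental _ (transcendental_jF M) x hx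
  haveI : FiniteDimensional
      ↥(Fermat.Agent.S24.Kbar)⟮Fermat.Agent.NEB.inclBar M c H x⟯
      ↥(Fermat.Agent.NEB.FHbar M c H) :=
    finite_adjoin_map (Fermat.Agent.NEB.inclBar M c H) hfinφ x
  exact brup (Fermat.Agent.NEB.inclBar M c H) (isIntegral_of_finiteAlong _ hfinφ)
    (Fermat.Agent.NEB.H34.fh_unr c M H hc2 hcM hM hU) x hx ρ h

end Fermat.Agent.S48.B2.R.H34
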