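import Fermat.Agent.S48.B2.R.H32_Wire
import Fermat.Agent.S48.B2.R.H34_BRH
import Fermat.Agent.RED.H76_GoodChartJ

/-!
# S48, B2, slice R: the Deuring datum for `F_H(M)` (helper32)

`drh_of : Stmt_RFF → Stmt_RDeg → Stmt_Chart → Stmt_Chart0 → Stmt_DRH`: at a level with `UnrCond`
the chart `inclBar x` of `F_H(M)` (`x` a good chart of `F₀(M)`) is good: the five "pre" fields by
CHART, the branch values by R-BR; then `RED.H79.hasDR_of_goodCharts`.
-/

set_option autoImplicit false
set_option linter.style.haveILetI false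
set_option synthInstance.maxHeartbeats 400000
set_option maxHeartbeats 1000000

noncomputable section

namespace Fermat.Agent.S48.B2.R.H32

open AlgebraicCurve ModularCurve IntermediateField
open Fermat.Agent.NEB Fermat.Agent.NEB.JH Fermat.Agent.RED
open Fermat.Agent.S28.H73 Fermat.Agent.RED.H73 Fermat.Agent.RED.H34

section Consts

variable {C : Type} [Field C] (O : ValuationSubring C)
variable {F : IntermediateField C (LaurentSeries C)} (h : HasScale O F)

/-- The constants of the Gauss valuation ring are `O`. -/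
theorem const_mem (ρ : ↥((redSetting O h).V.comap (algebraMap C ↥F))) : (ρ : C) ∈ O :=
  (algebraMap_mem_gaussValSub_iff O h (ρ : C)).1 ρ.2

/-- The residue map on constants is the residue map of `O`. -/
theorem resO_eq_resV (ρ : ↥((redSetting O h).V.comap (algebraMap C ↥F))) :
    (redSetting O h).resO ρ = resV O ⟨(ρ : C), const_mem O h ρ⟩ := rfl

/-- Transfer of "distinct modulo the maximal ideal" between two fields with the same
constants. -/
theorem distinct_transfer {F' : IntermediateField C (LaurentSeries C)} (h' : HasScale O F')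
    (P : C → Prop) (P' : C → Prop) (hPP : ∀ ρ, P' ρ → P ρ)
    (hD : ∀ ρ ρ' : ↥((redSetting O h).V.comap (algebraMap C ↥F)),
      P (ρ : C) → P (ρ' : C) → (redSetting O h).resO ρ = (redSetting O h).resO ρ' → ρ = ρ')
    (ρ ρ' : ↥((redSetting O h').V.comap (algebraMap C ↥F')))
    (hρ : P' (ρ : C)) (hρ' : P' (ρ' : C))
    (hres : (redSetting O h').resO ρ = (redSetting O h').resO ρ') : ρ = ρ' := by
  rw [resO_eq_resV, resO_eq_resV] at hres
  have m1 : algebraMap C ↥F (ρ : C) ∈ (redSetting O h).V :=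
    (algebraMap_mem_gaussValSub_iff O h (ρ : C)).2 (const_mem O h' ρ)
  have m2 : algebraMap C ↥F (ρ' : C) ∈ (redSetting O h).V :=
    (algebraMap_mem_gaussValSub_iff O h (ρ' : C)).2 (const_mem O h' ρ')
  have key := hD ⟨(ρ : C), m1⟩ ⟨(ρ' : C), m2⟩ (hPP _ hρ) (hPP _ hρ') (by
    rw [resO_eq_resV, resO_eq_resV]
    exact hres)
  exact Subtype.ext (congrArg Subtype.val key)

end Consts

/-- **R-DR** from R-FF, R-DEG, CHART, CHART0 (and R-BR). -/
theorem drh_of (hFF : Stmt_RFF) (hRD : Stmt_RDeg) (hCh : Stmt_Chart) (hC0 : Stmt_Chart0) :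
    Stmt_DRH := by
  intro M c H hc2 hc hM hU q hq hqM ht A hA
  haveI : NeZero M := ⟨hM⟩
  haveI : IsAlgClosed (kV A) := isAlgClosed_kV A
  obtain ⟨x, hx, hxinv, pre, hD, hD'⟩ := hC0 M q hq hqM ht A hA
  obtain ⟨hx', h1, h2, h3, h4, h5⟩ :=
    hCh hRD M c H hc2 hc hM q hq hqM A hA x hx pre.transc pre.fin pre.deg pre.sept
  have hxinv' : (inclBar M c H x)⁻¹
      ∈ (redSetting A (Fermat.Agent.NEB.H94.hasScale_FHbar A M c H)).V :=
    Fermat.Agent.RED.H76.inv_mem_of_red_ne_zero _ hx'
      (Fermat.Agent.RED.H76.red_ne_zero_of_transcendental _ hx' h1)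
  have hxtr : Transcendental Kbar x :=
    Fermat.Agent.RED.H34.RedSetting.transcendental_x hx pre.transc
  have hxinvtr : Transcendental Kbar x⁻¹ := Fermat.Agent.RED.H76.transcendental_inv hxtr
  have hinv : (inclBar M c H x)⁻¹ = inclBar M c H x⁻¹ := (map_inv₀ (inclBar M c H) x).symm
  have GC : Fermat.Agent.RED.H79.GoodChart
      (redSetting A (Fermat.Agent.NEB.H94.hasScale_FHbar A M c H)) (inclBar M c H x) hx' :=
    Fermat.Agent.RED.H76.goodChart_of _ hx' h1 h2 h3 h4 h5
      (distinct_transfer A (hasScale_laurentBaseChange A M)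
        (Fermat.Agent.NEB.H94.hasScale_FHbar A M c H)
        (fun ρ => IsBranchValue x ρ) (fun ρ => IsBranchValue (inclBar M c H x) ρ)
        (fun ρ hρ => Fermat.Agent.S48.B2.R.H34.stmt_BRH M c H hc2 hc hM hU x hxtr ρ hρ) hD)
  have GC' : Fermat.Agent.RED.H79.GoodChart
      (redSetting A (Fermat.Agent.NEB.H94.hasScale_FHbar A M c H)) (inclBar M c H x)⁻¹ hxinv' :=
    Fermat.Agent.RED.H76.goodChart_inv_of _ hx' hxinv' h1 h2 h3 h4 h5
      (distinct_transfer A (hasScale_laurentBaseChange A M)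
        (Fermat.Agent.NEB.H94.hasScale_FHbar A M c H)
        (fun ρ => IsBranchValue x⁻¹ ρ) (fun ρ => IsBranchValue (inclBar M c H x)⁻¹ ρ)
        (fun ρ hρ => Fermat.Agent.S48.B2.R.H34.stmt_BRH M c H hc2 hc hM hU x⁻¹ hxinvtr ρ
          (by rw [← hinv]; exact hρ)) hD')
  exact Fermat.Agent.RED.H79.hasDR_of_goodCharts A (Fermat.Agent.NEB.H94.hasScale_FHbar A M c H)
    (isFF_FH M c H hc2 hc hM) (hFF M c H hc2 hc hM q hq hqM A hA)
    (inclBar M c H x) hx' hxinv' GC GC'

end Fermat.Agent.S48.B2.R.H32
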