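import Fermat.Agent.RED.Core
import Fermat.Prelude.Def_AlgebraicCurve_Correspondence

/-!
# S48, B2, slice R, leaf DESC (helper34): norm descent of the Kummer form of torsion injectivity

* `kummer_descent_norm` : `φ : F → F'` finite of degree `d`, `gcd(m, d) = 1`, `f ∈ F` with
  `φ f = t ^ m`, `t ∈ F'`  ⟹  `f = s ^ m`, `s ∈ F`   (`s = f^a N(t)^b`, `a m + b d = 1`).
* `ticoreAt_descent` : the Kummer form of torsion injectivity (`RED.TIcoreFor`, at ONE exponent
  `m`) descends from `F'` to `F ≤ F'` (both inside `C((q))`) if `gcd(m, [F' : F]) = 1`.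
-/

set_option autoImplicit false
set_option linter.style.haveILetI false
set_option synthInstance.maxHeartbeats 400000
set_option maxHeartbeats 1000000

noncomputable section

open AlgebraicCurve IntermediateField

namespace Fermat.Agent.S48.B2.R.H34

section Abstract

variable {K F F' : Type} [Field K] [Field F] [Field F'] [Algebra K F] [Algebra K F']

/-- **Kummer descent by the norm.** -/
theorem kummer_descent_norm (φ : F →ₐ[K] F') (hφ : FiniteAlong K φ) (m : ℕ)
    (hcop : Nat.Coprime m (finrankAlong K φ)) (f : F) (t : F') (ht : t ^ m = φ f) :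
    ∃ s : F, s ^ m = f := by
  letI := algebraAlong φ
  haveI : Module.Finite F F' := hφ
  by_cases hm : m = 0
  · refine ⟨1, ?_⟩
    rw [hm, pow_zero] at ht ⊢
    apply φ.toRingHom.injective
    show φ 1 = φ f
    rw [map_one, ← ht]
  by_cases hf : f = 0
  · exact ⟨0, by rw [zero_pow hm, hf]⟩
  set d : ℕ := Module.finrank F F' with hd
  have hd' : finrankAlong K φ = d := rfl
  rw [hd'] at hcop
  set N : F := Algebra.norm F t with hN
  have hNpow : N ^ m = f ^ d := by
    rw [hN, ← map_pow, ht]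
    exact Algebra.norm_algebraMap f
  have hbez : (m : ℤ) * Nat.gcdA m d + (d : ℤ) * Nat.gcdB m d = 1 := by
    have := Nat.gcd_eq_gcd_ab m d
    rw [hcop.gcd_eq_one] at this
    exact_mod_cast this.symm
  refine ⟨f ^ (Nat.gcdA m d) * N ^ (Nat.gcdB m d), ?_⟩
  have hN0 : N ≠ 0 := by
    intro h0
    rw [h0, zero_pow hm] at hNpow
    exact pow_ne_zero d hf hNpow.symm
  calc (f ^ (Nat.gcdA m d) * N ^ (Nat.gcdB m d)) ^ m
      = f ^ ((m : ℤ) * Nat.gcdA m d) * (N ^ m) ^ (Nat.gcdB m d) := by
        rw [mul_pow, ← zpow_natCast (f ^ Nat.gcdA m d), ← zpow_mul, mul_comm (Nat.gcdA m d),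
          ← zpow_natCast (N ^ Nat.gcdB m d), ← zpow_mul, ← zpow_natCast N m, ← zpow_mul,
          mul_comm (Nat.gcdB m d)]
    _ = f ^ ((m : ℤ) * Nat.gcdA m d) * f ^ ((d : ℤ) * Nat.gcdB m d) := by
        rw [hNpow, ← zpow_natCast f d, ← zpow_mul]
    _ = f := by
        rw [← zpow_add₀ hf, hbez, zpow_one]

end Abstract

section Gauss

open Fermat.Agent.RED Fermat.Agent.RED.H73 Fermat.Agent.S28.H73

variable {C : Type} [Field C] (O : ValuationSubring C)
variable {F F' : IntermediateField C (LaurentSeries C)}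

/-- The Kummer form of torsion injectivity at ONE exponent `m`. -/
def TIcoreAt (h : HasScale O F) (m : ℕ) : Prop :=
  ∀ f : ↥(gaussValSub O F h), gaussResF' O h f = 1 →
    (∀ P : Place C ↥F, (m : ℤ) ∣ P.ord (f : ↥F)) → ∃ t : ↥F, t ^ m = (f : ↥F)

theorem ticoreAt_of_ticoreFor (h : HasScale O F) (ℓ m : ℕ) (hm : ¬ ℓ ∣ m)
    (hTI : TIcoreFor O h ℓ) : TIcoreAt O h m :=
  fun f hf hord => hTI m hm f hf hord

/-- **DESC**: norm descent of the Kummer form of torsion injectivity from `F'` to `F ≤ F'`,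
`[F' : F]` prime to `m`. -/
theorem ticoreAt_descent (h : HasScale O F) (h' : HasScale O F') (hle : F ≤ F')
    (hfin : FiniteAlong C (IntermediateField.inclusion hle)) (m : ℕ)
    (hcop : Nat.Coprime m (finrankAlong C (IntermediateField.inclusion hle)))
    (hTI : TIcoreAt O h' m) : TIcoreAt O h m := by
  intro f hf hord
  set φ : ↥F →ₐ[C] ↥F' := IntermediateField.inclusion hle with hφ
  have hint : φ.toRingHom.IsIntegral := by
    letI := algebraAlong φ
    haveI : Module.Finite ↥F ↥F' := hfin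
    intro y
    exact IsIntegral.of_finite ↥F y
  -- the image of `f` in the Gauss ring of `F'`
  have hmem : φ (f : ↥F) ∈ gaussValSub O F' h' := by
    show ((φ (f : ↥F) : ↥F') : LaurentSeries C) ∈ gaussRingV O
    rw [hφ, IntermediateField.coe_inclusion]
    exact f.2
  have hres : gaussResF' O h' ⟨φ (f : ↥F), hmem⟩ = 1 := by
    apply Subtype.ext
    have h1 := congrArg Subtype.val hf
    exact h1
  have hord' : ∀ P : Place C ↥F', (m : ℤ) ∣ P.ord (φ (f : ↥F)) := by
    intro P
    rw [Place.ord_restrictAlong φ hint P]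
    exact Dvd.dvd.mul_left (hord _) _
  obtain ⟨t, ht⟩ := hTI ⟨φ (f : ↥F), hmem⟩ hres hord'
  exact kummer_descent_norm φ hfin m hcop (f : ↥F) t ht

end Gauss

end Fermat.Agent.S48.B2.R.H34
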