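import Fermat.Agent.S48.B2.R.Defs
import Fermat.Agent.S48.B2.R.H34_Desc
import Fermat.Agent.NEB.H84_Fix
import Fermat.Agent.RED.H73_GACard
import Fermat.Agent.RED.HR.H51_FinrankAlong

/-!
# S48, B2, slice R, leaf DESC (helper34): `stmt_Desc : Stmt_Desc`

* `finrankAlong_inclusion` : the degree along an inclusion of intermediate fields is the relative
  degree.
* `relfinrank_FH_level` : `ψ(M) · [F_H(M'') : F_H(M)] = ψ(M'')` for `M ∣ M''`.
* `stmt_Desc` : norm descent of the Kummer form of torsion injectivity from level `M''` to `M`.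
-/

set_option autoImplicit false
set_option linter.style.haveILetI false
set_option synthInstance.maxHeartbeats 400000
set_option maxHeartbeats 1000000

noncomputable section

open AlgebraicCurve IntermediateField ModularCurve

namespace Fermat.Agent.S48.B2.R.H34

open Fermat.Agent.NEB (FHbar inclBar alphaBar bar_le_FHbar laurentBaseChange_mono FHQ_mono_level)
open Fermat.Agent.RED Fermat.Agent.RED.H73 Fermat.Agent.S28.H73

local notation "Kb" => AlgebraicClosure ℚ

section Generic

variable {κ L : Type} [Field κ] [Field L] [Algebra κ L]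

/-- The degree along an inclusion is the relative degree. -/
theorem finrankAlong_inclusion {A B : IntermediateField κ L} (h : A ≤ B) :
    finrankAlong κ (IntermediateField.inclusion h) = A.relfinrank B := by
  have h1 := Fermat.Agent.RED.H51.finrankAlong_eq_relfinrank_map A B (AlgHom.id κ L)
    (IntermediateField.inclusion h) (fun x => rfl)
  rw [h1, IntermediateField.map_id]

theorem finiteAlong_of_finrankAlong_pos {F F' : Type} [Field F] [Field F'] [Algebra κ F]
    [Algebra κ F'] (φ : F →ₐ[κ] F') (h : 0 < finrankAlong κ φ) : FiniteAlong κ φ := by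
  letI := algebraAlong φ
  show Module.Finite F F'
  exact Module.finite_of_finrank_pos h

end Generic

section Level

variable (M c : ℕ) (H : Subgroup (ZMod c)ˣ)

/-- `ℚ̄(j)` inside `ℚ̄((q))`. -/
def Ej : IntermediateField Kb (LaurentSeries Kb) :=
  IntermediateField.adjoin Kb ({jqModC Kb} : Set (LaurentSeries Kb))

theorem Ej_le_bar : Ej ≤ modularFunctionFieldBar M := by
  unfold Ej
  rw [IntermediateField.adjoin_le_iff, Set.singleton_subset_iff]
  show jqModC Kb ∈ laurentBaseChange Kb (modularFunctionFieldFull M)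
  rw [laurentBaseChange_full_eq]
  exact jqModC_mem_full Kb M

theorem relfinrank_Ej_bar [NeZero M] : Ej.relfinrank (modularFunctionFieldBar M) = dedekindPsi M := by
  have h := relfinrank_fullC_bar M
  rw [← laurentBaseChange_full_eq] at h
  exact h

theorem relfinrank_bar_FH (hc2 : 2 ≤ c) (hcM : c ∣ M) (hM : M ≠ 0) :
    (modularFunctionFieldBar M).relfinrank (FHbar M c H)
      = (Fermat.Agent.NEB.H94.pmSubgroup c H).index := by
  rw [← Fermat.Agent.NEB.H94.finrankAlong_inclBar M c H hc2 hcM hM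
    (Fermat.Agent.NEB.H84.stmt_FH_gal M c H)]
  exact (finrankAlong_inclusion (bar_le_FHbar M c H)).symm

theorem bar_le_bar {M M'' : ℕ} (h : M ∣ M'') :
    modularFunctionFieldBar M ≤ modularFunctionFieldBar M'' := by
  have h1 : modularFunctionFieldFull M ≤ modularFunctionFieldFull M'' := by
    refine IntermediateField.adjoin.mono ℚ _ _ ?_
    rintro x ⟨d, hd0, hd, rfl⟩
    exact ⟨d, hd0, hd.trans h, rfl⟩
  exact laurentBaseChange_mono h1

/-- `ψ(M) · [F_H(M'') : F_H(M)] = ψ(M'')`. -/
theorem relfinrank_FH_level {M M'' : ℕ} (hc2 : 2 ≤ c) (hcM : c ∣ M) (hMM : M ∣ M'')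
    (hM'' : M'' ≠ 0) :
    dedekindPsi M * (FHbar M c H).relfinrank (FHbar M'' c H) = dedekindPsi M'' := by
  have hM : M ≠ 0 := by
    rintro rfl
    exact hM'' (zero_dvd_iff.mp hMM)
  haveI : NeZero M := ⟨hM⟩
  haveI : NeZero M'' := ⟨hM''⟩
  haveI : NeZero c := ⟨by omega⟩
  have hle1 : FHbar M c H ≤ FHbar M'' c H := laurentBaseChange_mono (FHQ_mono_level hMM c H)
  have e1 := relfinrank_mul_relfinrank (Ej_le_bar M) (bar_le_FHbar M c H)
  have e2 := relfinrank_mul_relfinrank ((Ej_le_bar M).trans (bar_le_FHbar M c H)) hle1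
  have e3 := relfinrank_mul_relfinrank (Ej_le_bar M'') (bar_le_FHbar M'' c H)
  rw [relfinrank_Ej_bar, relfinrank_bar_FH M c H hc2 hcM hM] at e1
  rw [relfinrank_Ej_bar, relfinrank_bar_FH M'' c H hc2 (hcM.trans hMM) hM''] at e3
  rw [← e1, ← e3] at e2
  have hidx : (Fermat.Agent.NEB.H94.pmSubgroup c H).index ≠ 0 :=
    Subgroup.index_ne_zero_of_finite
  have e4 : (Fermat.Agent.NEB.H94.pmSubgroup c H).index *
      (dedekindPsi M * (FHbar M c H).relfinrank (FHbar M'' c H))
      = (Fermat.Agent.NEB.H94.pmSubgroup c H).index * dedekindPsi M'' := by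
    rw [mul_comm _ (dedekindPsi M''), ← e2]
    ring
  exact Nat.eq_of_mul_eq_mul_left (Nat.pos_of_ne_zero hidx) e4

end Level

theorem dedekindPsi_pos34 (N : ℕ) [NeZero N] : 0 < dedekindPsi N := by
  rw [← Fermat.Agent.S20.H19.G1]
  exact Nat.pos_of_ne_zero Subgroup.FiniteIndex.index_ne_zero

/-- **DESC**. -/
theorem stmt_Desc : Fermat.Agent.S48.B2.R.Stmt_Desc := by
  intro M M'' c H hc2 hcM hMM hM'' d n hψ hcop q hq hqM hqn A hA hTI
  have hM : M ≠ 0 := by
    rintro rfl
    exact hM'' (zero_dvd_iff.mp hMM)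
  haveI : NeZero M := ⟨hM⟩
  haveI : NeZero M'' := ⟨hM''⟩
  have hle : FHbar M c H ≤ FHbar M'' c H := laurentBaseChange_mono (FHQ_mono_level hMM c H)
  have hdeg := relfinrank_FH_level c H hc2 hcM hMM hM''
  have hψM : 0 < dedekindPsi M := dedekindPsi_pos34 M
  have hψM'' : 0 < dedekindPsi M'' := dedekindPsi_pos34 M''
  have hd : (FHbar M c H).relfinrank (FHbar M'' c H) = d := by
    rw [hψ] at hdeg
    exact Nat.eq_of_mul_eq_mul_left hψM hdeg
  have hd0 : 0 < d := by
    rcases Nat.eq_zero_or_pos d with h0 | h0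
    · rw [h0, mul_zero] at hψ
      omega
    · exact h0
  have hfr : finrankAlong Kb (IntermediateField.inclusion hle) = d := by
    rw [finrankAlong_inclusion hle, hd]
  have hfin : FiniteAlong Kb (IntermediateField.inclusion hle) :=
    finiteAlong_of_finrankAlong_pos _ (by rw [hfr]; exact hd0)
  exact ticoreAt_descent A (Fermat.Agent.NEB.H94.hasScale_FHbar A M c H)
    (Fermat.Agent.NEB.H94.hasScale_FHbar A M'' c H) hle hfin n (by rw [hfr]; exact hcop.symm)
    (ticoreAt_of_ticoreFor A _ q n hqn hTI)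

end Fermat.Agent.S48.B2.R.H34
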