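import Fermat.Agent.S48.B2.R.Defs
import Fermat.Agent.RED.H76_DR2

/-!
# S48 B2, slice R, leaf CHART0 (helper96): the chart data of `F₀(M)` at the tame levels

`Stmt_Chart0` : for `q ∤ M` and `(q, M)` tame (`q ≥ 5`, or `q = 3 ∧ 2 ∣ M`, or `q = 2 ∧ 3 ∣ M`),
at every place `A ∣ q` there is a chart `x ∈ F₀(M)` with `x, x⁻¹` Gauss-integral, the five "pre"
fields, and branch values of `x` and of `x⁻¹` pairwise distinct modulo the maximal ideal.

* `q ≥ 5` : `x = j` (`RED.H73.goodChart_pre`, `RED.H76.branch_distinct_jF`, `_inv`);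
* `q = 3`, `2 ∣ M` : `x = h₂`;  `q = 2`, `3 ∣ M` : `x = h₃` — the first half of the proof of
  `RED.H76.hasDR_of_haupt_int` (helper76), with the `q`-series inputs `stmt_Haupt2`, `stmt_Haupt3`.
-/

set_option autoImplicit false
set_option linter.style.haveILetI false
set_option synthInstance.maxHeartbeats 400000
set_option maxHeartbeats 1000000

noncomputable section

open AlgebraicCurve IntermediateField Polynomial

namespace Fermat.Agent.S48.B2.R.H96C

open Fermat.Agent.NEB Fermat.Agent.RED Fermat.Agent.RED.H34 Fermat.Agent.RED.H79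
open ModularCurve Fermat.Agent.S28.H73 Fermat.Agent.RED.H73 Fermat.Agent.RED.H76
open Fermat.Agent.S48.B2.R

/-- The case `q ≥ 5`: the chart `j`. -/
theorem chartData0_five_le {M q : ℕ} [NeZero M] (hq : q.Prime) (hqM : ¬ q ∣ M) (h5 : 5 ≤ q)
    (A : ValuationSubring Kbar) (hA : A.LiesOverPrime q) : ChartData0 A M := by
  obtain ⟨h1, h2, h3, h4, h5'⟩ := goodChart_pre M q hq hqM A hA
  exact ⟨Fermat.Agent.RED.H73.jF (L := Kbar) M, jF_mem A M, jF_inv_mem M hq hqM A hA,
    ⟨h1, h2, h3, h4, h5'⟩, branch_distinct_jF M hq h5 A hA, branch_distinct_jF_inv M A⟩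

/-- **Generic assembly** (first half of `RED.H76.hasDR_of_haupt_int`): the chart data at level
`M` from a Hauptmodul of the sublevel `p ∣ M` given by identities over `ℤ`, when the candidate
branch values are `0` and a unit `c`. -/
theorem chartData0_of_haupt_int {p ℓ : ℕ} [NeZero p] (hp : p.Prime) {M : ℕ} [NeZero M]
    (hpM : p ∣ M) (hℓ : ℓ.Prime) (hℓM : ¬ ℓ ∣ M)
    (A : ValuationSubring Kbar) (hA : A.LiesOverPrime ℓ)
    (hZ : LaurentSeries ℤ) (hord : hZ.order < 0) (hlead : hZ.leadingCoeff = 1)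
    (P Q P' Q' : ℤ[X]) (hP : P.Monic) (hPd : P.natDegree = p + 1)
    (hQ : Q.Monic) (hQd : Q.natDegree < p + 1) (hQ' : Q'.Monic)
    (hPQ : aeval hZ P = jqModC ℤ * aeval hZ Q)
    (hPQ' : aeval hZ P' = qExpand ℤ p (jqModC ℤ) * aeval hZ Q')
    (c : Kbar) (hc : c ≠ 0) (hcA : c ∈ A) (hcinvA : c⁻¹ ∈ A)
    (hQroot : ∀ ρ : Kbar, (Q.map (Int.castRingHom Kbar)).eval ρ = 0 → ρ = 0)
    (hbr : ∀ ρ : Kbar, ρ ≠ 0 →
      (((P.map (Int.castRingHom Kbar)).eval ρ = 0 ∧
          ¬ (X - C ρ) ^ 2 ∣ P.map (Int.castRingHom Kbar)) ∨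
        ((P.map (Int.castRingHom Kbar)).eval ρ = 1728 * (Q.map (Int.castRingHom Kbar)).eval ρ ∧
          ¬ (X - C ρ) ^ 2 ∣
            P.map (Int.castRingHom Kbar) - C 1728 * Q.map (Int.castRingHom Kbar))) →
      ρ = c) :
    ChartData0 A M := by
  haveI : IsAlgClosed (kV A) := isAlgClosed_kV A
  have hM : ((M : Kbar))⁻¹ ∈ A := inv_natCast_mem_of_liesOver A M hℓ hℓM hA
  obtain ⟨x, hx, hx', hxcoe, -, G, G'⟩ :=
    chartPre_haupt_int hp hpM A hM hZ hord hlead P Q P' Q' hP hPd hQ hQd hQ' hPQ hPQ'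
  obtain ⟨i1, -⟩ := haupt_identities_map (p := p) Kbar hZ P Q P' Q' hPQ hPQ'
  -- the identity in `F_M`
  have hid : aeval x (P.map (Int.castRingHom Kbar))
      = Fermat.Agent.RED.H73.jF (L := Kbar) M * aeval x (Q.map (Int.castRingHom Kbar)) := by
    apply Subtype.ext
    have e : ∀ q : Kbar[X], ((aeval x q : ↥(laurentBaseChange Kbar (modularFunctionFieldFull M)))
        : LaurentSeries Kbar) = aeval (x : LaurentSeries Kbar) q := fun q =>
      (Polynomial.aeval_algHom_apply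
        (laurentBaseChange Kbar (modularFunctionFieldFull M)).val x q).symm
    rw [MulMemClass.coe_mul, e, e, hxcoe]
    exact i1
  have hxt : Transcendental Kbar x :=
    Fermat.Agent.RED.H34.RedSetting.transcendental_x hx G.transc
  haveI := G.fin
  -- `P - a Q ≠ 0`
  have hne : ∀ a : Kbar, P.map (Int.castRingHom Kbar) - C a * Q.map (Int.castRingHom Kbar)
      ≠ 0 := by
    intro a
    have hPm : (P.map (Int.castRingHom Kbar)).Monic := hP.map _
    have hdeg : (C a * Q.map (Int.castRingHom Kbar)).degree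
        < (P.map (Int.castRingHom Kbar)).degree := by
      refine degree_lt_degree (lt_of_le_of_lt (natDegree_C_mul_le a _) ?_)
      rw [hQ.natDegree_map, hP.natDegree_map, hPd]
      exact hQd
    exact (hPm.sub_of_left hdeg).ne_zero
  -- branch values of `x`
  have hbrx : ∀ ρ : Kbar, IsBranchValue x ρ → ρ = 0 ∨ ρ = c := by
    intro ρ hρ
    by_cases h0 : ρ = 0
    · exact Or.inl h0
    · right
      have hQρ : (Q.map (Int.castRingHom Kbar)).eval ρ ≠ 0 := fun h => h0 (hQroot ρ h)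
      exact hbr ρ h0 (branch_haupt M x hxt _ _ hid hne hQρ hρ)
  -- branch values of `1/x`
  have hbrx' : ∀ σ : Kbar, IsBranchValue x⁻¹ σ → σ = 0 ∨ σ = c⁻¹ := by
    intro σ hσ
    by_cases h0 : σ = 0
    · exact Or.inl h0
    · right
      have h1 := (isBranchValue_inv_iff x hxt h0).mp hσ
      rcases hbrx σ⁻¹ h1 with h2 | h2
      · exact absurd h2 (inv_ne_zero h0)
      · rw [← h2, inv_inv]
  exact ⟨x, hx, hx', G,
    fun ρ ρ' hρ hρ' hres =>
      eq_of_resO_eq_of_mem_pair A _ c hc hcinvA ρ ρ' (hbrx _ hρ) (hbrx _ hρ') hres,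
    fun ρ ρ' hρ hρ' hres =>
      eq_of_resO_eq_of_mem_pair A _ c⁻¹ (inv_ne_zero hc) (by rw [inv_inv]; exact hcA) ρ ρ'
        (hbrx' _ hρ) (hbrx' _ hρ') hres⟩

/-- The case `q = 3`, `2 ∣ M`: the chart `h₂`. -/
theorem chartData0_haupt2 {M : ℕ} [NeZero M] (h2M : 2 ∣ M) (h3M : ¬ 3 ∣ M)
    (A : ValuationSubring Kbar) (hA : A.LiesOverPrime 3) : ChartData0 A M := by
  obtain ⟨hZ, P', Q', hord, hlead, hQ', hPQ, hPQ'⟩ := stmt_Haupt2
  have hPmap : ((X + C 256) ^ 3 : ℤ[X]).map (Int.castRingHom Kbar) = (X + C 256) ^ 3 := by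
    simp only [Polynomial.map_pow, Polynomial.map_add, Polynomial.map_X, Polynomial.map_C]
    simp only [eq_intCast, Int.cast_ofNat]
  have hQmap : ((X ^ 2 : ℤ[X])).map (Int.castRingHom Kbar) = X ^ 2 := by
    simp [Polynomial.map_pow]
  refine chartData0_of_haupt_int (p := 2) Nat.prime_two h2M Nat.prime_three h3M A hA hZ hord
    hlead ((X + C 256) ^ 3) (X ^ 2) P' Q' ((monic_X_add_C 256).pow 3) ?_ (monic_X_pow 2) ?_ hQ'
    hPQ hPQ' (-64) (by norm_num) ?_ ?_ ?_ ?_
  · rw [(monic_X_add_C (256 : ℤ)).natDegree_pow, natDegree_X_add_C]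
  · rw [natDegree_X_pow]
    norm_num
  · have : ((64 : ℕ) : Kbar) ∈ A := natCast_mem A 64
    have h2 := A.neg_mem _ this
    exact_mod_cast h2
  · have := neg_natCast_inv_mem Nat.prime_three A hA 64 (by decide)
    exact_mod_cast this
  · intro ρ hρ
    rw [hQmap] at hρ
    simpa using hρ
  · intro ρ _ h
    rw [hPmap, hQmap] at h
    simp only [eval_pow, eval_add, eval_X, eval_C] at h
    rcases h with ⟨h0, hd⟩ | ⟨h1, hd⟩
    · exact (haupt2_case0 ρ h0 hd).elim
    · exact haupt2_case1728 ρ h1 hd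

/-- The case `q = 2`, `3 ∣ M`: the chart `h₃`. -/
theorem chartData0_haupt3 {M : ℕ} [NeZero M] (h3M : 3 ∣ M) (h2M : ¬ 2 ∣ M)
    (A : ValuationSubring Kbar) (hA : A.LiesOverPrime 2) : ChartData0 A M := by
  obtain ⟨hZ, P', Q', hord, hlead, hQ', hPQ, hPQ'⟩ := stmt_Haupt3
  have hPmap : ((X + C 27) * (X + C 243) ^ 3 : ℤ[X]).map (Int.castRingHom Kbar)
      = (X + C 27) * (X + C 243) ^ 3 := by
    simp only [Polynomial.map_pow, Polynomial.map_add, Polynomial.map_mul, Polynomial.map_X,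
      Polynomial.map_C]
    simp only [eq_intCast, Int.cast_ofNat]
  have hQmap : ((X ^ 3 : ℤ[X])).map (Int.castRingHom Kbar) = X ^ 3 := by
    simp [Polynomial.map_pow]
  refine chartData0_of_haupt_int (p := 3) Nat.prime_three h3M Nat.prime_two h2M A hA hZ hord
    hlead ((X + C 27) * (X + C 243) ^ 3) (X ^ 3) P' Q'
    ((monic_X_add_C 27).mul ((monic_X_add_C 243).pow 3)) ?_ (monic_X_pow 3) ?_ hQ'
    hPQ hPQ' (-27) (by norm_num) ?_ ?_ ?_ ?_
  · rw [(monic_X_add_C (27 : ℤ)).natDegree_mul ((monic_X_add_C (243 : ℤ)).pow 3),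
      (monic_X_add_C (243 : ℤ)).natDegree_pow, natDegree_X_add_C, natDegree_X_add_C]
  · rw [natDegree_X_pow]
    norm_num
  · have : ((27 : ℕ) : Kbar) ∈ A := natCast_mem A 27
    have h2 := A.neg_mem _ this
    exact_mod_cast h2
  · have := neg_natCast_inv_mem Nat.prime_two A hA 27 (by decide)
    exact_mod_cast this
  · intro ρ hρ
    rw [hQmap] at hρ
    simpa using hρ
  · intro ρ _ h
    rw [hPmap, hQmap] at h
    simp only [eval_pow, eval_add, eval_mul, eval_X, eval_C] at h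
    rcases h with ⟨h0, hd⟩ | ⟨h1, hd⟩
    · exact haupt3_case0 ρ h0 hd
    · exact (haupt3_case1728 ρ h1 hd).elim

/-- **CHART0.** -/
theorem stmt_Chart0 : Stmt_Chart0 := by
  intro M q _ hq hqM htame A hA
  rcases htame with h5 | ⟨rfl, h2M⟩ | ⟨rfl, h3M⟩
  · exact chartData0_five_le hq hqM h5 A hA
  · exact chartData0_haupt2 h2M hqM A hA
  · exact chartData0_haupt3 h3M hqM A hA

end Fermat.Agent.S48.B2.R.H96C
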