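import Fermat.Agent.S48.B2.R.H32_DRH
import Fermat.Agent.S48.B2.R.H31_RFF
import Fermat.Agent.S48.B2.R.H34_DescDeg
import Fermat.Agent.S48.B2.R.H22_OutU
import Fermat.Agent.S48.B2.R.H22_OutES
import Fermat.Agent.S48.B2.R.H96_Chart0

/-!
# S48, B2, slice R: final wiring (helper32)

`Stmt_TorsUnramH` and `Stmt_TorsESH` from the two remaining leaves R-DEG and CHART.
-/

set_option autoImplicit false

namespace Fermat.Agent.S48.B2.R.H32

/-- **TIcore-H** from R-DEG and CHART. -/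
theorem stmt_TIcoreH_of (hRD : Stmt_RDeg) (hCh : Stmt_Chart) : Stmt_TIcoreH :=
  ticoreH_of
    (tih_of_drh (drh_of Fermat.Agent.S48.B2.R.H31.stmt_RFF hRD hCh
      Fermat.Agent.S48.B2.R.H96C.stmt_Chart0))
    Fermat.Agent.S48.B2.R.H34.stmt_Desc

/-- **R-unr** from R-DEG and CHART. -/
theorem stmt_TorsUnramH_of (hRD : Stmt_RDeg) (hCh : Stmt_Chart) : Stmt_TorsUnramH :=
  Fermat.Agent.S48.B2.R.H22.stmt_OutU (stmt_TIcoreH_of hRD hCh)

/-- **R-es** from R-DEG and CHART. -/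
theorem stmt_TorsESH_of (hRD : Stmt_RDeg) (hCh : Stmt_Chart) : Stmt_TorsESH :=
  Fermat.Agent.S48.B2.R.H22.stmt_OutES (stmt_TIcoreH_of hRD hCh)

end Fermat.Agent.S48.B2.R.H32
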