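import Fermat.Agent.S48.B2.R.Defs
import Fermat.Agent.S48.B2.R.H22_Level
import Fermat.Agent.NEB.H84_Fix
import Fermat.Agent.RED.H17_LiftMove
import Fermat.Agent.RED.H73_GAMainC
import Fermat.Agent.RED.H95_IsFF
import Fermat.Agent.NEB.Geom.H70_KU

/-!
# S48, B2, slice R: wiring (helper32)

* `tih_of_drh : Stmt_DRH → Stmt_TIH` (abstract machine `RED.H17.ticoreFor_of_hasDR`);
* `ticoreH_of : Stmt_TIH → Stmt_Desc → Stmt_TIcoreH` (level choice `H22.exists_level`).
-/

set_option autoImplicit false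
set_option linter.style.haveILetI false
set_option synthInstance.maxHeartbeats 400000
set_option maxHeartbeats 1000000

noncomputable section

namespace Fermat.Agent.S48.B2.R.H32

open AlgebraicCurve ModularCurve IntermediateField
open Fermat.Agent.NEB Fermat.Agent.NEB.JH Fermat.Agent.RED
open Fermat.Agent.S28.H73 Fermat.Agent.RED.H73 Fermat.Agent.RED.H34

/-- `F_H(M)` is a function field. -/
theorem isFF_FH (M c : ℕ) (H : Subgroup (ZMod c)ˣ) (hc2 : 2 ≤ c) (hc : c ∣ M) (hM : M ≠ 0) :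
    IsFF Kbar ↥(FHbar M c H) :=
  haveI : NeZero M := ⟨hM⟩
  Fermat.Agent.NEB.H94.isFF_FHbar M c H hc2 hc (Fermat.Agent.NEB.H84.stmt_FH_gal M c H)

/-- **R-TI** from R-DR. -/
theorem tih_of_drh (h : Stmt_DRH) : Stmt_TIH := by
  intro M c H hc2 hc hM hU q hq hqM ht A hA
  haveI : IsAlgClosed (kV A) := isAlgClosed_kV A
  haveI : CharP (kV A) q := Fermat.Agent.NEB.Geom.H70.charP_kV_of_liesOverPrime A hq hA
  exact Fermat.Agent.RED.H17.ticoreFor_of_hasDR A (Fermat.Agent.NEB.H94.hasScale_FHbar A M c H) hq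
    (CharP.cast_eq_zero (kV A) q) (isFF_FH M c H hc2 hc hM) (h M c H hc2 hc hM hU q hq hqM ht A hA)

/-- **TIcore-H** from R-TI and DESC. -/
theorem ticoreH_of (hTI : Stmt_TIH) (hD : Stmt_Desc) : Stmt_TIcoreH := by
  intro M c H hc2 hc hM n q hq hqM hqn hn6 hSQ A hA
  obtain ⟨M'', d, hMM, hM0, hqM'', h3, h2, hU, hψ, hdn⟩ :=
    Fermat.Agent.S48.B2.R.H22.exists_level M c n q hM hc hn6 hSQ hq hqM
  have htame : Tame q M'' := by
    by_cases h5 : 5 ≤ q
    · exact Or.inl h5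
    · have hq2 := hq.two_le
      have : q = 2 ∨ q = 3 ∨ q = 4 := by omega
      rcases this with h | h | h
      · exact Or.inr (Or.inr ⟨h, h2 h⟩)
      · exact Or.inr (Or.inl ⟨h, h3 h⟩)
      · exfalso
        rw [h] at hq
        exact absurd hq (by decide)
  exact hD M M'' c H hc2 hc hMM hM0 d n hψ hdn q hq hqM'' hqn A hA
    (hTI M'' c H hc2 (hc.trans hMM) hM0 (hU H) q hq hqM'' htame A hA)

end Fermat.Agent.S48.B2.R.H32
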