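import Fermat.Agent.RED.H76_IGBranch
import Fermat.Prelude.Def_AlgebraicCurve_Correspondence

/-!
# S48, B2, slice R, leaf BRUP (helper34): branch values do not grow in unramified extensions

* `isBranchValue_of_two_le_ord` : a place `v` with `ord_v (x - ρ) ≥ 2` makes `ρ` a branch value
  of `x` (converse of `RED.H76.exists_two_le_ord_of_isBranchValue`).
* `isBranchValue_iff_exists_two_le_ord`.
* `ramificationIndexAlong_eq_one` : a place with a uniformiser in the image of `φ` has
  ramification index `1` along `φ`.
* `brup` : if every place of `F'` has a uniformiser in `φ F` (`F'/F` unramified), then every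
  branch value of `φ x` on `F'` is a branch value of `x` on `F`.
-/

set_option autoImplicit false
set_option linter.style.haveILetI false
set_option synthInstance.maxHeartbeats 400000
set_option maxHeartbeats 1000000

noncomputable section

open AlgebraicCurve IntermediateField

namespace Fermat.Agent.S48.B2.R.H34

open Fermat.Agent.RED.H34 Fermat.Agent.RED.H51 Fermat.Agent.RED.H76

section Generic

variable {K F : Type} [Field K] [Field F] [Algebra K F]

/-- A ramified place over `x = ρ` makes `ρ` a branch value. -/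
theorem isBranchValue_of_two_le_ord [IsAlgClosed K] [CharZero K] (x : F)
    (hx : Transcendental K x) [FiniteDimensional K⟮x⟯ F] (ρ : K) (v₀ : Place K F)
    (hv₀ : 2 ≤ v₀.ord (x - algebraMap K F ρ)) : IsBranchValue x ρ := by
  classical
  haveI := isSeparable_adjoin_simple (K := K) x
  rw [isBranchValue_iff x hx ρ]
  set y : F := x - algebraMap K F ρ with hy
  have hyt : Transcendental K y := transcendental_sub_algebraMap hx ρ
  have hKy : K⟮y⟯ = K⟮x⟯ := adjoin_simple_sub_algebraMap x ρ
  haveI : FiniteDimensional K⟮y⟯ F := by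
    rw [hKy]
    infer_instance
  obtain ⟨hfin, hsum⟩ := Fermat.Agent.S24.ff_zeros y hyt
  have hrank : Module.finrank K⟮y⟯ F = Module.finrank K⟮x⟯ F :=
    congrArg (fun E : IntermediateField K F => Module.finrank E F) hKy
  rw [finsum_mem_eq_finite_toFinset_sum _ hfin, hrank] at hsum
  have hcard : Nat.card {v : Place K F // 0 < v.ord y} = hfin.toFinset.card := by
    rw [← Set.ncard_eq_toFinset_card _ hfin]
    exact Nat.card_coe_set_eq _
  rw [hcard]
  have hmem : v₀ ∈ hfin.toFinset := by
    rw [Set.Finite.mem_toFinset]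
    show 0 < v₀.ord y
    omega
  have hlt : ∑ v ∈ hfin.toFinset, (1 : ℤ) < ∑ v ∈ hfin.toFinset, v.ord y := by
    apply Finset.sum_lt_sum
    · intro v hv
      rw [Set.Finite.mem_toFinset] at hv
      have : 0 < v.ord y := hv
      omega
    · exact ⟨v₀, hmem, by omega⟩
  rw [Finset.sum_const, nsmul_eq_mul, mul_one, hsum] at hlt
  exact_mod_cast hlt

theorem isBranchValue_iff_exists_two_le_ord [IsAlgClosed K] [CharZero K] (x : F)
    (hx : Transcendental K x) [FiniteDimensional K⟮x⟯ F] (ρ : K) :
    IsBranchValue x ρ ↔ ∃ v : Place K F, 2 ≤ v.ord (x - algebraMap K F ρ) :=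
  ⟨exists_two_le_ord_of_isBranchValue x hx ρ,
    fun ⟨v, hv⟩ => isBranchValue_of_two_le_ord x hx ρ v hv⟩

end Generic

section Along

variable {K F F' : Type} [Field K] [Field F] [Field F'] [Algebra K F] [Algebra K F']

/-- A place of `F'` with a uniformiser in `φ F` is unramified along `φ`. -/
theorem ramificationIndexAlong_eq_one (φ : F →ₐ[K] F') (hφ : φ.toRingHom.IsIntegral)
    (w : Place K F') (t : F) (ht : w.ord (φ t) = 1) :
    Place.ramificationIndexAlong φ w = 1 := by
  have h := Place.ord_restrictAlong φ hφ w t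
  rw [ht] at h
  have h1 : (Place.ramificationIndexAlong φ w : ℤ) ∣ 1 := ⟨_, h⟩
  have h2 : (Place.ramificationIndexAlong φ w : ℤ) = 1 := by
    rcases Int.isUnit_iff.mp (isUnit_of_dvd_one h1) with h3 | h3
    · exact h3
    · have : (0 : ℤ) ≤ (Place.ramificationIndexAlong φ w : ℤ) := Int.natCast_nonneg _
      omega
  exact_mod_cast h2

/-- In an unramified extension the orders do not change. -/
theorem ord_map_of_unramified (φ : F →ₐ[K] F') (hφ : φ.toRingHom.IsIntegral)
    (w : Place K F') (t : F) (ht : w.ord (φ t) = 1) (f : F) :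
    w.ord (φ f) = (w.restrictAlong φ hφ).ord f := by
  rw [Place.ord_restrictAlong φ hφ w f, ramificationIndexAlong_eq_one φ hφ w t ht]
  simp

/-- **BRUP**: in an unramified extension `F'/φ F`, a branch value of `φ x` is a branch value
of `x`. -/
theorem brup [IsAlgClosed K] [CharZero K] (φ : F →ₐ[K] F') (hφ : φ.toRingHom.IsIntegral)
    (hunr : ∀ w : Place K F', ∃ t : F, w.ord (φ t) = 1)
    (x : F) (hx : Transcendental K x) [FiniteDimensional K⟮x⟯ F]
    [FiniteDimensional K⟮φ x⟯ F'] (ρ : K) (h : IsBranchValue (φ x) ρ) :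
    IsBranchValue x ρ := by
  have hx' : Transcendental K (φ x) := by
    intro halg
    apply hx
    exact (isAlgebraic_algHom_iff φ φ.toRingHom.injective).mp halg
  obtain ⟨w, hw⟩ := exists_two_le_ord_of_isBranchValue (φ x) hx' ρ h
  obtain ⟨t, ht⟩ := hunr w
  have h1 : φ x - algebraMap K F' ρ = φ (x - algebraMap K F ρ) := by
    rw [map_sub, AlgHom.commutes]
  rw [h1, ord_map_of_unramified φ hφ w t ht] at hw
  exact isBranchValue_of_two_le_ord x hx ρ _ hw

end Along

end Fermat.Agent.S48.B2.R.H34
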