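import Fermat.Agent.S59.Asm.H57_UnrCond

/-!
# S48, B2, slice R, leaf LEVEL-UNR (helper34)

`NEB.UnrCond M c H` holds for EVERY subgroup `H` as soon as the level `M` is deep enough:

* some prime `r ≡ 11 mod 12` divides `M` (then `Γ₀(M)` has no elliptic elements), and
* `SqDvd M c`: `M ∣ x²  ⟹  c ∣ x` (then every parabolic element has `a ≡ ±1 mod c`).

`sqDvd_of_factorization`: `SqDvd M c` if `2 v_q(c) ≤ v_q(M) + 1` for all primes `q`.
`sqDvd_level`: the level `M'' = M * c₀ * e` of helper32's route (`c₀` = the part of `c` prime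
to `n`; no prime of `n` has its square dividing `c`).
-/

set_option autoImplicit false

open Matrix
open scoped MatrixGroups

namespace Fermat.Agent.S48.B2.R.H34

/-- `M ∣ x² ⟹ c ∣ x`. -/
def SqDvd (M c : ℕ) : Prop := ∀ x : ℤ, (M : ℤ) ∣ x ^ 2 → (c : ℤ) ∣ x

theorem sqDvd_of_factorization (M c : ℕ) (hc : c ≠ 0)
    (h : ∀ q : ℕ, q.Prime → 2 * c.factorization q ≤ M.factorization q + 1) : SqDvd M c := by
  intro x hx
  by_cases hx0 : x = 0
  · rw [hx0]; exact dvd_zero _
  have hn0 : x.natAbs ≠ 0 := Int.natAbs_ne_zero.mpr hx0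
  have hM : M ∣ x.natAbs ^ 2 := by
    have h1 : (M : ℤ) ∣ ((x.natAbs ^ 2 : ℕ) : ℤ) := by
      push_cast
      rw [sq_abs]
      exact hx
    exact Int.natCast_dvd_natCast.mp h1
  have hM0 : M ≠ 0 := by
    rintro rfl
    rw [zero_dvd_iff] at hM
    exact hn0 (pow_eq_zero_iff (two_ne_zero) |>.mp hM)
  have hcx : c ∣ x.natAbs := by
    rw [← Nat.factorization_prime_le_iff_dvd hc hn0]
    intro q hq
    have h1 : M.factorization q ≤ (x.natAbs ^ 2).factorization q :=
      (Nat.factorization_le_iff_dvd hM0 (pow_ne_zero 2 hn0)).mpr hM q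
    rw [Nat.factorization_pow] at h1
    have h2 : (2 • x.natAbs.factorization) q = 2 * x.natAbs.factorization q := rfl
    rw [h2] at h1
    have h3 := h q hq
    omega
  exact Int.natCast_dvd.mpr hcx

/-- The level of the route: `M * c₀ * e`, where `c₀ ∣ c` carries the full `q`-part of `c` for
the primes `q ∤ n`, and no prime `q ∣ n` has `q² ∣ c`. -/
theorem sqDvd_level (M c c₀ e n : ℕ) (hc : c ≠ 0) (hM : M ≠ 0) (hc₀ : c₀ ≠ 0) (he : e ≠ 0)
    (hcM : c ∣ M)
    (h1 : ∀ q : ℕ, q.Prime → q ∣ n → ¬ q ^ 2 ∣ c)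
    (h2 : ∀ q : ℕ, q.Prime → ¬ q ∣ n → c.factorization q ≤ c₀.factorization q) :
    SqDvd (M * c₀ * e) c := by
  apply sqDvd_of_factorization _ _ hc
  intro q hq
  have hMc : M * c₀ ≠ 0 := mul_ne_zero hM hc₀
  rw [Nat.factorization_mul hMc he, Nat.factorization_mul hM hc₀]
  simp only [Finsupp.add_apply]
  have h3 : c.factorization q ≤ M.factorization q :=
    (Nat.factorization_le_iff_dvd hc hM).mpr hcM q
  by_cases hqn : q ∣ n
  · have h4 : c.factorization q ≤ 1 := by
      by_contra hcon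
      push Not at hcon
      apply h1 q hq hqn
      exact (hq.pow_dvd_iff_le_factorization hc).mpr hcon
    omega
  · have h4 := h2 q hq hqn
    omega

section Elliptic

/-- In `𝔽_r`, `r ≡ 11 mod 12`, the polynomial `X² - tX + 1`, `|t| ≤ 1`, has no root. -/
theorem no_root_of_mod_twelve {r : ℕ} (hr : r.Prime) (hr12 : r % 12 = 11) (v : ZMod r) (t : ℤ)
    (ht : |t| ≤ 1) (h : v ^ 2 - (t : ZMod r) * v + 1 = 0) : False := by
  haveI : Fact r.Prime := ⟨hr⟩
  have h12 : v ^ 12 = 1 := Fermat.Agent.S59.Asm.H57.pow_twelve_eq_one v t ht h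
  have hv0 : v ≠ 0 := by
    rintro rfl
    rw [zero_pow (by norm_num)] at h12
    exact zero_ne_one h12
  have hr1 : v ^ (r - 1) = 1 := ZMod.pow_card_sub_one_eq_one hv0
  have hg : Nat.gcd 12 (r - 1) = 2 := by
    have hr' : r - 1 = 12 * (r / 12) + 10 := by omega
    rw [hr']
    simp
  have h2 : v ^ 2 = 1 := by
    rw [← hg]
    exact pow_gcd_eq_one.mpr ⟨h12, hr1⟩
  have ht' : t = -1 ∨ t = 0 ∨ t = 1 := by
    rw [abs_le] at ht
    omega
  have hr11 : 11 ≤ r := by omega
  have two_ne : (2 : ZMod r) ≠ 0 := by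
    intro h0
    have : ((2 : ℕ) : ZMod r) = 0 := by exact_mod_cast h0
    rw [ZMod.natCast_eq_zero_iff] at this
    have := Nat.le_of_dvd (by norm_num) this
    omega
  have three_ne : (3 : ZMod r) ≠ 0 := by
    intro h0
    have : ((3 : ℕ) : ZMod r) = 0 := by exact_mod_cast h0
    rw [ZMod.natCast_eq_zero_iff] at this
    have := Nat.le_of_dvd (by norm_num) this
    omega
  rcases ht' with rfl | rfl | rfl
  · -- v = -2, 4 = 1
    have hv : v = -2 := by
      have : v ^ 2 - ((-1 : ℤ) : ZMod r) * v + 1 = 0 := h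
      push_cast at this
      linear_combination this - h2
    rw [hv] at h2
    apply three_ne
    linear_combination h2
  · have : v ^ 2 - ((0 : ℤ) : ZMod r) * v + 1 = 0 := h
    push_cast at this
    apply two_ne
    linear_combination this - h2
  · have hv : v = 2 := by
      have : v ^ 2 - ((1 : ℤ) : ZMod r) * v + 1 = 0 := h
      push_cast at this
      linear_combination h2 - this
    rw [hv] at h2
    apply three_ne
    linear_combination h2

end Elliptic

/-- **LEVEL-UNR**: `UnrCond M c H` for every `H`, if a prime `r ≡ 11 mod 12` divides `M` and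
`M ∣ x² ⟹ c ∣ x`. -/
theorem unrCond_of_level (M c : ℕ) (H : Subgroup (ZMod c)ˣ) (r : ℕ) (hr : r.Prime)
    (hr12 : r % 12 = 11) (hrM : r ∣ M) (hsq : SqDvd M c) :
    Fermat.Agent.NEB.UnrCond M c H := by
  intro γ hγ
  set A : Matrix (Fin 2) (Fin 2) ℤ := (((γ : SL(2, ℤ)) : Matrix (Fin 2) (Fin 2) ℤ)) with hA
  show ((A 0 0 : ℤ) : ZMod c) ∈ Fermat.Agent.NEB.cosetSet c H 1
  have hdet : A 0 0 * A 1 1 - A 0 1 * A 1 0 = 1 := by
    have h := (γ : SL(2, ℤ)).2
    rwa [Matrix.det_fin_two] at h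
  have hM : (M : ℤ) ∣ A 1 0 := by
    have h := γ.2
    rw [CongruenceSubgroup.Gamma0_mem] at h
    exact (ZMod.intCast_zmod_eq_zero_iff_dvd _ _).mp h
  have htr : (A 0 0 + A 1 1) ^ 2 = 4 ∨ |A 0 0 + A 1 1| ≤ 1 := by
    rcases hγ with h | h
    · refine Fermat.Agent.S59.Asm.H57.trace_of_finOrder (γ : SL(2, ℤ)) ?_
      obtain ⟨k, hk, hγk⟩ := (isOfFinOrder_iff_pow_eq_one).mp h
      refine (isOfFinOrder_iff_pow_eq_one).mpr ⟨k, hk, ?_⟩
      have := congrArg Subtype.val hγk
      simpa using this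
    · exact Or.inl h
  rcases htr with h4 | h1
  · have hs : A 0 0 + A 1 1 = 2 ∨ A 0 0 + A 1 1 = -2 := by
      have : (A 0 0 + A 1 1 - 2) * (A 0 0 + A 1 1 + 2) = 0 := by linear_combination h4
      rcases mul_eq_zero.mp this with h | h
      · left; linarith
      · right; linarith
    have key : ∀ s : ℤ, s ^ 2 = 1 → A 0 0 + A 1 1 = 2 * s →
        ((A 0 0 : ℤ) : ZMod c) = ((s : ℤ) : ZMod c) := by
      intro s hs2 hsum
      have hsq' : (A 0 0 - s) ^ 2 = -(A 0 1 * A 1 0) := by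
        linear_combination (-1 : ℤ) * hdet + A 0 0 * hsum + hs2
      have hd : (M : ℤ) ∣ (A 0 0 - s) ^ 2 := by
        rw [hsq']
        exact (dvd_neg).mpr (Dvd.dvd.mul_left hM _)
      have := hsq _ hd
      have h0 : (((A 0 0 - s : ℤ)) : ZMod c) = 0 :=
        (ZMod.intCast_zmod_eq_zero_iff_dvd _ _).mpr this
      rw [Int.cast_sub] at h0
      exact sub_eq_zero.mp h0
    rcases hs with h | h
    · have h1 := key 1 (by norm_num) (by rw [h]; norm_num)
      refine ⟨1, H.one_mem, Or.inl ?_⟩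
      rw [h1, mul_one, Units.val_one, Int.cast_one]
    · have h1 := key (-1) (by norm_num) (by rw [h]; norm_num)
      refine ⟨1, H.one_mem, Or.inr ?_⟩
      rw [h1, mul_one, Units.val_one, Int.cast_neg, Int.cast_one]
  · exfalso
    have hrdvd : (r : ℤ) ∣ A 1 0 := (Int.natCast_dvd_natCast.mpr hrM).trans hM
    have h0 : ((A 1 0 : ℤ) : ZMod r) = 0 := (ZMod.intCast_zmod_eq_zero_iff_dvd _ _).mpr hrdvd
    have hrel : ((A 0 0 : ℤ) : ZMod r) * ((A 1 1 : ℤ) : ZMod r) = 1 := by
      have h1 := congrArg (fun z : ℤ => (z : ZMod r)) hdet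
      simp only [Int.cast_sub, Int.cast_mul, Int.cast_one, h0, mul_zero, sub_zero] at h1
      exact h1
    refine no_root_of_mod_twelve hr hr12 ((A 0 0 : ℤ) : ZMod r) (A 0 0 + A 1 1) h1 ?_
    push_cast
    linear_combination (-1 : ZMod r) * hrel

end Fermat.Agent.S48.B2.R.H34
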