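import Fermat.Agent.S48.B2.R.Defs
import Fermat.Agent.NEB.H84_Fix
import Fermat.Agent.RED.H51_NDFinal

/-!
# S48 B2, slice R, leaf CHART (helper66): chart transfer from `F₀(M)` to `F_H(M)`

`stmt_Chart : Stmt_Chart`.

Generic part (`Along`): for `φ : F →ₐ[k] F'` and `x : F`,

* `finrank_adjoin_along` : `[F' : k(φ x)] = [F : k(x)] · [F' : F]`;
* `isSeparable_adjoin_along` : `F / k(x)` and `F' / F` separable `⇒` `F' / k(φ x)` separable.

The chart `inclBar x` has the same `q`-expansion as `x`, hence the same reduction; the degrees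
`[F_H : F₀] = [(ℤ/c)ˣ : ±H]` (`H94.finrankAlong_inclBar`, `H84.stmt_FH_gal`) and
`[κ_H : κ₀] = [(ℤ/c)ˣ : ±H]` (R-DEG) agree.
-/

set_option autoImplicit false
set_option linter.style.haveILetI false
set_option linter.unusedSectionVars false
set_option synthInstance.maxHeartbeats 400000
set_option maxHeartbeats 1000000

noncomputable section

namespace Fermat.Agent.S48.B2.R.H66C

open AlgebraicCurve ModularCurve IntermediateField
open Fermat.Agent.NEB Fermat.Agent.RED
open Fermat.Agent.S28.H73 Fermat.Agent.RED.H73 Fermat.Agent.RED.H34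

/-! ## 1. Generic: the simple subextension along a homomorphism -/

section Along

variable {k F F' : Type} [Field k] [Field F] [Field F'] [Algebra k F] [Algebra k F']

/-- The image of `k(x)` under `φ` is `k(φ x)`. -/
theorem map_adjoin_simple (φ : F →ₐ[k] F') (x : F) : (k⟮x⟯).map φ = k⟮φ x⟯ := by
  rw [IntermediateField.adjoin_map, Set.image_singleton]

/-- The isomorphism `k(x) ≃ k(φ x)`. -/
def adjoinEquivAlong (φ : F →ₐ[k] F') (x : F) : ↥k⟮x⟯ ≃ₐ[k] ↥k⟮φ x⟯ :=
  ((k⟮x⟯).equivMap φ).trans (IntermediateField.equivOfEq (map_adjoin_simple φ x))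

theorem coe_adjoinEquivAlong (φ : F →ₐ[k] F') (x : F) (a : ↥k⟮x⟯) :
    ((adjoinEquivAlong φ x a : ↥k⟮φ x⟯) : F') = φ (a : F) := rfl

/-- `[F' : k(φ x)] = [F : k(x)] · [F' : F]`. -/
theorem finrank_adjoin_along (φ : F →ₐ[k] F') (x : F) :
    Module.finrank ↥k⟮φ x⟯ F' = Module.finrank ↥k⟮x⟯ F * finrankAlong k φ := by
  letI := algebraAlong φ
  letI a1 : Algebra ↥k⟮x⟯ F' := ((algebraMap F F').comp (algebraMap ↥k⟮x⟯ F)).toAlgebra
  haveI : IsScalarTower ↥k⟮x⟯ F F' := IsScalarTower.of_algebraMap_eq fun _ => rfl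
  have h1 : Module.finrank ↥k⟮x⟯ F * Module.finrank F F' = Module.finrank ↥k⟮x⟯ F' :=
    Module.finrank_mul_finrank ↥k⟮x⟯ F F'
  have h2 : Module.finrank ↥k⟮x⟯ F' = Module.finrank ↥k⟮φ x⟯ F' :=
    Algebra.finrank_eq_of_equiv_equiv (adjoinEquivAlong φ x).toRingEquiv (RingEquiv.refl F')
      (by ext a; rfl)
  rw [← h2, ← h1]
  rfl

/-- Separability of `F' / k(φ x)` from that of `F / k(x)` and of `F' / F`. -/
theorem isSeparable_adjoin_along (φ : F →ₐ[k] F') (x : F)
    (h1 : Algebra.IsSeparable ↥k⟮x⟯ F)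
    (h2 : letI := algebraAlong φ; Algebra.IsSeparable F F') :
    Algebra.IsSeparable ↥k⟮φ x⟯ F' := by
  letI a0 : Algebra F F' := algebraAlong φ
  letI a1 : Algebra ↥k⟮x⟯ F' := ((algebraMap F F').comp (algebraMap ↥k⟮x⟯ F)).toAlgebra
  haveI i1 : IsScalarTower ↥k⟮x⟯ F F' := IsScalarTower.of_algebraMap_eq fun _ => rfl
  haveI i2 : Algebra.IsSeparable F F' := h2
  haveI h3 : Algebra.IsSeparable ↥k⟮x⟯ F' :=
    @Algebra.IsSeparable.trans ↥k⟮x⟯ F _ _ _ F' _ a1 a0 i1 h1 i2
  exact Algebra.IsSeparable.of_equiv_equiv (adjoinEquivAlong φ x).toRingEquiv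
    (RingEquiv.refl F') (by ext a; rfl)

/-- Finiteness of `F' / k(φ x)` from that of `F / k(x)` and of `F' / F`. -/
theorem finite_adjoin_along (φ : F →ₐ[k] F') (x : F)
    (h1 : FiniteDimensional ↥k⟮x⟯ F) (h2 : finrankAlong k φ ≠ 0) :
    FiniteDimensional ↥k⟮φ x⟯ F' := by
  apply Module.finite_of_finrank_pos
  rw [finrank_adjoin_along]
  exact Nat.mul_pos Module.finrank_pos (Nat.pos_of_ne_zero h2)

end Along

/-! ## 2. Generic chart transfer for the Gauss valuation -/

section Gauss

variable {C : Type} [Field C] (O : ValuationSubring C)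
variable {F F' : IntermediateField C (LaurentSeries C)} (hle : F ≤ F')
variable (h : HasScale O F) (h' : HasScale O F')

/-- The underlying series of the reduction. -/
theorem coe_red (x : ↥(redSetting O h).V) :
    (((redSetting O h).red x : ↥(redField O F h)) : LaurentSeries (kV O))
      = gaussRedV O ⟨((x : ↥F) : LaurentSeries C), x.2⟩ := rfl

theorem mem_V_inclusion (x : ↥F) (hx : x ∈ (redSetting O h).V) :
    IntermediateField.inclusion hle x ∈ (redSetting O h').V := hx

theorem inclusion_red (x : ↥F) (hx : x ∈ (redSetting O h).V)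
    (hx' : IntermediateField.inclusion hle x ∈ (redSetting O h').V) :
    IntermediateField.inclusion (H51.redField_mono O hle h h') ((redSetting O h).red ⟨x, hx⟩)
      = (redSetting O h').red ⟨IntermediateField.inclusion hle x, hx'⟩ := by
  apply Subtype.ext
  rw [IntermediateField.coe_inclusion, coe_red, coe_red]
  rfl

/-- **Chart transfer** (generic): if `[F' : F] = [F~' : F~] = n ≠ 0`, `F~' / F~` is separable and
the characteristic of `C` is zero, the "pre" fields of a chart `x` of `F` pass to the chart `x`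
of `F'`. -/
theorem chart_transfer [CharZero C] (n : ℕ) (hn0 : n ≠ 0) (hn : F.relfinrank F' = n)
    (hnκ : (redField O F h).relfinrank (redField O F' h') = n)
    (hsepκ : ∀ y ∈ redField O F' h', IsSeparable ↥(redField O F h) y)
    (x : ↥F) (hx : x ∈ (redSetting O h).V)
    (htr : Transcendental (kV O) ((redSetting O h).red ⟨x, hx⟩))
    (hfin : FiniteDimensional ↥C⟮x⟯ ↥F)
    (hfr : Module.finrank ↥(kV O)⟮(redSetting O h).red ⟨x, hx⟩⟯ ↥(redField O F h)
      = Module.finrank ↥C⟮x⟯ ↥F)
    (hsep : Algebra.IsSeparable ↥(kV O)⟮(redSetting O h).red ⟨x, hx⟩⟯ ↥(redField O F h)) :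
    ∃ hx' : IntermediateField.inclusion hle x ∈ (redSetting O h').V,
      Transcendental (kV O) ((redSetting O h').red ⟨IntermediateField.inclusion hle x, hx'⟩) ∧
      FiniteDimensional ↥C⟮IntermediateField.inclusion hle x⟯ ↥F' ∧
      Algebra.IsSeparable ↥C⟮IntermediateField.inclusion hle x⟯ ↥F' ∧
      Module.finrank
          ↥(kV O)⟮(redSetting O h').red ⟨IntermediateField.inclusion hle x, hx'⟩⟯
          ↥(redField O F' h') = Module.finrank ↥C⟮IntermediateField.inclusion hle x⟯ ↥F' ∧
      Algebra.IsSeparable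
        ↥(kV O)⟮(redSetting O h').red ⟨IntermediateField.inclusion hle x, hx'⟩⟯
        ↥(redField O F' h') := by
  have hleκ : redField O F h ≤ redField O F' h' := H51.redField_mono O hle h h'
  have hx' : IntermediateField.inclusion hle x ∈ (redSetting O h').V :=
    mem_V_inclusion O hle h h' x hx
  have hincl := inclusion_red O hle h h' x hx hx'
  -- the two degrees
  have hN : finrankAlong C (IntermediateField.inclusion hle) = n := by
    rw [← hn]
    exact H51.finrank_along_inclusion hle
  have hNκ : finrankAlong (kV O) (IntermediateField.inclusion hleκ) = n := by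
    rw [← hnκ]
    exact H51.finrank_along_inclusion hleκ
  -- separability of `F~' / F~`
  have hκsep : letI := algebraAlong (IntermediateField.inclusion hleκ)
      Algebra.IsSeparable ↥(redField O F h) ↥(redField O F' h') := by
    letI a0 : Algebra ↥(redField O F h) ↥(redField O F' h') :=
      algebraAlong (IntermediateField.inclusion hleκ)
    haveI : IsScalarTower ↥(redField O F h) ↥(redField O F' h') (LaurentSeries (kV O)) :=
      IsScalarTower.of_algebraMap_eq fun _ => rfl
    refine ⟨fun z => ?_⟩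
    have h1 := hsepκ (z : LaurentSeries (kV O)) z.2
    unfold IsSeparable at h1 ⊢
    have h2 : minpoly ↥(redField O F h)
        (algebraMap ↥(redField O F' h') (LaurentSeries (kV O)) z)
        = minpoly ↥(redField O F h) z :=
      minpoly.algebraMap_eq (algebraMap ↥(redField O F' h') (LaurentSeries (kV O))).injective z
    rw [← h2]
    exact h1
  have hfinH : FiniteDimensional ↥C⟮IntermediateField.inclusion hle x⟯ ↥F' :=
    finite_adjoin_along (IntermediateField.inclusion hle) x hfin (by rw [hN]; exact hn0)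
  refine ⟨hx', ?_, hfinH, ?_, ?_, ?_⟩
  · -- transcendence
    rw [← hincl]
    intro hal
    exact htr ((isAlgebraic_algHom_iff (IntermediateField.inclusion hleκ)
      (RingHom.injective _)).mp hal)
  · -- characteristic zero
    haveI : CharZero ↥C⟮IntermediateField.inclusion hle x⟯ :=
      charZero_of_injective_algebraMap
        (algebraMap C ↥C⟮IntermediateField.inclusion hle x⟯).injective
    exact Algebra.IsAlgebraic.isSeparable_of_perfectField
  · -- the degree
    have e1 := finrank_adjoin_along (IntermediateField.inclusion hle) x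
    have e2 := finrank_adjoin_along (IntermediateField.inclusion hleκ)
      ((redSetting O h).red ⟨x, hx⟩)
    rw [hincl] at e2
    rw [e1, e2, hN, hNκ, hfr]
  · -- separability of the residue extension
    have e3 := isSeparable_adjoin_along (IntermediateField.inclusion hleκ)
      ((redSetting O h).red ⟨x, hx⟩) hsep hκsep
    rw [hincl] at e3
    exact e3

end Gauss

/-! ## 3. The leaf -/

/-- `[F_H(M) : F₀(M)] = [(ℤ/c)ˣ : ±H]`. -/
theorem relfinrank_bar_FHbar (M c : ℕ) (H : Subgroup (ZMod c)ˣ) (hc2 : 2 ≤ c) (hc : c ∣ M)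
    (hM : M ≠ 0) :
    (modularFunctionFieldBar M).relfinrank (FHbar M c H) = (H94.pmSubgroup c H).index := by
  rw [← H51.finrank_along_inclusion (bar_le_FHbar M c H)]
  exact H94.finrankAlong_inclBar M c H hc2 hc hM (H84.stmt_FH_gal M c H)

/-- **CHART**. -/
theorem stmt_Chart : Stmt_Chart := by
  intro hdeg M c H hc2 hc hM q hq hqM A hA x hx htr hfin hfr hsep
  obtain ⟨hd1, hd2⟩ := hdeg M c H hc2 hc hM q hq hqM A hA
  haveI : NeZero c := ⟨by omega⟩
  have hidx : (H94.pmSubgroup c H).index ≠ 0 := Subgroup.index_ne_zero_of_finite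
  exact chart_transfer A (bar_le_FHbar M c H) (hasScale_laurentBaseChange A M)
    (H94.hasScale_FHbar A M c H) (H94.pmSubgroup c H).index hidx
    (relfinrank_bar_FHbar M c H hc2 hc hM) hd1 hd2 x hx htr hfin hfr hsep

end Fermat.Agent.S48.B2.R.H66C
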