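import Mathlib

/-!
# S48 B2, slice R, leaf VAL-U (helper66): uniqueness of the extension when `f = n`

`L / E` finite of degree `n`, `V` a valuation ring of `L`, `V₀ = V ∩ E`.  If there are `n`
elements of `V` whose residues are linearly independent over the residue field of `V₀`
(residue degree `f(V | V₀) = [L : E]`), then `V` is the only valuation ring of `L` over `V₀`:
every valuation ring `V'` of `L` with `V' ∩ E = V ∩ E` equals `V`.

No rank-one hypothesis and no approximation theorem are needed:
* the `n` elements are an "orthonormal basis": `v (∑ cᵢ bᵢ) = max v (cᵢ)` (`val_sum_eq_max`);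
* so `V = ⊕ V₀ bᵢ` is a finite `V₀`-module, every `x ∈ V` is a root of the characteristic
  polynomial of its multiplication matrix (coefficients in `V₀`), hence `V ⊆ V'`;
* if `x ∈ V' ∖ V`, `x = ∑ cᵢ bᵢ`, `c_j` of maximal valuation, then `u = c_j⁻¹ x` is a unit of `V`,
  so `u⁻¹ ∈ V ⊆ V'` and `c_j = u⁻¹ x ∈ V' ∩ E = V ∩ E`, a contradiction.

Main statements:
* `valU` : the primitive form (residual independence stated with valuations).
* `valU_comap` : the same with `V.comap (algebraMap E L) = V'.comap (algebraMap E L)`.
-/

set_option autoImplicit false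
set_option linter.style.haveILetI false
set_option linter.unusedSectionVars false

noncomputable section

namespace Fermat.Agent.S48.B2.R.H66

open Polynomial

variable {E L : Type*} [Field E] [Field L] [Algebra E L]

section Ortho

variable (V : ValuationSubring L) {ι : Type*} [Fintype ι] (b : ι → L)
  (hbV : ∀ i, b i ∈ V)
  (hres : ∀ c : ι → E, (∀ i, algebraMap E L (c i) ∈ V) →
    V.valuation (∑ i, c i • b i) < 1 → ∀ i, V.valuation (algebraMap E L (c i)) < 1)
include hbV hres

/-- A combination with integral coefficients, one of which is a unit, is a unit of `V`. -/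
theorem val_sum_eq_one (c : ι → E) (hc : ∀ i, algebraMap E L (c i) ∈ V) (j : ι)
    (hj : V.valuation (algebraMap E L (c j)) = 1) : V.valuation (∑ i, c i • b i) = 1 := by
  have hle : V.valuation (∑ i, c i • b i) ≤ 1 := by
    rw [V.valuation_le_one_iff]
    refine sum_mem fun i _ => ?_
    rw [Algebra.smul_def]
    exact mul_mem (hc i) (hbV i)
  rcases lt_or_eq_of_le hle with h | h
  · exact absurd hj (ne_of_lt (hres c hc h j))
  · exact h

/-- The family `b` is orthonormal: `v (∑ cᵢ bᵢ) = max v (cᵢ)`. -/
theorem val_sum_eq_max (c : ι → E) (j : ι)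
    (hj : ∀ i, V.valuation (algebraMap E L (c i)) ≤ V.valuation (algebraMap E L (c j))) :
    V.valuation (∑ i, c i • b i) = V.valuation (algebraMap E L (c j)) := by
  by_cases hcj : c j = 0
  · have hall : ∀ i, c i = 0 := by
      intro i
      have h := hj i
      rw [hcj, map_zero, map_zero, le_zero_iff, Valuation.zero_iff] at h
      exact (map_eq_zero (algebraMap E L)).1 h
    simp [hall]
  · have hφ : algebraMap E L (c j) ≠ 0 := by simpa using hcj
    have hv : V.valuation (algebraMap E L (c j)) ≠ 0 := (Valuation.ne_zero_iff _).2 hφ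
    have hd : ∀ i, algebraMap E L (c i / c j) ∈ V := by
      intro i
      rw [← V.valuation_le_one_iff, map_div₀, map_div₀]
      exact (div_le_one₀ (zero_lt_iff.2 hv)).2 (hj i)
    have hdj : V.valuation (algebraMap E L (c j / c j)) = 1 := by
      rw [div_self hcj, map_one, map_one]
    have h1 := val_sum_eq_one V b hbV hres (fun i => c i / c j) hd j hdj
    have hsum : ∑ i, c i • b i = algebraMap E L (c j) * ∑ i, (c i / c j) • b i := by
      rw [Finset.mul_sum]
      refine Finset.sum_congr rfl fun i _ => ?_
      rw [Algebra.smul_def, Algebra.smul_def, ← mul_assoc, ← map_mul, mul_div_cancel₀ _ hcj]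
    rw [hsum, map_mul, h1, mul_one]

/-- Residually independent elements are linearly independent. -/
theorem linearIndependent_of_res : LinearIndependent E b := by
  classical
  rw [Fintype.linearIndependent_iff]
  intro g hg i
  obtain ⟨j, -, hj⟩ := Finset.exists_max_image Finset.univ
    (fun i => V.valuation (algebraMap E L (g i))) ⟨i, Finset.mem_univ i⟩
  have h := val_sum_eq_max V b hbV hres g j (fun i => hj i (Finset.mem_univ i))
  rw [hg, map_zero] at h
  have hi := hj i (Finset.mem_univ i)
  rw [← h, le_zero_iff, Valuation.zero_iff] at hi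
  exact (map_eq_zero (algebraMap E L)).1 hi

end Ortho

/-- **VAL-U** (primitive form).  `L / E` finite, `V`, `V'` valuation rings of `L` with the same
trace on `E`; if `[L : E]` elements of `V` are residually independent over `V ∩ E`, then
`V' = V`. -/
theorem valU [FiniteDimensional E L] (V V' : ValuationSubring L)
    (hE : ∀ e : E, algebraMap E L e ∈ V ↔ algebraMap E L e ∈ V')
    {ι : Type*} [Fintype ι] (hcard : Fintype.card ι = Module.finrank E L)
    (b : ι → L) (hbV : ∀ i, b i ∈ V)
    (hres : ∀ c : ι → E, (∀ i, algebraMap E L (c i) ∈ V) →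
      V.valuation (∑ i, c i • b i) < 1 → ∀ i, V.valuation (algebraMap E L (c i)) < 1) :
    V' = V := by
  classical
  have hli := linearIndependent_of_res V b hbV hres
  haveI hι : Nonempty ι := by
    rw [← Fintype.card_pos_iff, hcard]
    exact Module.finrank_pos
  let B : Module.Basis ι E L := basisOfLinearIndependentOfCardEqFinrank hli hcard
  have hB : ∀ i, B i = b i := fun i => by
    simp only [B, coe_basisOfLinearIndependentOfCardEqFinrank]
  have hexp : ∀ x : L, x = ∑ i, B.repr x i • b i := by
    intro x
    conv_lhs => rw [← B.sum_repr x]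
    exact Finset.sum_congr rfl fun i _ => by rw [hB]
  -- coefficients of elements of `V` are integral
  have hcoef : ∀ x ∈ V, ∀ i, algebraMap E L (B.repr x i) ∈ V := by
    intro x hx i
    obtain ⟨j, -, hj⟩ := Finset.exists_max_image Finset.univ
      (fun i => V.valuation (algebraMap E L (B.repr x i))) ⟨i, Finset.mem_univ i⟩
    have h := val_sum_eq_max V b hbV hres (fun i => B.repr x i) j
      (fun i => hj i (Finset.mem_univ i))
    rw [← hexp x] at h
    rw [← V.valuation_le_one_iff]
    calc V.valuation (algebraMap E L (B.repr x i))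
        ≤ V.valuation (algebraMap E L (B.repr x j)) := hj i (Finset.mem_univ i)
      _ = V.valuation x := h.symm
      _ ≤ 1 := (V.valuation_le_one_iff x).2 hx
  -- `V ⊆ V'`
  have hVV' : ∀ x ∈ V, x ∈ V' := by
    intro x hx
    let R₀ : Subring E := V'.toSubring.comap (algebraMap E L)
    have hM : ∀ i j, Algebra.leftMulMatrix B x i j ∈ R₀ := by
      intro i j
      show algebraMap E L (Algebra.leftMulMatrix B x i j) ∈ V'
      rw [← hE, Algebra.leftMulMatrix_eq_repr_mul]
      exact hcoef (x * B j) (mul_mem hx (by rw [hB]; exact hbV j)) i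
    let M₀ : Matrix ι ι R₀ := fun i j => ⟨Algebra.leftMulMatrix B x i j, hM i j⟩
    have hMM₀ : Algebra.leftMulMatrix B x = M₀.map R₀.subtype := by
      ext i j
      rfl
    let ψ : R₀ →+* V' :=
      { toFun := fun r => ⟨algebraMap E L r.1, r.2⟩
        map_one' := Subtype.ext (map_one _)
        map_mul' := fun r s => Subtype.ext (map_mul _ _ _)
        map_zero' := Subtype.ext (map_zero _)
        map_add' := fun r s => Subtype.ext (map_add _ _ _) }
    have hint : IsIntegral V' x := by
      refine ⟨M₀.charpoly.map ψ, (Matrix.charpoly_monic M₀).map ψ, ?_⟩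
      rw [Polynomial.eval₂_map]
      have hcomp : (algebraMap V' L).comp ψ = (algebraMap E L).comp R₀.subtype := by
        ext r
        rfl
      rw [hcomp, ← Polynomial.eval₂_map, ← Matrix.charpoly_map, ← hMM₀]
      have h0 : Polynomial.aeval x (Algebra.leftMulMatrix B x).charpoly = 0 := by
        apply Algebra.leftMulMatrix_injective B
        rw [map_zero, ← Polynomial.aeval_algHom_apply]
        exact Matrix.aeval_self_charpoly _
      exact h0
    obtain ⟨y, hy⟩ := IsIntegrallyClosed.isIntegral_iff.1 hint
    rw [← hy]
    exact y.2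
  -- `V' ⊆ V`
  have hV'V : ∀ x ∈ V', x ∈ V := by
    intro x hx'
    by_contra hxV
    have hx0 : x ≠ 0 := by
      rintro rfl
      exact hxV (zero_mem V)
    obtain ⟨j, -, hj⟩ := Finset.exists_max_image Finset.univ
      (fun i => V.valuation (algebraMap E L (B.repr x i))) Finset.univ_nonempty
    have h := val_sum_eq_max V b hbV hres (fun i => B.repr x i) j
      (fun i => hj i (Finset.mem_univ i))
    rw [← hexp x] at h
    have hvx : 1 < V.valuation x := by
      rw [← not_le, V.valuation_le_one_iff]
      exact hxV
    have hcj0 : algebraMap E L (B.repr x j) ≠ 0 := by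
      intro h0
      rw [h0, map_zero] at h
      rw [h] at hvx
      exact absurd hvx (by simp)
    have hu : V.valuation ((algebraMap E L (B.repr x j))⁻¹ * x) = 1 := by
      rw [map_mul, map_inv₀, h]
      exact inv_mul_cancel₀ ((Valuation.ne_zero_iff _).2 hcj0)
    have huinv : ((algebraMap E L (B.repr x j))⁻¹ * x)⁻¹ ∈ V' := by
      apply hVV'
      rw [← V.valuation_le_one_iff, map_inv₀, hu, inv_one]
    have hcjV : algebraMap E L (B.repr x j) ∉ V := by
      rw [← V.valuation_le_one_iff, not_le, ← h]
      exact hvx
    apply hcjV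
    rw [hE]
    have hrew : algebraMap E L (B.repr x j)
        = ((algebraMap E L (B.repr x j))⁻¹ * x)⁻¹ * x := by
      rw [mul_inv, inv_inv, mul_assoc, inv_mul_cancel₀ hx0, mul_one]
    rw [hrew]
    exact mul_mem huinv hx'
  exact le_antisymm (fun x hx => hV'V x hx) (fun x hx => hVV' x hx)

/-- **VAL-U** with the hypothesis on `E` stated by `comap`. -/
theorem valU_comap [FiniteDimensional E L] (V V' : ValuationSubring L)
    (hE : V.comap (algebraMap E L) = V'.comap (algebraMap E L))
    {ι : Type*} [Fintype ι] (hcard : Fintype.card ι = Module.finrank E L)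
    (b : ι → L) (hbV : ∀ i, b i ∈ V)
    (hres : ∀ c : ι → E, (∀ i, algebraMap E L (c i) ∈ V) →
      V.valuation (∑ i, c i • b i) < 1 → ∀ i, V.valuation (algebraMap E L (c i)) < 1) :
    V' = V := by
  refine valU V V' (fun e => ?_) hcard b hbV hres
  have h1 : e ∈ V.comap (algebraMap E L) ↔ algebraMap E L e ∈ V := ValuationSubring.mem_comap
  have h2 : e ∈ V'.comap (algebraMap E L) ↔ algebraMap E L e ∈ V' := ValuationSubring.mem_comap
  rw [← h1, ← h2, hE]

end Fermat.Agent.S48.B2.R.H66
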