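import Mathlib
import Fermat.Prelude.Def_ModularCurve_X0

/-!
# S48 B2, slice R, leaf IRR-3 (helper96), part 1: generic lemmas

* `eq_C_of_qExpand_eq` : a Laurent series `w` with `w (q ^ n) = w`, `n ≥ 2`, is constant;
* `finrank_adjoin_eq_relfinrank` : `[F : K(j)]` computed inside `F` equals the relative rank
  computed in the ambient field;
* `mem_adjoin_iff_coe_mem` : membership in `K(j)` inside `F` versus in the ambient field.
-/

set_option autoImplicit false

noncomputable section

namespace Fermat.Agent.S48.B2.R.H96

open ModularCurve IntermediateField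

/-- A Laurent series fixed by `q ↦ q ^ n`, `n ≥ 2`, is constant. -/
theorem eq_C_of_qExpand_eq {R : Type*} [CommRing R] (n : ℕ) [NeZero n] (hn : 2 ≤ n)
    (w : LaurentSeries R) (hw : qExpand R n w = w) : w = HahnSeries.C (w.coeff 0) := by
  have key : ∀ (d : ℕ) (m : ℤ), m.natAbs = d → m ≠ 0 → w.coeff m = 0 := by
    intro d
    induction d using Nat.strong_induction_on with
    | _ d ih =>
      intro m hm hm0
      by_cases hdvd : (n : ℤ) ∣ m
      · obtain ⟨m', rfl⟩ := hdvd
        have hm'0 : m' ≠ 0 := by
          rintro rfl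
          exact hm0 (mul_zero _)
        have h1 : w.coeff ((n : ℤ) * m') = w.coeff m' := by
          conv_lhs => rw [← hw]
          exact qExpand_coeff_mul n w m'
        rw [h1]
        refine ih m'.natAbs ?_ m' rfl hm'0
        rw [← hm, Int.natAbs_mul, Int.natAbs_natCast]
        have hpos : 0 < m'.natAbs := Int.natAbs_pos.mpr hm'0
        nlinarith
      · rw [← hw]
        exact qExpand_coeff_of_not_dvd n w hdvd
  ext m
  by_cases hm : m = 0
  · subst hm
    simp
  · rw [key m.natAbs m rfl hm]
    rw [HahnSeries.C_apply, HahnSeries.coeff_single_of_ne hm]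

section Fields

variable {K Ω : Type*} [Field K] [Field Ω] [Algebra K Ω] (F : IntermediateField K Ω)

/-- `[F : K(j)]` as a relative rank in the ambient field. -/
theorem finrank_adjoin_eq_relfinrank (j : ↥F) :
    Module.finrank ↥(K⟮j⟯) ↥F
      = (IntermediateField.adjoin K ({(j : Ω)} : Set Ω)).relfinrank F := by
  rw [← relfinrank_top_right,
    ← relfinrank_map_map (A := K⟮j⟯) (B := (⊤ : IntermediateField K ↥F)) F.val]
  congr 1
  · rw [IntermediateField.adjoin_map, Set.image_singleton]
    rfl
  · rw [← AlgHom.fieldRange_eq_map, IntermediateField.fieldRange_val]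

/-- Membership in `K(j)`, computed in `F` or in the ambient field. -/
theorem mem_adjoin_iff_coe_mem (j x : ↥F) :
    x ∈ K⟮j⟯ ↔ (x : Ω) ∈ IntermediateField.adjoin K ({(j : Ω)} : Set Ω) := by
  have e : (K⟮j⟯).map F.val = IntermediateField.adjoin K ({(j : Ω)} : Set Ω) := by
    rw [IntermediateField.adjoin_map, Set.image_singleton]
    rfl
  rw [← e]
  constructor
  · intro hx
    exact ⟨x, hx, rfl⟩
  · rintro ⟨y, hy, hxy⟩
    have : y = x := Subtype.ext hxy
    rwa [← this]

end Fields

end Fermat.Agent.S48.B2.R.H96
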