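import Fermat.Agent.BAD.H88_VM2
import Fermat.Agent.RED.H73_GAFinal
import Fermat.Agent.RED.H73_GACard
import Fermat.Agent.S48.B2.R.H66_ValU
import Fermat.Agent.S48.B2.R.H96_Irr3Gen

/-!
# S48 B2, slice R, leaf IRR-3 (helper96)

`K = ℚ̄`, `A` a valuation subring of `K` over the prime `p`, `k` its residue field,
`F₀(M) = modularFunctionFieldBar M ⊂ K((q))`, `κ₀(M) ⊂ k((q))` the residue field of its Gauss
valuation.  For a prime `r ∤ p M` (and `p ∤ M`):

  **`w ∈ κ₀(M)` and `w (q ^ r) ∈ κ₀(M)`  ⟹  `w` is constant.**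

Proof: on `F₀(M r)` the Atkin–Lehner involution `w_r` (helper88, `BAD.H88.wq`) exchanges the two
degeneracy maps `α` (inclusion) and `β` (`q ↦ q ^ r`).  The valuation ring `V₂ = V₁ ∘ w_r` has the
same trace on `K(j)` as the Gauss valuation ring `V₁`; the residue degree of `V₁` over `K(j)` is
the full degree `ψ(M r)` (GA, helper73), so `V₂ = V₁` by VAL-U (helper66).  If `w = red x`,
`w (q ^ r) = red y`, then `f = β x - α y` is in the maximal ideal of `V₁ = V₂`, so
`w_r f = α x - β y` is in the maximal ideal of `V₁`: `w = w (q ^ (r * r))`, hence `w` is constant.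

Main statements:
* `V2_eq_V1`    : the Atkin–Lehner involution preserves the Gauss valuation ring (`p ∤ M r`);
* `irr3_elts`   : the statement for elements `x, y` of the Gauss valuation ring of `F₀(M)`;
* `stmt_Irr3 : Stmt_Irr3`.
-/

set_option autoImplicit false
set_option synthInstance.maxHeartbeats 400000
set_option maxHeartbeats 1000000
set_option linter.unusedSectionVars false
set_option linter.style.haveILetI false

noncomputable section

namespace Fermat.Agent.S48.B2.R.H96

open Fermat.Agent.S24 ModularCurve Fermat.Agent.S28 Fermat.Agent.S28.H73 Fermat.Agent.RED.H73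
open Fermat.Agent.BAD.H88 IntermediateField

/-- **IRR-3**: a function `w` in the residue field `κ₀(M)` of the Gauss valuation of `F₀(M)`
(at `A ∣ p`, `p ∤ M`) such that `w (q ^ r)` is again in `κ₀(M)`, `r` a prime not dividing `p M`,
is constant. -/
def Stmt_Irr3 : Prop :=
  ∀ (M p r : ℕ) [NeZero M] [NeZero r], p.Prime → r.Prime → ¬ p ∣ M → ¬ r ∣ p * M →
    ∀ A : ValuationSubring (AlgebraicClosure ℚ), A.LiesOverPrime p →
      ∀ w : LaurentSeries (kV A),
        w ∈ redField A (modularFunctionFieldBar M) (hasScale_laurentBaseChange A M) →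
        qExpand (kV A) r w ∈
          redField A (modularFunctionFieldBar M) (hasScale_laurentBaseChange A M) →
        ∃ c : kV A, w = HahnSeries.C c

/-! ## The function `j` in `F₀(N)` and in the residue field -/

section J

variable (A : ValuationSubring Kbar) (N : ℕ) [NeZero N]

theorem bar_eq_fullC : modularFunctionFieldBar N = modularFunctionFieldFullC Kbar N :=
  laurentBaseChange_full_eq N

theorem jq_mem_bar : jqModC Kbar ∈ modularFunctionFieldBar N := by
  rw [bar_eq_fullC]
  exact jqModC_mem_full Kbar N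

/-- `j` as an element of `F₀(N)`. -/
def jN : FN N := ⟨jqModC Kbar, jq_mem_bar N⟩

theorem fullC_one' (K : Type) [Field K] :
    modularFunctionFieldFullC K 1 = IntermediateField.adjoin K ({jqModC K} : Set _) := by
  rw [modularFunctionFieldFullC]
  congr 1
  ext x
  constructor
  · rintro ⟨d, hd0, hd, rfl⟩
    have : d = 1 := Nat.dvd_one.mp hd
    subst this
    rw [qExpand_one_apply]
    rfl
  · intro hx
    rw [Set.mem_singleton_iff] at hx
    subst hx
    exact ⟨1, inferInstance, dvd_rfl, (qExpand_one_apply _).symm⟩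

theorem adjoin_jq_le_bar :
    IntermediateField.adjoin Kbar ({jqModC Kbar} : Set (LaurentSeries Kbar))
      ≤ modularFunctionFieldBar N := by
  rw [IntermediateField.adjoin_le_iff]
  rintro x hx
  rw [Set.mem_singleton_iff] at hx
  subst hx
  exact jq_mem_bar N

end J

theorem dedekindPsi_pos96 (N : ℕ) [NeZero N] : 0 < dedekindPsi N := by
  rw [dedekindPsi]
  have h1 : (1 : ℕ) ∈ (N.divisors).filter (fun d => Squarefree d) := by
    rw [Finset.mem_filter]
    exact ⟨Nat.one_mem_divisors.mpr (NeZero.ne N), squarefree_one⟩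
  have h2 : N / 1 ≤ ∑ d ∈ (N.divisors).filter (fun d => Squarefree d), N / d :=
    Finset.single_le_sum (f := fun d => N / d) (fun _ _ => Nat.zero_le _) h1
  rw [Nat.div_one] at h2
  exact lt_of_lt_of_le (Nat.pos_of_ne_zero (NeZero.ne N)) h2

/-! ## The Atkin–Lehner involution preserves the Gauss valuation -/

section Key

variable (A : ValuationSubring Kbar) (p r M : ℕ) [NeZero M] [NeZero r]
variable (a b : ℤ) (hab : a * r + b * M = 1) (hr : r.Prime)
variable (hp : p.Prime) (hA : A.LiesOverPrime p)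

include hp hA in
/-- The reduction of a Gauss-integral element of `K(j)` lies in `k(j~)`. -/
theorem gaussRedV_mem_adjoin {x : LaurentSeries Kbar}
    (hx : x ∈ IntermediateField.adjoin Kbar ({jqModC Kbar} : Set (LaurentSeries Kbar)))
    (hG : x ∈ gaussRingV A) :
    gaussRedV A ⟨x, hG⟩ ∈
      IntermediateField.adjoin (kV A) ({jqModC (kV A)} : Set (LaurentSeries (kV A))) := by
  have hp1 : ¬ p ∣ 1 := fun h => hp.one_lt.ne' (Nat.dvd_one.mp h)
  have h1 : x ∈ modularFunctionFieldBar 1 := by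
    rw [bar_eq_fullC, fullC_one']
    exact hx
  have hV : (⟨x, h1⟩ : FN 1) ∈ VM A 1 := hG
  have h2 := gaussResF_mem_redField A (hScM A 1) ⟨⟨x, h1⟩, hV⟩
  have h3 : redField A (modularFunctionFieldBar 1) (hScM A 1)
      = modularFunctionFieldFullC (kV A) 1 := stmt_GA 1 p hp hp1 A hA
  rw [h3, fullC_one'] at h2
  exact h2

include hab hr hp hA in
/-- **The Atkin–Lehner involution `w_r` preserves the Gauss valuation ring** of `F₀(M r)` at a
place of residue characteristic `p ∤ M r`. -/
theorem V2_eq_V1 (hpN : ¬ p ∣ M * r) : V2 A r M a b hab hr = V1 A r M := by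
  classical
  have hN : (((M * r : ℕ) : Kbar))⁻¹ ∈ A :=
    inv_natCast_mem_of_liesOver (N := M * r) A hp hpN hA
  -- the residue field
  have hκ : redField A (modularFunctionFieldBar (M * r)) (hSc A r M)
      = modularFunctionFieldFullC (kV A) (M * r) := stmt_GA (M * r) p hp hpN A hA
  have hjκ : jqModC (kV A) ∈ redField A (modularFunctionFieldBar (M * r)) (hSc A r M) := by
    rw [hκ]
    exact jqModC_mem_full (kV A) (M * r)
  let jκ : F1 A r M := ⟨jqModC (kV A), hjκ⟩
  have hdegκ : Module.finrank ↥((kV A)⟮jκ⟯) (F1 A r M) = dedekindPsi (M * r) := by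
    rw [finrank_adjoin_eq_relfinrank]
    show (IntermediateField.adjoin (kV A)
      ({jqModC (kV A)} : Set (LaurentSeries (kV A)))).relfinrank
        (redField A (modularFunctionFieldBar (M * r)) (hSc A r M)) = _
    rw [hκ]
    exact relfinrank_fullC_red_bar A hN
  have hdegF : Module.finrank ↥(Kbar⟮jN (M * r)⟯) (FN (M * r)) = dedekindPsi (M * r) := by
    rw [finrank_adjoin_eq_relfinrank]
    show (IntermediateField.adjoin Kbar
      ({jqModC Kbar} : Set (LaurentSeries Kbar))).relfinrank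
        (modularFunctionFieldBar (M * r)) = _
    rw [bar_eq_fullC]
    exact relfinrank_fullC_bar (M * r)
  have hpos : 0 < dedekindPsi (M * r) := dedekindPsi_pos96 (M * r)
  haveI : FiniteDimensional ↥(Kbar⟮jN (M * r)⟯) (FN (M * r)) :=
    Module.finite_of_finrank_pos (by rw [hdegF]; exact hpos)
  haveI : FiniteDimensional ↥((kV A)⟮jκ⟯) (F1 A r M) :=
    Module.finite_of_finrank_pos (by rw [hdegκ]; exact hpos)
  let B := Module.finBasis ↥((kV A)⟮jκ⟯) (F1 A r M)
  -- lifts of the basis
  have hlift : ∀ i, ∃ u : ↥(V1 A r M), red1 A r M u = B i :=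
    fun i => red1_surjective A r M (B i)
  choose u hu using hlift
  refine H66.valU_comap (E := ↥(Kbar⟮jN (M * r)⟯)) (V1 A r M) (V2 A r M a b hab hr) ?_
    (ι := Fin (Module.finrank ↥((kV A)⟮jκ⟯) (F1 A r M))) ?_
    (fun i => ((u i : ↥(V1 A r M)) : FN (M * r))) (fun i => (u i).2) ?_
  · -- the two rings have the same trace on `K(j)`
    ext e
    rw [ValuationSubring.mem_comap, ValuationSubring.mem_comap]
    have hmem : (((e : FN (M * r)) : LaurentSeries Kbar)) ∈ modularFunctionFieldBar M :=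
      adjoin_jq_le_bar M
        ((mem_adjoin_iff_coe_mem _ (jN (M * r)) (e : FN (M * r))).1 e.2)
    have hx : heckeAlphaBar Kbar M r ⟨_, hmem⟩ = (e : FN (M * r)) :=
      Subtype.ext (coe_heckeAlphaBar M r _)
    show (e : FN (M * r)) ∈ V1 A r M ↔ (e : FN (M * r)) ∈ V2 A r M a b hab hr
    rw [← hx, alpha_mem_V1_iff, alpha_mem_V2_iff]
  · rw [Fintype.card_fin, hdegκ, hdegF]
  · intro c hc hlt i
    let c' : Fin (Module.finrank ↥((kV A)⟮jκ⟯) (F1 A r M)) → ↥(V1 A r M) :=
      fun i => ⟨((c i : ↥(Kbar⟮jN (M * r)⟯)) : FN (M * r)), hc i⟩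
    have hs : (((∑ i, c' i * u i : ↥(V1 A r M))) : FN (M * r))
        = ∑ i, c i • ((u i : ↥(V1 A r M)) : FN (M * r)) := by
      rw [← ValuationSubring.subtype_apply, map_sum]
      refine Finset.sum_congr rfl fun i _ => ?_
      rw [Algebra.smul_def]
      rfl
    have hs0 : red1 A r M (∑ i, c' i * u i) = 0 := by
      rw [red1_eq_zero_iff, ValuationSubring.valuation_lt_one_iff, hs]
      exact hlt
    have hcκ : ∀ i, red1 A r M (c' i) ∈ (kV A)⟮jκ⟯ := by
      intro i
      rw [mem_adjoin_iff_coe_mem, coe_gaussResF'_eq]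
      refine gaussRedV_mem_adjoin A p hp hA ?_ _
      exact (mem_adjoin_iff_coe_mem _ (jN (M * r)) (c i : FN (M * r))).1 (c i).2
    have hsum : ∑ i, (⟨red1 A r M (c' i), hcκ i⟩ : ↥((kV A)⟮jκ⟯)) • B i = 0 := by
      rw [← hs0, map_sum]
      refine Finset.sum_congr rfl fun i _ => ?_
      rw [map_mul, hu, Algebra.smul_def]
      rfl
    have h0 := (Fintype.linearIndependent_iff.1 B.linearIndependent) _ hsum i
    have h1 : red1 A r M (c' i) = 0 := congrArg Subtype.val h0
    rw [red1_eq_zero_iff, ValuationSubring.valuation_lt_one_iff] at h1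
    exact h1

end Key

/-! ## IRR-3 -/

section Core

variable (A : ValuationSubring Kbar) (p r M : ℕ) [NeZero M] [NeZero r]
variable (hr : r.Prime) (hp : p.Prime) (hA : A.LiesOverPrime p)

include hr hp hA in
/-- **IRR-3, element form**: if `x, y ∈ F₀(M)` are Gauss-integral and `red y = (red x)(q ^ r)`,
then `red x` is constant. -/
theorem irr3_elts (hpM : ¬ p ∣ M) (hrM : ¬ r ∣ p * M) (x y : FN M) (hx : x ∈ VM A M)
    (hy : y ∈ VM A M)
    (hrel : ((redM A M ⟨y, hy⟩ : FM A M) : LaurentSeries (kV A))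
      = qExpand (kV A) r ((redM A M ⟨x, hx⟩ : FM A M) : LaurentSeries (kV A))) :
    ∃ c : kV A, ((redM A M ⟨x, hx⟩ : FM A M) : LaurentSeries (kV A)) = HahnSeries.C c := by
  have hrM' : ¬ r ∣ M := fun h => hrM (h.mul_left p)
  have hrp : r ≠ p := fun h => hrM (h ▸ dvd_mul_right r M)
  have hpN : ¬ p ∣ M * r := by
    intro h
    rcases (Nat.Prime.dvd_mul hp).1 h with h1 | h1
    · exact hpM h1
    · exact hrp ((Nat.prime_dvd_prime_iff_eq hp hr).1 h1).symm
  obtain ⟨a, b, hab⟩ : ∃ a b : ℤ, a * r + b * M = 1 := by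
    have hcop : Nat.Coprime r M := (Nat.Prime.coprime_iff_not_dvd hr).2 hrM'
    have h1 : Int.gcd (r : ℤ) (M : ℤ) = 1 := by
      rw [Int.gcd_natCast_natCast]
      exact hcop
    have h2 := Int.gcd_eq_gcd_ab (r : ℤ) (M : ℤ)
    rw [h1] at h2
    refine ⟨Int.gcdA r M, Int.gcdB r M, ?_⟩
    push_cast at h2
    linarith
  have hV := V2_eq_V1 A p r M a b hab hr hp hA hpN
  set w : LaurentSeries (kV A) := ((redM A M ⟨x, hx⟩ : FM A M) : LaurentSeries (kV A)) with hw
  have hβx : heckeBetaBar Kbar M r x ∈ V1 A r M := (beta_mem_V1_iff A r M x).2 hx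
  have hαy : heckeAlphaBar Kbar M r y ∈ V1 A r M := (alpha_mem_V1_iff A r M y).2 hy
  have hαx : heckeAlphaBar Kbar M r x ∈ V1 A r M := (alpha_mem_V1_iff A r M x).2 hx
  have hβy : heckeBetaBar Kbar M r y ∈ V1 A r M := (beta_mem_V1_iff A r M y).2 hy
  -- `f = β x - α y` reduces to `0`
  have hf0 : red1 A r M (⟨_, hβx⟩ - ⟨_, hαy⟩) = 0 := by
    apply Subtype.ext
    rw [map_sub]
    show ((red1 A r M ⟨_, hβx⟩ : F1 A r M) : LaurentSeries (kV A))
      - ((red1 A r M ⟨_, hαy⟩ : F1 A r M) : LaurentSeries (kV A)) = 0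
    rw [red1_beta A r M x hx hβx, red1_alpha A r M y hy hαy, hrel, sub_self]
  have hfm := (red1_eq_zero_iff A r M _).1 hf0
  -- `w_r f = α x - β y`
  have hwf : wq r M a b hab hr (heckeBetaBar Kbar M r x - heckeAlphaBar Kbar M r y)
      = heckeAlphaBar Kbar M r x - heckeBetaBar Kbar M r y := by
    rw [map_sub, wq_beta, wq_alpha]
  have hgm : (⟨_, hαx⟩ - ⟨_, hβy⟩ : ↥(V1 A r M)) ∈ IsLocalRing.maximalIdeal ↥(V1 A r M) := by
    rw [mem_maximalIdeal_iff'] at hfm ⊢
    rcases hfm with h | h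
    · left
      have h' : heckeBetaBar Kbar M r x - heckeAlphaBar Kbar M r y = 0 := h
      show heckeAlphaBar Kbar M r x - heckeBetaBar Kbar M r y = 0
      rw [← hwf, h', map_zero]
    · right
      intro hginv
      apply h
      show (heckeBetaBar Kbar M r x - heckeAlphaBar Kbar M r y)⁻¹ ∈ V1 A r M
      rw [← hV, mem_V2_iff, map_inv₀, hwf]
      exact hginv
  have hg0 := (red1_eq_zero_iff A r M _).2 hgm
  have hfix : qExpand (kV A) (r * r) w = w := by
    have h1 : ((red1 A r M (⟨_, hαx⟩ - ⟨_, hβy⟩) : F1 A r M) : LaurentSeries (kV A)) = 0 := by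
      rw [hg0]
      rfl
    rw [map_sub] at h1
    have h2 : ((red1 A r M ⟨_, hαx⟩ : F1 A r M) : LaurentSeries (kV A))
      - ((red1 A r M ⟨_, hβy⟩ : F1 A r M) : LaurentSeries (kV A)) = 0 := h1
    rw [red1_alpha A r M x hx hαx, red1_beta A r M y hy hβy, hrel, qExpand_qExpand,
      sub_eq_zero] at h2
    exact h2.symm
  have hr2 : 2 ≤ r * r := by
    have := hr.two_le
    nlinarith
  exact ⟨w.coeff 0, eq_C_of_qExpand_eq (r * r) hr2 w hfix⟩

end Core

/-- **IRR-3.** -/
theorem stmt_Irr3 : Stmt_Irr3 := by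
  intro M p r _ _ hp hr hpM hrM A hA w hw hw'
  obtain ⟨x, rfl⟩ := hw
  obtain ⟨y, hy⟩ := hw'
  obtain ⟨c, hc⟩ := irr3_elts A p r M hr hp hA hpM hrM (x : FN M) (y : FN M) x.2 y.2 hy
  exact ⟨c, hc⟩

end Fermat.Agent.S48.B2.R.H96
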