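import Fermat.Agent.S48.B2.R.H96_Irr3

/-!
# S48 B2, slice R, leaf IRR-3 (helper96): the statement in the binder order of the IRR assembly

`irr3_shape` is `stmt_Irr3` with the binders in the order used by helper25's `Stmt_IRR3`.
-/

set_option autoImplicit false

noncomputable section

namespace Fermat.Agent.S48.B2.R.H96

open ModularCurve Fermat.Agent.S28 Fermat.Agent.S28.H73 Fermat.Agent.RED.H73

/-- **IRR-3**, binder order of the IRR assembly. -/
theorem irr3_shape :
    ∀ (M : ℕ) [NeZero M] (p : ℕ), p.Prime → ¬ p ∣ M →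
      ∀ A : ValuationSubring (AlgebraicClosure ℚ), A.LiesOverPrime p →
        ∀ (r : ℕ) [NeZero r], r.Prime → ¬ r ∣ p * M →
          ∀ w : LaurentSeries (kV A),
            w ∈ redField A (modularFunctionFieldBar M) (hasScale_laurentBaseChange A M) →
            qExpand (kV A) r w ∈
              redField A (modularFunctionFieldBar M) (hasScale_laurentBaseChange A M) →
            ∃ a : kV A, w = HahnSeries.C a :=
  fun M _ p hp hpM A hA r _ hr hrM w hw hw' => stmt_Irr3 M p r hp hr hpM hrM A hA w hw hw'

/-- In particular the `q¹`-coefficient of `w` vanishes. -/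
theorem irr3_coeff_one (M : ℕ) [NeZero M] (p : ℕ) (hp : p.Prime) (hpM : ¬ p ∣ M)
    (A : ValuationSubring (AlgebraicClosure ℚ)) (hA : A.LiesOverPrime p)
    (r : ℕ) [NeZero r] (hr : r.Prime) (hrM : ¬ r ∣ p * M) (w : LaurentSeries (kV A))
    (hw : w ∈ redField A (modularFunctionFieldBar M) (hasScale_laurentBaseChange A M))
    (hw' : qExpand (kV A) r w ∈
      redField A (modularFunctionFieldBar M) (hasScale_laurentBaseChange A M))
    (n : ℤ) (hn : n ≠ 0) : w.coeff n = 0 := by
  obtain ⟨a, ha⟩ := irr3_shape M p hp hpM A hA r hr hrM w hw hw'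
  rw [ha, HahnSeries.C_apply, HahnSeries.coeff_single_of_ne hn]

end Fermat.Agent.S48.B2.R.H96
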